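/-
S28 library (helper24): Laurent series with coefficients in a subring `A ⊂ 𝕂`, and their
coefficientwise reduction along a ring homomorphism `r : A → k`.
No sorry.
-/
import Mathlib
import Fermat.Prelude.Def_ModularCurve_LaurentCoeff

set_option autoImplicit false

open ModularCurve

namespace Fermat.Agent.S28lib

noncomputable section

variable {𝕂 : Type*} [Field 𝕂] (A : Subring 𝕂)

/-- The subring of Laurent series all of whose coefficients lie in `A`. -/
def coeffRing : Subring (LaurentSeries 𝕂) := (coeffMap A.subtype).range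

variable {A}

theorem mem_coeffRing_iff {f : LaurentSeries 𝕂} : f ∈ coeffRing A ↔ ∀ n : ℤ, f.coeff n ∈ A := by
  constructor
  · rintro ⟨g, rfl⟩ n
    rw [coeffMap_coeff]
    exact (g.coeff n).2
  · intro h
    refine ⟨⟨fun n => ⟨f.coeff n, h n⟩, ?_⟩, ?_⟩
    · refine f.isPWO_support.mono ?_
      intro n hn
      simp only [Function.mem_support, ne_eq] at hn ⊢
      intro h0
      exact hn (Subtype.ext h0)
    · ext n
      rfl

theorem coeffMap_subtype_injective : Function.Injective (coeffMap A.subtype) := by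
  intro x y h
  ext n
  have := congrArg (fun z => z.coeff n) h
  simpa using this

/-- `A((t)) ≃ coeffRing A`. -/
def coeffRingEquiv : LaurentSeries ↥A ≃+* ↥(coeffRing A) :=
  RingEquiv.ofBijective (coeffMap A.subtype).rangeRestrict
    ⟨fun _ _ h => coeffMap_subtype_injective (congrArg Subtype.val h),
      (coeffMap A.subtype).rangeRestrict_surjective⟩

@[simp] theorem coeffRingEquiv_apply_coe (g : LaurentSeries ↥A) :
    ((coeffRingEquiv g : ↥(coeffRing A)) : LaurentSeries 𝕂) = coeffMap A.subtype g := rfl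

theorem coeff_coeffRingEquiv_symm (f : ↥(coeffRing A)) (n : ℤ) :
    (((coeffRingEquiv (A := A)).symm f).coeff n : 𝕂) = (f : LaurentSeries 𝕂).coeff n := by
  have h : ((coeffRingEquiv ((coeffRingEquiv (A := A)).symm f) : ↥(coeffRing A)) :
      LaurentSeries 𝕂).coeff n = (f : LaurentSeries 𝕂).coeff n := by
    rw [RingEquiv.apply_symm_apply]
  rw [coeffRingEquiv_apply_coe, coeffMap_coeff] at h
  exact h

variable {k : Type*} [CommRing k]

/-- Coefficientwise reduction `coeffRing A → k((t))` along `r : A → k`. -/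
def coeffRed (r : ↥A →+* k) : ↥(coeffRing A) →+* LaurentSeries k :=
  (coeffMap r).comp (coeffRingEquiv (A := A)).symm.toRingHom

theorem coeffRed_coeff (r : ↥A →+* k) (f : ↥(coeffRing A)) (n : ℤ)
    (hn : (f : LaurentSeries 𝕂).coeff n ∈ A) :
    (coeffRed r f).coeff n = r ⟨(f : LaurentSeries 𝕂).coeff n, hn⟩ := by
  unfold coeffRed
  simp only [RingHom.coe_comp, Function.comp_apply, coeffMap_coeff]
  congr 1
  exact Subtype.ext (coeff_coeffRingEquiv_symm f n)

theorem coeffRed_eq_zero_iff (r : ↥A →+* k) (f : ↥(coeffRing A)) :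
    coeffRed r f = 0 ↔
      ∀ (n : ℤ) (hn : (f : LaurentSeries 𝕂).coeff n ∈ A),
        r ⟨(f : LaurentSeries 𝕂).coeff n, hn⟩ = 0 := by
  constructor
  · intro h n hn
    rw [← coeffRed_coeff r f n hn, h]
    rfl
  · intro h
    ext n
    rw [coeffRed_coeff r f n (mem_coeffRing_iff.mp f.2 n), h]
    rfl

/-- If `ker r` is generated by `π`, the kernel of the coefficientwise reduction is `π · A((t))`. -/
theorem exists_eq_mul_of_coeffRed_eq_zero (r : ↥A →+* k) (π : ↥A)
    (hker : ∀ x : ↥A, r x = 0 → ∃ y : ↥A, x = π * y)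
    (f : ↥(coeffRing A)) (hf : coeffRed r f = 0) :
    ∃ g : ↥(coeffRing A), (f : LaurentSeries 𝕂) = HahnSeries.C (π : 𝕂) * (g : LaurentSeries 𝕂) := by
  classical
  rw [coeffRed_eq_zero_iff] at hf
  have hf' : ∀ n : ℤ, ∃ y : ↥A, (f : LaurentSeries 𝕂).coeff n = (π : 𝕂) * (y : 𝕂) := by
    intro n
    obtain ⟨y, hy⟩ := hker _ (hf n (mem_coeffRing_iff.mp f.2 n))
    exact ⟨y, by simpa using congrArg Subtype.val hy⟩
  choose y hy using hf'
  by_cases hπ : (π : 𝕂) = 0
  · refine ⟨0, ?_⟩
    ext n
    rw [hy n, hπ]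
    simp
  · have hsupp : (Function.support fun n => ((y n : ↥A) : 𝕂)) ⊆
        Function.support (f : LaurentSeries 𝕂).coeff := by
      intro n hn
      simp only [Function.mem_support, ne_eq] at hn ⊢
      rw [hy n]
      exact mul_ne_zero hπ hn
    let g : LaurentSeries 𝕂 := ⟨fun n => ((y n : ↥A) : 𝕂),
      (f : LaurentSeries 𝕂).isPWO_support.mono hsupp⟩
    refine ⟨⟨g, mem_coeffRing_iff.mpr fun n => (y n).2⟩, ?_⟩
    ext n
    rw [HahnSeries.C_mul_eq_smul, HahnSeries.coeff_smul, hy n]
    rfl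

end

end Fermat.Agent.S28lib
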