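/-
S28 library (helper24): the conjugate expansions `sig q : F → ℂ((t))` of the function field
`F = modularFunctionFieldFull N` over `ℚ`, obtained from the S24 library (`embF`, `twist`, `expInf`).
Definitions only; no sorry.
-/
import Mathlib
import Fermat.Agent.S24lib.Embed
import Fermat.Agent.S24lib.ExpInf

set_option autoImplicit false

open scoped MatrixGroups
open ModularCurve CongruenceSubgroup

namespace Fermat.Agent.S28lib

open Fermat.Agent.S24lib

noncomputable section

variable (N : ℕ) [NeZero N]

/-- `F = ℚ(j_d : d ∣ N) → F ⊗ ℚ̄ = FF N`. -/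
def toFF : ↥(modularFunctionFieldFull N) →+* FF N where
  toFun x := ⟨coeffEmb Kbar (x : LaurentSeries ℚ), coeffEmb_mem_laurentBaseChange Kbar x.2⟩
  map_one' := Subtype.ext (map_one _)
  map_mul' _ _ := Subtype.ext (map_mul _ _ _)
  map_zero' := Subtype.ext (map_zero _)
  map_add' _ _ := Subtype.ext (map_add _ _ _)

@[simp] theorem coe_toFF (x : ↥(modularFunctionFieldFull N)) :
    ((toFF N x : FF N) : LaurentSeries Kbar) = coeffEmb Kbar (x : LaurentSeries ℚ) := rfl

/-- The conjugate expansion attached to the coset `q = gΓ₀(N)`: `f ↦ q_N`-expansion of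
`g • f` (`(g • f)(z) = f(g⁻¹ z)`), restricted to `F`. -/
def sig (q : SL(2, ℤ) ⧸ Gamma0 N) : ↥(modularFunctionFieldFull N) →+* LaurentSeries ℂ :=
  (embF N (twist N (expInf N) q.out) (twist_injective N (expInf_injective N) _)).comp (toFF N)

theorem sig_apply (q : SL(2, ℤ) ⧸ Gamma0 N) (x : ↥(modularFunctionFieldFull N)) :
    sig N q x =
      embF N (twist N (expInf N) q.out) (twist_injective N (expInf_injective N) _) (toFF N x) :=
  rfl

end

end Fermat.Agent.S28lib
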