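/-
S28 library, piece X (helper13): integrality of the conjugate expansions.

For a subring `A ⊂ ℂ` containing the `N`-th roots of unity:
* `exists_Aseries_jd_conj` : every conjugate `z ↦ j(d · (g • z))` (`d ∣ N`) has a convergent
  `q_N`-expansion with coefficients in `A`;
* `sig_jd_coeff_mem` : the coefficients of `sig N q (j_d)` lie in `A`;
* `sig_frac` : every `sig N q f` is a quotient of two series with coefficients in `A`.
No sorry in this file.
-/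
import Mathlib
import Fermat.Agent.S24lib.ConjFinal
import Fermat.Agent.S28lib.Sig
import Fermat.Agent.S28lib.CoeffRing

set_option autoImplicit false

open UpperHalfPlane ModularForm CongruenceSubgroup
open scoped MatrixGroups ModularForm Manifold
open ModularCurve

namespace Fermat.Agent.S28lib

open Fermat.Agent.S24lib Fermat.Agent.S20lib

/-- Powers of `ζ_δ` are `N`-th roots of unity when `δ ∣ N`. -/
lemma ci_zetaC_zpow_pow (N δ : ℕ) (hδ : 0 < δ) (hδN : δ ∣ N) (k : ℤ) :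
    (zetaC δ ^ k) ^ N = 1 := by
  obtain ⟨m, rfl⟩ := hδN
  have h0 : zetaC δ ≠ 0 := Complex.exp_ne_zero _
  rw [← zpow_natCast (zetaC δ ^ k), ← zpow_mul, Nat.cast_mul, mul_comm k, mul_assoc, zpow_mul,
    zpow_natCast, zetaC_pow δ hδ, one_zpow]

/-- **X0.** Every conjugate of `j(d·)` has a `q_N`-expansion with coefficients in `A`. -/
theorem exists_Aseries_jd_conj {N d : ℕ} [NeZero N] (hd : d ∣ N)
    (A : Subring ℂ) (hA : ∀ ζ : ℂ, ζ ^ N = 1 → ζ ∈ A) (g : SL(2, ℤ)) :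
    ∃ (m : ℕ) (C : ℕ → ℂ), (∀ k, C k ∈ A) ∧
      ∀ z : ℍ, HasSum (fun k : ℕ => C k * Function.Periodic.qParam N (z : ℂ) ^ k)
        (Function.Periodic.qParam N (z : ℂ) ^ m *
          jH (ofComplex ((d : ℂ) * ((g • z : ℍ) : ℂ)))) := by
  have hdne : NeZero d := ⟨fun h => by rw [h, zero_dvd_iff] at hd; exact NeZero.ne N hd⟩
  obtain ⟨a, δ, b, ha, hδ, haδ, -, -, hj⟩ := jH_nmulH_smul d g
  have hδN : δ ∣ N := (Dvd.intro_left a haδ).trans hd
  have hN : 0 < N := Nat.pos_of_ne_zero (NeZero.ne N)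
  obtain ⟨e, he_def⟩ : ∃ e : ℕ, e = a * (N / δ) := ⟨_, rfl⟩
  have he : 0 < e := by
    rw [he_def]
    exact Nat.mul_pos ha (Nat.div_pos (Nat.le_of_dvd hN hδN) hδ)
  obtain ⟨u, hu⟩ : ∃ u : ℂ, u = zetaC δ ^ b := ⟨_, rfl⟩
  have hune : u ≠ 0 := by
    rw [hu]
    exact zpow_ne_zero _ (Complex.exp_ne_zero _)
  obtain ⟨c', hc'⟩ : ∃ c' : ℕ → ℂ, c' = fun n : ℕ =>
      ((ModularCurve.jq.coeff ((n : ℤ) - 1) : ℚ) : ℂ) * u ^ ((n : ℤ) - 1) := ⟨_, rfl⟩
  refine ⟨e, fun k => if e ∣ k then c' (k / e) else 0, ?_, ?_⟩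
  · intro k
    by_cases hk : e ∣ k
    · simp only [hk, if_true]
      rw [hc']
      simp only
      refine A.mul_mem ?_ ?_
      · rw [jq_coeff_sub_one]
        push_cast
        exact intCast_mem A _
      · apply hA
        rw [hu, ← zpow_mul]
        exact ci_zetaC_zpow_pow N δ hδ hδN _
    · simp only [hk, if_false]
      exact A.zero_mem
  · intro z
    apply hasSum_pow_reindex e he c'
    have h := hasSum_jH_affH N a δ b ha hδ hN hδN z
    rw [← hu, ← he_def] at h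
    have h2 := h.mul_left (u⁻¹)
    have hS : u⁻¹ * (u * Function.Periodic.qParam N (z : ℂ) ^ e * jH (affH a δ b ha hδ z)) =
        Function.Periodic.qParam N (z : ℂ) ^ e *
          jH (ofComplex ((d : ℂ) * ((g • z : ℍ) : ℂ))) := by
      rw [jd_raw_eq, hj z]
      field_simp
    have hF : (fun i : ℕ => u⁻¹ * (((ModularCurve.jq.coeff ((i : ℤ) - 1) : ℚ) : ℂ) *
        (u * Function.Periodic.qParam N (z : ℂ) ^ e) ^ i)) =
        fun n : ℕ => c' n * (Function.Periodic.qParam N (z : ℂ) ^ e) ^ n := by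
      funext n
      rw [hc']
      simp only
      rw [mul_pow, zpow_sub_one₀ hune, zpow_natCast]
      ring
    rw [hS, hF] at h2
    exact h2

/-- The `q_N`-expansion of every conjugate of `j(d·)` has coefficients in `A`. -/
theorem jd_conj_expInf_coeff_mem_subring {N d : ℕ} [NeZero N] (hd : d ∣ N)
    (A : Subring ℂ) (hA : ∀ ζ : ℂ, ζ ^ N = 1 → ζ ∈ A) (φ : WH N)
    (hφ : ∀ z : ℍ, (φ : ℍ → ℂ) z = jH (ofComplex ((d : ℂ) * (z : ℂ))))
    (g : SL(2, ℤ)) (n : ℤ) : (expInf N (g • φ)).coeff n ∈ A := by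
  obtain ⟨k, hk⟩ := (g • φ).2
  obtain ⟨m, C, hC, hsum⟩ := exists_Aseries_jd_conj hd A hA g⁻¹
  have hL := expInf_mul_pow (g • φ) k hk
  refine laurent_coeff_mem_of_hasSum hk (g • φ).2.mdiff m C (fun z => ?_) _ hL (A : Set ℂ)
    A.zero_mem hC n
  rw [wh_smul_apply, hφ]
  exact hsum z

variable (N : ℕ) [NeZero N]

omit [NeZero N] in
lemma ci_toFF_jd (d : ℕ) [NeZero d] (hd : d ∣ N) :
    toFF N ⟨qExpand ℚ d jq, jqd_mem_full N hd⟩ = jdF N d hd := rfl

/-- **X1.** The coefficients of the conjugate expansions of `j_d` lie in `A`. -/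
theorem sig_jd_coeff_mem (A : Subring ℂ) (hA : ∀ ζ : ℂ, ζ ^ N = 1 → ζ ∈ A)
    (q : SL(2, ℤ) ⧸ Gamma0 N) (d : ℕ) [NeZero d] (hd : d ∣ N) (n : ℤ) :
    (sig N q ⟨qExpand ℚ d jq, jqd_mem_full N hd⟩).coeff n ∈ A := by
  rw [sig_apply, ci_toFF_jd, embF_jdF, twist_apply]
  exact jd_conj_expInf_coeff_mem_subring hd A hA (jdWH N d hd) (fun z => rfl) q.out n

/-- **X2.** Every conjugate expansion is a quotient of series with coefficients in `A`. -/
theorem sig_frac (A : Subring ℂ) (hA : ∀ ζ : ℂ, ζ ^ N = 1 → ζ ∈ A)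
    (q : SL(2, ℤ) ⧸ Gamma0 N) (f : ↥(modularFunctionFieldFull N)) :
    ∃ b : LaurentSeries ℂ, b ∈ coeffRing A ∧ b ≠ 0 ∧ sig N q f * b ∈ coeffRing A := by
  obtain ⟨f, hf⟩ := f
  refine IntermediateField.adjoin_induction (F := ℚ) (s := divisorExpansions N)
    (p := fun x hx => ∃ b : LaurentSeries ℂ, b ∈ coeffRing A ∧ b ≠ 0 ∧
      sig N q ⟨x, hx⟩ * b ∈ coeffRing A) ?_ ?_ ?_ ?_ ?_ hf
  · rintro x ⟨d, hne, hd, rfl⟩
    have := hne
    refine ⟨1, (coeffRing A).one_mem, one_ne_zero, ?_⟩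
    rw [mul_one, mem_coeffRing_iff]
    exact fun n => sig_jd_coeff_mem N A hA q d hd n
  · intro c
    have : CharZero (LaurentSeries ℂ) :=
      charZero_of_injective_algebraMap (algebraMap ℂ (LaurentSeries ℂ)).injective
    refine ⟨((c.den : ℕ) : LaurentSeries ℂ), natCast_mem _ _, ?_, ?_⟩
    · exact Nat.cast_ne_zero.2 c.den_ne_zero
    · have e1 : (⟨algebraMap ℚ (LaurentSeries ℚ) c, IntermediateField.algebraMap_mem _ c⟩ :
          ↥(modularFunctionFieldFull N)) = algebraMap ℚ ↥(modularFunctionFieldFull N) c := by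
        apply Subtype.ext
        simp
      have e2 : sig N q (algebraMap ℚ ↥(modularFunctionFieldFull N) c) *
          ((c.den : ℕ) : LaurentSeries ℂ) = ((c.num : ℤ) : LaurentSeries ℂ) := by
        rw [← map_natCast (sig N q) c.den, ← map_mul, ← map_intCast (sig N q) c.num]
        congr 1
        rw [eq_ratCast]
        have h := Rat.mul_den_eq_num c
        exact_mod_cast congrArg (fun r : ℚ => (r : ↥(modularFunctionFieldFull N))) h
      rw [e1, e2]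
      exact intCast_mem _ _
  · rintro x y hx hy ⟨b₁, hb₁, hb₁0, h₁⟩ ⟨b₂, hb₂, hb₂0, h₂⟩
    refine ⟨b₁ * b₂, (coeffRing A).mul_mem hb₁ hb₂, mul_ne_zero hb₁0 hb₂0, ?_⟩
    have e : (⟨x + y, add_mem hx hy⟩ : ↥(modularFunctionFieldFull N)) = ⟨x, hx⟩ + ⟨y, hy⟩ := rfl
    rw [e, map_add]
    have e' : (sig N q ⟨x, hx⟩ + sig N q ⟨y, hy⟩) * (b₁ * b₂) =
        (sig N q ⟨x, hx⟩ * b₁) * b₂ + (sig N q ⟨y, hy⟩ * b₂) * b₁ := by ring
    rw [e']
    exact (coeffRing A).add_mem ((coeffRing A).mul_mem h₁ hb₂) ((coeffRing A).mul_mem h₂ hb₁)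
  · rintro x hx ⟨b, hb, hb0, h⟩
    by_cases hx0 : x = 0
    · refine ⟨1, (coeffRing A).one_mem, one_ne_zero, ?_⟩
      have e : (⟨x⁻¹, inv_mem hx⟩ : ↥(modularFunctionFieldFull N)) = 0 := by
        apply Subtype.ext
        simp [hx0]
      rw [e, map_zero, zero_mul]
      exact (coeffRing A).zero_mem
    · have hx0' : (⟨x, hx⟩ : ↥(modularFunctionFieldFull N)) ≠ 0 := fun h0 =>
        hx0 (congrArg Subtype.val h0)
      have hs0 : sig N q ⟨x, hx⟩ ≠ 0 := fun h0 =>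
        hx0' ((map_eq_zero (sig N q)).1 h0)
      refine ⟨sig N q ⟨x, hx⟩ * b, h, mul_ne_zero hs0 hb0, ?_⟩
      have e : (⟨x⁻¹, inv_mem hx⟩ : ↥(modularFunctionFieldFull N)) = (⟨x, hx⟩)⁻¹ := rfl
      rw [e, ← mul_assoc, ← map_mul, inv_mul_cancel₀ hx0', map_one, one_mul]
      exact hb
  · rintro x y hx hy ⟨b₁, hb₁, hb₁0, h₁⟩ ⟨b₂, hb₂, hb₂0, h₂⟩
    refine ⟨b₁ * b₂, (coeffRing A).mul_mem hb₁ hb₂, mul_ne_zero hb₁0 hb₂0, ?_⟩
    have e : (⟨x * y, mul_mem hx hy⟩ : ↥(modularFunctionFieldFull N)) = ⟨x, hx⟩ * ⟨y, hy⟩ := rfl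
    rw [e, map_mul]
    have e' : sig N q ⟨x, hx⟩ * sig N q ⟨y, hy⟩ * (b₁ * b₂) =
        (sig N q ⟨x, hx⟩ * b₁) * (sig N q ⟨y, hy⟩ * b₂) := by ring
    rw [e']
    exact (coeffRing A).mul_mem h₁ h₂

end Fermat.Agent.S28lib
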