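import Mathlib

set_option autoImplicit false

namespace Fermat.Agent.S28lib

open AlgebraicGeometry CategoryTheory CategoryTheory.Limits

/-- Topological glueing: a space covered by two irreducible open subsets that meet is
irreducible. -/
theorem irreducibleSpace_of_two_open {Y : Type*} [TopologicalSpace Y] {U V : Set Y}
    (hU : IsOpen U) (_hV : IsOpen V) (hUi : IsIrreducible U) (hVi : IsIrreducible V)
    (hcov : U ∪ V = Set.univ) (hmeet : (U ∩ V).Nonempty) : IrreducibleSpace Y := by
  have hVU : V ⊆ closure U := by
    have h := subset_closure_inter_of_isPreirreducible_of_isOpen hVi.isPreirreducible hU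
      (by rwa [Set.inter_comm] at hmeet)
    exact h.trans (closure_mono Set.inter_subset_right)
  have hdense : closure U = Set.univ := by
    apply Set.eq_univ_of_univ_subset
    rw [← hcov]
    exact Set.union_subset subset_closure hVU
  have h1 : IsIrreducible (closure U) := hUi.closure
  rw [hdense] at h1
  exact (irreducibleSpace_def Y).mpr h1

/-- A scheme covered by two integral open subschemes that meet is integral. -/
theorem isIntegral_of_two_charts {X U V : Scheme.{0}} (f : U ⟶ X) (g : V ⟶ X)
    [IsOpenImmersion f] [IsOpenImmersion g] [IsIntegral U] [IsIntegral V]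
    (hcov : ∀ x : X, x ∈ Set.range f ∨ x ∈ Set.range g)
    (hmeet : (Set.range f ∩ Set.range g).Nonempty) : IsIntegral X := by
  have : IsReduced X := by
    have (x : X) : _root_.IsReduced (X.presheaf.stalk x) := by
      rcases hcov x with ⟨y, rfl⟩ | ⟨y, rfl⟩
      · exact isReduced_of_injective _
          (asIso <| f.stalkMap y).commRingCatIsoToRingEquiv.injective
      · exact isReduced_of_injective _
          (asIso <| g.stalkMap y).commRingCatIsoToRingEquiv.injective
    exact isReduced_of_isReduced_stalk _
  have : IrreducibleSpace X := by
    refine irreducibleSpace_of_two_open (U := Set.range f) (V := Set.range g)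
      f.isOpenEmbedding.isOpen_range g.isOpenEmbedding.isOpen_range ?_ ?_ ?_ hmeet
    · rw [← Set.image_univ]
      exact (IrreducibleSpace.isIrreducible_univ U).image _ f.continuous.continuousOn
    · rw [← Set.image_univ]
      exact (IrreducibleSpace.isIrreducible_univ V).image _ g.continuous.continuousOn
    · ext x; simpa using hcov x
  exact isIntegral_of_irreducibleSpace_of_isReduced X

end Fermat.Agent.S28lib
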