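import Mathlib
import Fermat.Prelude.Def_ModularCurve_IgusaScheme
import Fermat.Agent.S28lib.TwoCharts

set_option autoImplicit false

namespace Fermat.Agent.S28lib

open AlgebraicGeometry CategoryTheory CategoryTheory.Limits ModularCurve ModularCurve.IgusaScheme
open TensorProduct

noncomputable section

variable (N : ℕ) [NeZero N] (ℓ : ℕ) [Fact ℓ.Prime]
variable (K : Type) [Field K] [Algebra ↥(GaloisRep.ratLocalizedAt ℓ) K]

/-- The base-change morphism `Spec K ⟶ Spec ℤ_(ℓ)`. -/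
abbrev gK : Spec (CommRingCat.of K) ⟶ Spec (CommRingCat.of ↥(GaloisRep.ratLocalizedAt ℓ)) :=
  Spec.map (CommRingCat.ofHom (algebraMap ↥(GaloisRep.ratLocalizedAt ℓ) K))

/-- The finite chart of the fibre. -/
def cFin : pullback (Spec.map (CommRingCat.ofHom
      (algebraMap ↥(GaloisRep.ratLocalizedAt ℓ) (chartAlgFin N ℓ)))) (gK ℓ K) ⟶
    pullback (igusaTo N ℓ) (gK ℓ K) :=
  pullback.map _ _ _ _ (ιFin N ℓ) (𝟙 _) (𝟙 _) (by simp) (by simp)

/-- The infinite chart of the fibre. -/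
def cInf : pullback (Spec.map (CommRingCat.ofHom
      (algebraMap ↥(GaloisRep.ratLocalizedAt ℓ) (chartAlgInf N ℓ)))) (gK ℓ K) ⟶
    pullback (igusaTo N ℓ) (gK ℓ K) :=
  pullback.map _ _ _ _ (ιInf N ℓ) (𝟙 _) (𝟙 _) (by simp) (by simp)

instance isOpenImmersion_cFin : IsOpenImmersion (cFin N ℓ K) := by
  unfold cFin; infer_instance

instance isOpenImmersion_cInf : IsOpenImmersion (cInf N ℓ K) := by
  unfold cInf; infer_instance

/-- The middle chart, mapping to the finite chart. -/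
def cMidFin : pullback (Spec.map (CommRingCat.ofHom
      (algebraMap ↥(GaloisRep.ratLocalizedAt ℓ) (chartAlgMid N ℓ)))) (gK ℓ K) ⟶
    pullback (Spec.map (CommRingCat.ofHom
      (algebraMap ↥(GaloisRep.ratLocalizedAt ℓ) (chartAlgFin N ℓ)))) (gK ℓ K) :=
  pullback.map _ _ _ _ (fFin N ℓ) (𝟙 _) (𝟙 _)
    (by
      rw [Category.comp_id, ← Spec.map_comp, ← CommRingCat.ofHom_comp]
      congr 2) (by simp)

/-- The middle chart, mapping to the infinite chart. -/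
def cMidInf : pullback (Spec.map (CommRingCat.ofHom
      (algebraMap ↥(GaloisRep.ratLocalizedAt ℓ) (chartAlgMid N ℓ)))) (gK ℓ K) ⟶
    pullback (Spec.map (CommRingCat.ofHom
      (algebraMap ↥(GaloisRep.ratLocalizedAt ℓ) (chartAlgInf N ℓ)))) (gK ℓ K) :=
  pullback.map _ _ _ _ (fInf N ℓ) (𝟙 _) (𝟙 _)
    (by
      rw [Category.comp_id, ← Spec.map_comp, ← CommRingCat.ofHom_comp]
      congr 2) (by simp)

theorem cMidFin_cFin_eq : cMidFin N ℓ K ≫ cFin N ℓ K = cMidInf N ℓ K ≫ cInf N ℓ K := by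
  unfold cMidFin cFin cMidInf cInf
  apply pullback.hom_ext
  · simp only [Category.assoc, pullback.lift_fst, pullback.map, pullback.lift_fst_assoc]
    rw [glue_condition]
  · simp only [Category.assoc, pullback.lift_snd, pullback.map, Category.comp_id]

theorem range_pullback_map_subset_aux {X₀ X X' S Y : Scheme.{0}} (f₀ : X₀ ⟶ S) (g : Y ⟶ S)
    (f : X ⟶ S) (f' : X' ⟶ S) (i₀ : X₀ ⟶ X') (j : X₀ ⟶ X) (i : X ⟶ X') (hi : j ≫ i = i₀)
    (e₀ : f₀ ≫ 𝟙 S = i₀ ≫ f') (e : f ≫ 𝟙 S = i ≫ f') (eg : g ≫ 𝟙 S = 𝟙 Y ≫ g) :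
    Set.range (pullback.map f₀ g f' g i₀ (𝟙 Y) (𝟙 S) e₀ eg) ⊆
      Set.range (pullback.map f g f' g i (𝟙 Y) (𝟙 S) e eg) := by
  have e₁ : f₀ ≫ 𝟙 S = j ≫ f := by
    rw [e₀, ← hi, Category.assoc, ← e, Category.comp_id]
  have hfac : pullback.map f₀ g f' g i₀ (𝟙 Y) (𝟙 S) e₀ eg =
      pullback.map f₀ g f g j (𝟙 Y) (𝟙 S) e₁ eg ≫ pullback.map f g f' g i (𝟙 Y) (𝟙 S) e eg := by
    apply pullback.hom_ext
    · simp only [pullback.map, Category.assoc, pullback.lift_fst, pullback.lift_fst_assoc, hi]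
    · simp only [pullback.map, Category.assoc, pullback.lift_snd, Category.comp_id]
  rw [hfac]
  rintro _ ⟨z, rfl⟩
  exact ⟨_, rfl⟩

theorem charts_cover (y : ↥(pullback (igusaTo N ℓ) (gK ℓ K))) :
    y ∈ Set.range (cFin N ℓ K) ∨ y ∈ Set.range (cInf N ℓ K) := by
  obtain ⟨i, z, hz⟩ := (Scheme.Pullback.openCoverOfLeft
    (Scheme.IsLocallyDirected.openCover (span (fFin N ℓ) (fInf N ℓ)))
    (igusaTo N ℓ) (gK ℓ K)).exists_eq y
  have hw : (Scheme.IsLocallyDirected.openCover (span (fFin N ℓ) (fInf N ℓ))).f none =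
      fFin N ℓ ≫ ιFin N ℓ :=
    (colimit.w (span (fFin N ℓ) (fInf N ℓ)) WalkingSpan.Hom.fst).symm
  rcases i with (_ | _ | _)
  · exact Or.inl (range_pullback_map_subset_aux
      ((Scheme.IsLocallyDirected.openCover (span (fFin N ℓ) (fInf N ℓ))).f none ≫ igusaTo N ℓ)
      (gK ℓ K) _ (igusaTo N ℓ) _ (fFin N ℓ)
      (ιFin N ℓ) hw.symm (Category.comp_id _) (by simp) (by simp) (Set.mem_range.mpr ⟨z, hz⟩))
  · exact Or.inl (range_pullback_map_subset_aux
      (ιFin N ℓ ≫ igusaTo N ℓ)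
      (gK ℓ K) _ (igusaTo N ℓ) _ (𝟙 _)
      (ιFin N ℓ) (Category.id_comp _) (Category.comp_id _) (by simp) (by simp)
      (Set.mem_range.mpr ⟨z, hz⟩))
  · exact Or.inr (range_pullback_map_subset_aux
      (ιInf N ℓ ≫ igusaTo N ℓ)
      (gK ℓ K) _ (igusaTo N ℓ) _ (𝟙 _)
      (ιInf N ℓ) (Category.id_comp _) (Category.comp_id _) (by simp) (by simp)
      (Set.mem_range.mpr ⟨z, hz⟩))

/-- **Piece (E)**: the fibre of the Igusa scheme over `K` is integral as soon as the two chart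
algebras base-changed to `K` are domains and the middle one is nontrivial. -/
theorem isIntegral_pullback_igusaTo_of_charts
    (hfin : IsDomain (↥(chartAlgFin N ℓ) ⊗[↥(GaloisRep.ratLocalizedAt ℓ)] K))
    (hinf : IsDomain (↥(chartAlgInf N ℓ) ⊗[↥(GaloisRep.ratLocalizedAt ℓ)] K))
    (hmid : Nontrivial (↥(chartAlgMid N ℓ) ⊗[↥(GaloisRep.ratLocalizedAt ℓ)] K)) :
    IsIntegral ↑(pullback (igusaTo N ℓ)
      (Spec.map (CommRingCat.ofHom (algebraMap ↥(GaloisRep.ratLocalizedAt ℓ) K)))) := by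
  have h1 : IsIntegral (pullback (Spec.map (CommRingCat.ofHom
      (algebraMap ↥(GaloisRep.ratLocalizedAt ℓ) (chartAlgFin N ℓ)))) (gK ℓ K)) := by
    have : IsIntegral (Spec (CommRingCat.of
        (↥(chartAlgFin N ℓ) ⊗[↥(GaloisRep.ratLocalizedAt ℓ)] K))) := inferInstance
    exact IsIntegral.of_isIso (pullbackSpecIso _ _ _).inv
  have h2 : IsIntegral (pullback (Spec.map (CommRingCat.ofHom
      (algebraMap ↥(GaloisRep.ratLocalizedAt ℓ) (chartAlgInf N ℓ)))) (gK ℓ K)) := by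
    have : IsIntegral (Spec (CommRingCat.of
        (↥(chartAlgInf N ℓ) ⊗[↥(GaloisRep.ratLocalizedAt ℓ)] K))) := inferInstance
    exact IsIntegral.of_isIso (pullbackSpecIso _ _ _).inv
  have h3 : Nonempty ↥(pullback (Spec.map (CommRingCat.ofHom
      (algebraMap ↥(GaloisRep.ratLocalizedAt ℓ) (chartAlgMid N ℓ)))) (gK ℓ K)) := by
    have : Nonempty ↥(Spec (CommRingCat.of
        (↥(chartAlgMid N ℓ) ⊗[↥(GaloisRep.ratLocalizedAt ℓ)] K))) := inferInstance
    exact this.map (pullbackSpecIso _ _ _).inv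
  refine isIntegral_of_two_charts (cFin N ℓ K) (cInf N ℓ K) (charts_cover N ℓ K) ?_
  obtain ⟨z⟩ := h3
  refine ⟨(cMidFin N ℓ K ≫ cFin N ℓ K) z, ⟨cMidFin N ℓ K z, rfl⟩, ⟨cMidInf N ℓ K z, ?_⟩⟩
  rw [cMidFin_cFin_eq]
  rfl

end

end Fermat.Agent.S28lib
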