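import Mathlib
import Fermat.Prelude.Def_ModularCurve_LaurentCoeff

set_option autoImplicit false

namespace Fermat.Agent.S28lib

open TensorProduct ModularCurve

section Abstract

variable {R B K : Type*} [CommRing R] [CommRing B] [Algebra R B] [Field K] [Algebra R K]
variable (ℓ : ℕ) [Fact ℓ.Prime] [CharP K ℓ]

/-- Coefficientwise extension of scalars `𝔽_ℓ((q)) → K((q))`. -/
noncomputable def castLaurent : LaurentSeries (ZMod ℓ) →+* LaurentSeries K :=
  coeffMap (ZMod.castHom (dvd_refl ℓ) K)

theorem castLaurent_coeff (x : LaurentSeries (ZMod ℓ)) (n : ℤ) :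
    (castLaurent (K := K) ℓ x).coeff n = ZMod.castHom (dvd_refl ℓ) K (x.coeff n) := rfl

theorem castLaurent_injective : Function.Injective (castLaurent (K := K) ℓ) := by
  intro x y h
  ext n
  have := congrArg (fun z => z.coeff n) h
  simp only [castLaurent_coeff] at this
  exact (ZMod.castHom (dvd_refl ℓ) K).injective this

/-- The comparison homomorphism `B ⊗[R] K → K((q))`, `b ⊗ k ↦ k · ψ(b)`. -/
theorem exists_tensor_hom (ψ : B →+* LaurentSeries (ZMod ℓ))
    (hcompat : ∀ r : R, castLaurent (K := K) ℓ (ψ (algebraMap R B r)) =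
      HahnSeries.C (algebraMap R K r)) :
    ∃ Φ : B ⊗[R] K →+* LaurentSeries K,
      ∀ b k, Φ (b ⊗ₜ[R] k) = castLaurent (K := K) ℓ (ψ b) * HahnSeries.C k := by
  have halg : ∀ r : R, algebraMap R (LaurentSeries K) r = HahnSeries.C (algebraMap R K r) := by
    intro r
    rw [HahnSeries.algebraMap_apply']
    have : algebraMap R (PowerSeries K) r = PowerSeries.C (algebraMap R K r) := by
      rw [PowerSeries.algebraMap_apply]
    rw [this, HahnSeries.ofPowerSeries_C]
  have : @IsScalarTower R R (LaurentSeries K) Algebra.toSMul Algebra.toSMul Algebra.toSMul :=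
    IsScalarTower.of_algebraMap_eq (fun x => rfl)
  let f : B →ₐ[R] LaurentSeries K :=
    { (castLaurent (K := K) ℓ).comp ψ with
      commutes' := fun r => (hcompat r).trans (halg r).symm }
  let g : K →ₐ[R] LaurentSeries K :=
    { (HahnSeries.C : K →+* LaurentSeries K) with
      commutes' := fun r => (halg r).symm }
  refine ⟨(Algebra.TensorProduct.lift f g (fun _ _ => Commute.all _ _)).toRingHom, ?_⟩
  intro b k
  show (Algebra.TensorProduct.lift f g (fun _ _ => Commute.all _ _)) (b ⊗ₜ[R] k) = _
  rw [Algebra.TensorProduct.lift_tmul]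
  rfl

/-- `B ⊗[R] K` is nontrivial as soon as `B` has a (compatible) ring homomorphism to
`𝔽_ℓ((q))`. -/
theorem nontrivial_tensor_of_ringHom (ψ : B →+* LaurentSeries (ZMod ℓ))
    (hcompat : ∀ r : R, castLaurent (K := K) ℓ (ψ (algebraMap R B r)) =
      HahnSeries.C (algebraMap R K r)) :
    Nontrivial (B ⊗[R] K) := by
  obtain ⟨Φ, -⟩ := exists_tensor_hom (K := K) ℓ ψ hcompat
  exact Φ.domain_nontrivial

/-- **Piece (D), abstract form.** Let `B` be an `R`-algebra with a ring homomorphism
`ψ : B → 𝔽_ℓ((q))` whose kernel is `ℓ B`, compatible with the structure maps to a field `K` of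
characteristic `ℓ`. Then `B ⊗[R] K` embeds in `K((q))`; in particular it is a domain. -/
theorem isDomain_tensor_of_ker_eq (ψ : B →+* LaurentSeries (ZMod ℓ))
    (hker : ∀ b : B, ψ b = 0 → ∃ c : B, b = (ℓ : B) * c)
    (hcompat : ∀ r : R, castLaurent (K := K) ℓ (ψ (algebraMap R B r)) =
      HahnSeries.C (algebraMap R K r)) :
    IsDomain (B ⊗[R] K) := by
  classical
  obtain ⟨Φ, hΦ⟩ := exists_tensor_hom (K := K) ℓ ψ hcompat
  let _ : Algebra (ZMod ℓ) K := ZMod.algebra K ℓ
  let e := Module.Free.chooseBasis (ZMod ℓ) K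
  -- every tensor is a combination of `b_i ⊗ e_i`
  let Ψ : (Module.Free.ChooseBasisIndex (ZMod ℓ) K →₀ B) →ₗ[R] B ⊗[R] K :=
    Finsupp.lsum R (fun i => (TensorProduct.mk R B K).flip (e i))
  have hΨ : ∀ v, Ψ v = v.sum fun i b => b ⊗ₜ[R] e i := by
    intro v
    simp only [Ψ, Finsupp.lsum_apply]
    rfl
  have hnat : ∀ (n : ℕ) (b : B) (k : K), b ⊗ₜ[R] ((n : K) * k) = ((n : B) * b) ⊗ₜ[R] k := by
    intro n b k
    have h1 : (n : K) * k = (n : R) • k := by
      rw [Algebra.smul_def, map_natCast]
    have h2 : (n : B) * b = (n : R) • b := by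
      rw [Algebra.smul_def, map_natCast]
    rw [h1, h2, TensorProduct.tmul_smul, TensorProduct.smul_tmul']
  have hsurj : Function.Surjective Ψ := by
    intro t
    induction t using TensorProduct.induction_on with
    | zero => exact ⟨0, map_zero _⟩
    | tmul b k =>
      -- expand `k` in the basis
      have hk : k = (e.repr k).sum fun i c => c • e i := (e.linearCombination_repr k).symm
      refine ⟨(e.repr k).mapRange (fun c => ((c.val : ℕ) : B) * b) (by simp), ?_⟩
      rw [hΨ]
      rw [Finsupp.sum_mapRange_index (by intro i; simp)]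
      conv_rhs => rw [hk]
      rw [Finsupp.sum, Finsupp.sum, TensorProduct.tmul_sum]
      refine Finset.sum_congr rfl fun i _ => ?_
      rw [← hnat]
      congr 1
      rw [Algebra.smul_def]
      congr 1
      have : (algebraMap (ZMod ℓ) K) ((e.repr k) i) = (((e.repr k) i).val : K) := by
        conv_lhs => rw [← ZMod.natCast_zmod_val ((e.repr k) i)]
        rw [map_natCast]
      exact this.symm
    | add x y hx hy =>
      obtain ⟨vx, rfl⟩ := hx
      obtain ⟨vy, rfl⟩ := hy
      exact ⟨vx + vy, map_add _ _ _⟩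
  have hinj : Function.Injective Φ := by
    rw [injective_iff_map_eq_zero]
    intro t ht
    obtain ⟨v, rfl⟩ := hsurj t
    rw [hΨ] at ht ⊢
    rw [Finsupp.sum, map_sum] at ht
    simp only [hΦ] at ht
    -- coefficientwise linear independence
    have hcoef : ∀ i ∈ v.support, ψ (v i) = 0 := by
      intro i hi
      ext n
      have hn := congrArg (fun z => z.coeff n) ht
      simp only [HahnSeries.coeff_sum, HahnSeries.coeff_zero] at hn
      have hli := e.linearIndependent
      rw [linearIndependent_iff'] at hli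
      have := hli v.support (fun j => (ψ (v j)).coeff n) (by
        rw [← hn]
        refine Finset.sum_congr rfl fun j _ => ?_
        rw [mul_comm, HahnSeries.C_mul_eq_smul, HahnSeries.coeff_smul, castLaurent_coeff,
          Algebra.smul_def, smul_eq_mul, mul_comm]
        rfl) i hi
      simpa using this
    rw [Finsupp.sum]
    refine Finset.sum_eq_zero fun i hi => ?_
    obtain ⟨c, hc⟩ := hker (v i) (hcoef i hi)
    rw [hc, ← hnat, show ((ℓ : K)) = 0 from CharP.cast_eq_zero K ℓ, zero_mul,
      TensorProduct.tmul_zero]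
  exact hinj.isDomain Φ

end Abstract

end Fermat.Agent.S28lib
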