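import Mathlib
import Fermat.Prelude.Def_ModularCurve_IgusaScheme
import Fermat.Agent.S28lib.Glue
import Fermat.Agent.S28lib.TensorDomain

set_option autoImplicit false

namespace Fermat.Agent.S28lib

open AlgebraicGeometry CategoryTheory CategoryTheory.Limits ModularCurve ModularCurve.IgusaScheme
open TensorProduct

/-- Ring homomorphisms out of `ℤ_(ℓ)` are unique. -/
theorem ratLocalizedAt_ringHom_ext (ℓ : ℕ) {T : Type*} [CommRing T]
    (f g : ↥(GaloisRep.ratLocalizedAt ℓ) →+* T) : f = g := by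
  ext ⟨r, hr⟩
  -- `r = num / den` with `den` coprime to `ℓ`
  have hden : ((r.den : ℚ)) ∈ GaloisRep.ratLocalizedAt ℓ := by
    show ((r.den : ℚ)).den.Coprime ℓ
    simp
  have hnum : ((r.num : ℚ)) ∈ GaloisRep.ratLocalizedAt ℓ := by
    show ((r.num : ℚ)).den.Coprime ℓ
    simp
  have hinv : ((r.den : ℚ))⁻¹ ∈ GaloisRep.ratLocalizedAt ℓ := by
    show (((r.den : ℚ))⁻¹).den.Coprime ℓ
    have : (((r.den : ℚ))⁻¹).den = r.den := by
      have h := Rat.den_div_eq_of_coprime (a := 1) (b := (r.den : ℤ))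
        (by exact_mod_cast Nat.pos_of_ne_zero r.den_nz) (by simp)
      have h1 : ((r.den : ℚ))⁻¹ = ((1 : ℤ) : ℚ) / ((r.den : ℤ) : ℚ) := by simp
      rw [h1]
      exact_mod_cast h
    rw [this]; exact hr
  set d : ↥(GaloisRep.ratLocalizedAt ℓ) := ⟨(r.den : ℚ), hden⟩ with hd
  set n : ↥(GaloisRep.ratLocalizedAt ℓ) := ⟨(r.num : ℚ), hnum⟩ with hn
  set di : ↥(GaloisRep.ratLocalizedAt ℓ) := ⟨((r.den : ℚ))⁻¹, hinv⟩ with hdi
  have hdnat : d = ((r.den : ℕ) : ↥(GaloisRep.ratLocalizedAt ℓ)) := Subtype.ext (by simp [hd])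
  have hnint : n = ((r.num : ℤ) : ↥(GaloisRep.ratLocalizedAt ℓ)) := Subtype.ext (by simp [hn])
  have hddi : d * di = 1 := Subtype.ext (by
    simp only [hd, hdi, Subring.coe_mul, Subring.coe_one]
    exact mul_inv_cancel₀ (by exact_mod_cast r.den_nz))
  have hr' : (⟨r, hr⟩ : ↥(GaloisRep.ratLocalizedAt ℓ)) = n * di := Subtype.ext (by
    simp only [hn, hdi, Subring.coe_mul]
    rw [← div_eq_mul_inv, Rat.num_div_den])
  have hfd : f d = g d := by rw [hdnat, map_natCast, map_natCast]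
  have hfn : f n = g n := by rw [hnint, map_intCast, map_intCast]
  have hfdi : f di = g di := by
    have h1 : f d * f di = 1 := by rw [← map_mul, hddi, map_one]
    have h2 : g d * g di = 1 := by rw [← map_mul, hddi, map_one]
    calc f di = (g d * g di) * f di := by rw [h2, one_mul]
      _ = g di * (f d * f di) := by rw [hfd]; ring
      _ = g di := by rw [h1, mul_one]
  rw [hr', map_mul, map_mul, hfn, hfdi]

theorem compat_of_ratLocalizedAt (ℓ : ℕ) [Fact ℓ.Prime] {B K : Type*} [CommRing B]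
    [Algebra ↥(GaloisRep.ratLocalizedAt ℓ) B] [Field K] [CharP K ℓ]
    [Algebra ↥(GaloisRep.ratLocalizedAt ℓ) K] (ψ : B →+* LaurentSeries (ZMod ℓ))
    (r : ↥(GaloisRep.ratLocalizedAt ℓ)) :
    castLaurent (K := K) ℓ (ψ (algebraMap ↥(GaloisRep.ratLocalizedAt ℓ) B r)) =
      HahnSeries.C (algebraMap ↥(GaloisRep.ratLocalizedAt ℓ) K r) :=
  congrFun (congrArg DFunLike.coe (ratLocalizedAt_ringHom_ext ℓ
    (((castLaurent (K := K) ℓ).comp ψ).comp (algebraMap ↥(GaloisRep.ratLocalizedAt ℓ) B))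
    ((HahnSeries.C : K →+* LaurentSeries K).comp (algebraMap ↥(GaloisRep.ratLocalizedAt ℓ) K)))) r

/-- **S28 from the reduction map.** If `red` is any ring homomorphism from the middle chart
algebra to `𝔽_ℓ((q))` whose restrictions to the two chart algebras have kernel `ℓ·B`, then the
fibre of the Igusa scheme over any field `K` of characteristic `ℓ` is integral. -/
theorem isIntegral_pullback_igusaTo_of_red
    (N : ℕ) [NeZero N] (ℓ : ℕ) [Fact ℓ.Prime]
    (K : Type) [Field K] [CharP K ℓ] [Algebra ↥(GaloisRep.ratLocalizedAt ℓ) K]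
    (red : ↥(chartAlgMid N ℓ) →+* LaurentSeries (ZMod ℓ))
    (hfin : ∀ b : ↥(chartAlgFin N ℓ), red (inclFin N ℓ b) = 0 →
      ∃ c : ↥(chartAlgFin N ℓ), b = (ℓ : ↥(chartAlgFin N ℓ)) * c)
    (hinf : ∀ b : ↥(chartAlgInf N ℓ), red (inclInf N ℓ b) = 0 →
      ∃ c : ↥(chartAlgInf N ℓ), b = (ℓ : ↥(chartAlgInf N ℓ)) * c) :
    IsIntegral ↑(pullback (igusaTo N ℓ)
      (Spec.map (CommRingCat.ofHom (algebraMap ↥(GaloisRep.ratLocalizedAt ℓ) K)))) := by
  refine isIntegral_pullback_igusaTo_of_charts N ℓ K ?_ ?_ ?_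
  · exact isDomain_tensor_of_ker_eq (K := K) ℓ (red.comp (inclFin N ℓ).toRingHom) hfin
      (compat_of_ratLocalizedAt ℓ _)
  · exact isDomain_tensor_of_ker_eq (K := K) ℓ (red.comp (inclInf N ℓ).toRingHom) hinf
      (compat_of_ratLocalizedAt ℓ _)
  · exact nontrivial_tensor_of_ringHom (K := K) ℓ red (compat_of_ratLocalizedAt ℓ _)

end Fermat.Agent.S28lib
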