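/-
S28 library (item 66, architect helper24) — the INTERFACE between the algebraic core and the
instantiation (conjugate `q`-expansions reduced mod `ℓ`).

`RedData N ℓ` packages: a finite family of ring homomorphisms `ρ i : chartAlgFin N ℓ → 𝔽((t))`
(reductions mod `ℓ` of the conjugate expansions; `i₀` = the given expansion at `∞`), which
* agree on `ℤ_(ℓ)[j]`, where `j` has a pole,
* have characteristic polynomials `∏ᵢ (X - ρᵢ y)` with coefficients in (the image of) `ℤ_(ℓ)[j]`,
* are jointly injective modulo `ℓ` (`ker_all`: unramifiedness),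
* and a unit `u` of `chartAlgFin` (an eta quotient) with a pole at every conjugate `i ≠ i₀`.
The core theorem (file `Core.lean`): `ρ i₀ x = 0 → x ∈ ℓ · chartAlgFin`.
No sorry in this file (definitions only).
-/
import Mathlib
import Fermat.Prelude.Def_ModularCurve_IgusaScheme

set_option autoImplicit false

open ModularCurve ModularCurve.IgusaScheme

namespace Fermat.Agent.S28lib

noncomputable section

variable (N : ℕ) [NeZero N] (ℓ : ℕ) [Fact ℓ.Prime]

/-- `ℤ_(ℓ)[X] → chartAlgFin`, `X ↦ j`. -/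
def polyJ : Polynomial ↥(GaloisRep.ratLocalizedAt ℓ) →+* ↥(chartAlgFin N ℓ) :=
  (Polynomial.aeval (R := ↥(GaloisRep.ratLocalizedAt ℓ)) (jChartFin N ℓ)).toRingHom

@[simp] lemma polyJ_X : polyJ N ℓ Polynomial.X = jChartFin N ℓ := by
  simp [polyJ]

@[simp] lemma polyJ_C (a : ↥(GaloisRep.ratLocalizedAt ℓ)) :
    polyJ N ℓ (Polynomial.C a) = algebraMap _ _ a := by
  simp [polyJ]

/-- Reduction data for the finite chart of the Igusa model. -/
structure RedData where
  /-- the residue field of the coefficient ring -/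
  𝔽 : Type
  [instField : Field 𝔽]
  [instCharP : CharP 𝔽 ℓ]
  /-- the index set of the conjugates (`SL(2,ℤ) ⧸ Γ₀(N)` in the application) -/
  I : Type
  [instFintype : Fintype I]
  [instDecEq : DecidableEq I]
  /-- the identity conjugate (expansion at `∞`) -/
  i₀ : I
  /-- the reduced conjugate expansions -/
  ρ : I → ↥(chartAlgFin N ℓ) →+* LaurentSeries 𝔽
  /-- all `ρ i` agree on `ℤ_(ℓ)[j]` -/
  ρ_poly : ∀ (i : I) (g : Polynomial ↥(GaloisRep.ratLocalizedAt ℓ)),
    ρ i (polyJ N ℓ g) = ρ i₀ (polyJ N ℓ g)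
  /-- constants go to constants -/
  ρ_const : ∀ a : ↥(GaloisRep.ratLocalizedAt ℓ),
    ∃ c : 𝔽, ρ i₀ (algebraMap _ _ a) = HahnSeries.C c
  /-- `j` has a pole -/
  order_j : (ρ i₀ (jChartFin N ℓ)).order < 0
  /-- the characteristic polynomial of `y` has coefficients in `ℤ_(ℓ)[j]` -/
  charpoly : ∀ y : ↥(chartAlgFin N ℓ),
    ∃ P : Polynomial (Polynomial ↥(GaloisRep.ratLocalizedAt ℓ)), P.Monic ∧
      P.map ((ρ i₀).comp (polyJ N ℓ)) =
        ∏ i : I, (Polynomial.X - Polynomial.C (ρ i y))
  /-- joint injectivity mod `ℓ` (reducedness of the special fibre) -/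
  ker_all : ∀ x : ↥(chartAlgFin N ℓ), (∀ i, ρ i x = 0) →
    ∃ y : ↥(chartAlgFin N ℓ), x = (ℓ : ↥(chartAlgFin N ℓ)) * y
  /-- the modular unit -/
  u : (↥(chartAlgFin N ℓ))ˣ
  /-- `u` has a pole at every conjugate different from the identity -/
  order_u : ∀ i, i ≠ i₀ → (ρ i (u : ↥(chartAlgFin N ℓ))).order < 0

attribute [instance] RedData.instField RedData.instCharP RedData.instFintype RedData.instDecEq

end

end Fermat.Agent.S28lib
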