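/-
S28 library, piece K (CORE) — helper3.

`RedData.ker_eq`: for reduction data `D : RedData N ℓ`, an element `x` of the finite chart algebra
whose reduced expansion at `∞` vanishes is divisible by `ℓ`.

Proof (norm argument with one modular unit): let `Z = {i | ρ i x = 0} ∋ i₀`.  From the
characteristic polynomial of `x` one builds `e` in the chart algebra with `ρ i e = c ≠ 0` on `Z`
and `ρ i e = 0` off `Z`.  For `v = u, u⁻¹` the norm of `v * e + (c₀ - e)` shows that
`c ^ ψ * ∏_{i ∈ Z} ρ i v` is a polynomial in `J = ρ i₀ j`; as `∏_{i ∈ Z} ρ i v` is integral over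
`𝔽[J]` (integrally closed), it is a polynomial in `J`; being a unit there it is a nonzero constant,
so `∑_{i ∈ Z} ord (ρ i u) = 0`.  The same for `Z = univ`.  Hence `∑_{i ∉ Z} ord (ρ i u) = 0`, but
every term is negative, so `Z = univ` and `ker_all` applies.
-/
import Mathlib
import Fermat.Agent.S28lib.Defs

set_option autoImplicit false

open Polynomial ModularCurve ModularCurve.IgusaScheme

namespace Fermat.Agent.S28lib

noncomputable section

section EvJ

variable {k : Type*} [Field k] (J : LaurentSeries k)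

/-- Evaluation of polynomials with constant coefficients at a Laurent series `J`. -/
def coreEv : k[X] →+* LaurentSeries k := Polynomial.eval₂RingHom HahnSeries.C J

@[simp] lemma coreEv_X : coreEv J X = J := by simp [coreEv]

@[simp] lemma coreEv_C (a : k) : coreEv J (C a) = HahnSeries.C a := by simp [coreEv]

lemma coreEv_apply (g : k[X]) : coreEv J g = g.eval₂ HahnSeries.C J := rfl

/-- A series with a pole is transcendental over the constants. -/
theorem coreEv_injective (hJ : J.order < 0) : Function.Injective (coreEv J) := by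
  rw [injective_iff_map_eq_zero]
  intro g hg
  by_contra hne
  have hJ0 : J ≠ 0 := by
    rintro rfl
    simp at hJ
  set d := g.natDegree with hd
  have hlc : g.coeff d ≠ 0 := by
    rw [hd]; exact Polynomial.leadingCoeff_ne_zero.mpr hne
  have hsum : coreEv J g = ∑ i ∈ Finset.range (d + 1), HahnSeries.C (g.coeff i) * J ^ i := by
    rw [coreEv_apply, Polynomial.eval₂_eq_sum_range]
  have hcoeff : (coreEv J g).coeff (d • J.order) = g.coeff d * (J ^ d).coeff ((J ^ d).order) := by
    rw [hsum, HahnSeries.coeff_sum, Finset.sum_eq_single d]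
    · rw [HahnSeries.C_mul_eq_smul, HahnSeries.coeff_smul, smul_eq_mul, HahnSeries.order_pow]
    · intro i hi hid
      have hlt : i < d := lt_of_le_of_ne (Nat.lt_succ_iff.mp (Finset.mem_range.mp hi)) hid
      rw [HahnSeries.C_mul_eq_smul, HahnSeries.coeff_smul, smul_eq_mul]
      have : (J ^ i).coeff (d • J.order) = 0 := by
        apply HahnSeries.coeff_eq_zero_of_lt_order
        rw [HahnSeries.order_pow]
        simp only [nsmul_eq_mul]
        have h1 : (i : ℤ) < d := by exact_mod_cast hlt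
        nlinarith
      rw [this, mul_zero]
    · intro h
      exact absurd (Finset.mem_range.mpr (Nat.lt_succ_self d)) h
  have hne2 : (J ^ d).coeff ((J ^ d).order) ≠ 0 :=
    fun h => pow_ne_zero d hJ0 (HahnSeries.coeff_order_eq_zero.mp h)
  have : (coreEv J g).coeff (d • J.order) ≠ 0 := by
    rw [hcoeff]; exact mul_ne_zero hlc hne2
  rw [hg] at this
  exact this (by simp)

/-- An element of `range (coreEv J)` whose inverse is also in the range is a nonzero constant,
hence has order `0`. -/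
theorem coreEv_order_eq_zero (hJ : J.order < 0) {U V : LaurentSeries k}
    (hU : U ∈ (coreEv J).range) (hV : V ∈ (coreEv J).range) (hUV : U * V = 1) :
    U.order = 0 := by
  obtain ⟨g, rfl⟩ := hU
  obtain ⟨g', rfl⟩ := hV
  have h1 : g * g' = 1 := by
    apply coreEv_injective J hJ
    rw [map_mul, hUV, map_one]
  have hu : IsUnit g := IsUnit.of_mul_eq_one _ h1
  obtain ⟨a, ha, rfl⟩ := Polynomial.isUnit_iff.mp hu
  rw [coreEv_C, HahnSeries.order_C]

/-- `𝔽[J]` is integrally closed in `𝔽((t))`-fractions: an integral element `U` with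
`c * U ∈ 𝔽[J]`, `0 ≠ c ∈ 𝔽[J]`, lies in `𝔽[J]`. -/
theorem coreEv_mem_range_of_integral (hJ : J.order < 0) {U c : LaurentSeries k}
    (hc : c ∈ (coreEv J).range) (hc0 : c ≠ 0) (hcU : c * U ∈ (coreEv J).range)
    (hint : ∃ p : k[X][X], p.Monic ∧ p.eval₂ (coreEv J) U = 0) : U ∈ (coreEv J).range := by
  obtain ⟨gc, rfl⟩ := hc
  obtain ⟨G, hG⟩ := hcU
  obtain ⟨p, hpm, hp⟩ := hint
  have hinj := coreEv_injective J hJ
  have hgc0 : gc ≠ 0 := by
    rintro rfl
    exact hc0 (map_zero _)
  let K := FractionRing k[X]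
  let L : K →+* LaurentSeries k := IsFractionRing.lift hinj
  have hL : ∀ a : k[X], L (algebraMap k[X] K a) = coreEv J a := fun a =>
    IsFractionRing.lift_algebraMap hinj a
  have hLinj : Function.Injective L := L.injective
  set r : K := algebraMap k[X] K G / algebraMap k[X] K gc with hr
  have hgcK : algebraMap k[X] K gc ≠ 0 := by
    intro h
    apply hgc0
    exact (IsFractionRing.injective k[X] K) (by rw [h, map_zero])
  have hLr : L r = U := by
    rw [hr, map_div₀, hL, hL, hG]
    field_simp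
  have hrint : IsIntegral k[X] r := by
    refine ⟨p, hpm, ?_⟩
    apply hLinj
    rw [map_zero, Polynomial.hom_eval₂, hLr]
    have : L.comp (algebraMap k[X] K) = coreEv J := RingHom.ext hL
    rw [this, hp]
  obtain ⟨y, hy⟩ := IsIntegrallyClosed.isIntegral_iff.mp hrint
  exact ⟨y, by rw [← hLr, ← hy, hL]⟩

/-- The order of a finite product of nonzero Laurent series. -/
theorem core_order_prod {ι : Type*} (s : Finset ι) (f : ι → LaurentSeries k)
    (hf : ∀ i ∈ s, f i ≠ 0) : (∏ i ∈ s, f i).order = ∑ i ∈ s, (f i).order := by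
  classical
  induction s using Finset.induction_on with
  | empty => simp
  | insert a s ha ih =>
    rw [Finset.prod_insert ha, Finset.sum_insert ha]
    have h1 : f a ≠ 0 := hf a (Finset.mem_insert_self a s)
    have h2 : ∀ i ∈ s, f i ≠ 0 := fun i hi => hf i (Finset.mem_insert_of_mem hi)
    have h3 : ∏ i ∈ s, f i ≠ 0 := Finset.prod_ne_zero_iff.mpr h2
    rw [HahnSeries.order_mul h1 h3, ih h2]

end EvJ

section Core

set_option synthInstance.maxHeartbeats 400000
set_option maxHeartbeats 1000000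

variable {N : ℕ} [NeZero N] {ℓ : ℕ} [Fact ℓ.Prime]

namespace RedData

variable (D : RedData N ℓ)

/-- The common restriction of the `ρ i` to `ℤ_(ℓ)[j]`. -/
def corePhi : Polynomial ↥(GaloisRep.ratLocalizedAt ℓ) →+* LaurentSeries D.𝔽 :=
  (D.ρ D.i₀).comp (polyJ N ℓ)

/-- The reduction of `j`. -/
def coreJ : LaurentSeries D.𝔽 := D.ρ D.i₀ (jChartFin N ℓ)

lemma coreJ_order : (D.coreJ).order < 0 := D.order_j

lemma rho_comp_polyJ (i : D.I) : (D.ρ i).comp (polyJ N ℓ) = D.corePhi :=
  RingHom.ext fun g => D.ρ_poly i g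

lemma rho_polyJ (i : D.I) (g : Polynomial ↥(GaloisRep.ratLocalizedAt ℓ)) :
    D.ρ i (polyJ N ℓ g) = D.corePhi g := D.ρ_poly i g

/-- The map on constants. -/
def coreKappaFun (a : ↥(GaloisRep.ratLocalizedAt ℓ)) : D.𝔽 := Classical.choose (D.ρ_const a)

lemma coreKappaFun_spec (a : ↥(GaloisRep.ratLocalizedAt ℓ)) :
    D.ρ D.i₀ (algebraMap _ _ a) = HahnSeries.C (D.coreKappaFun a) :=
  Classical.choose_spec (D.ρ_const a)

/-- The map on constants, as a ring homomorphism. -/
def coreKappa : ↥(GaloisRep.ratLocalizedAt ℓ) →+* D.𝔽 where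
  toFun := D.coreKappaFun
  map_one' := by
    apply HahnSeries.C_injective (Γ := ℤ)
    rw [← coreKappaFun_spec, map_one, map_one, map_one]
  map_mul' a b := by
    apply HahnSeries.C_injective (Γ := ℤ)
    rw [map_mul, ← coreKappaFun_spec, ← coreKappaFun_spec, ← coreKappaFun_spec, map_mul, map_mul]
  map_zero' := by
    apply HahnSeries.C_injective (Γ := ℤ)
    rw [← coreKappaFun_spec, map_zero, map_zero, map_zero]
  map_add' a b := by
    apply HahnSeries.C_injective (Γ := ℤ)
    rw [map_add, ← coreKappaFun_spec, ← coreKappaFun_spec, ← coreKappaFun_spec, map_add, map_add]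

lemma coreKappa_spec (a : ↥(GaloisRep.ratLocalizedAt ℓ)) :
    D.ρ D.i₀ (algebraMap _ _ a) = HahnSeries.C (D.coreKappa a) :=
  D.coreKappaFun_spec a

/-- `corePhi` factors through `𝔽[X]`. -/
lemma corePhi_eq : D.corePhi = (coreEv D.coreJ).comp (Polynomial.mapRingHom D.coreKappa) := by
  apply Polynomial.ringHom_ext
  · intro a
    simp only [corePhi, RingHom.comp_apply, polyJ_C, Polynomial.coe_mapRingHom,
      Polynomial.map_C, coreEv_C]
    exact D.coreKappa_spec a
  · simp only [corePhi, RingHom.comp_apply, polyJ_X, Polynomial.coe_mapRingHom,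
      Polynomial.map_X, coreEv_X]
    rfl

lemma corePhi_mem_range (g : Polynomial ↥(GaloisRep.ratLocalizedAt ℓ)) :
    D.corePhi g ∈ (coreEv D.coreJ).range := by
  rw [corePhi_eq]
  exact ⟨_, rfl⟩

/-- The norm `∏ᵢ ρᵢ y` is a polynomial in `J`. -/
lemma prod_rho_mem_range (y : ↥(chartAlgFin N ℓ)) :
    ∏ i : D.I, D.ρ i y ∈ (coreEv D.coreJ).range := by
  obtain ⟨P, -, hP⟩ := D.charpoly y
  have h0 : D.corePhi (P.coeff 0) = ∏ i : D.I, (- D.ρ i y) := by
    have := congrArg (fun Q => Polynomial.eval 0 Q) hP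
    simp only [Polynomial.eval_prod, Polynomial.eval_sub, Polynomial.eval_X,
      Polynomial.eval_C, zero_sub] at this
    rw [← this, ← Polynomial.coeff_zero_eq_eval_zero, Polynomial.coeff_map]
    rfl
  have h1 : ∏ i : D.I, D.ρ i y = D.corePhi ((-1) ^ Fintype.card D.I * P.coeff 0) := by
    rw [map_mul, map_pow, map_neg, map_one, h0, Finset.prod_neg]
    rw [Finset.card_univ, ← mul_assoc, ← pow_add, ← two_mul, pow_mul]
    simp
  rw [h1]
  exact D.corePhi_mem_range _

/-- Every `ρᵢ y` is integral over `𝔽[J]`. -/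
lemma rho_integral (y : ↥(chartAlgFin N ℓ)) (i : D.I) :
    ∃ p : D.𝔽[X][X], p.Monic ∧ p.eval₂ (coreEv D.coreJ) (D.ρ i y) = 0 := by
  obtain ⟨P, hPm, hP⟩ := D.charpoly y
  refine ⟨P.map (Polynomial.mapRingHom D.coreKappa), hPm.map _, ?_⟩
  rw [Polynomial.eval₂_map]
  have : (coreEv D.coreJ).comp (Polynomial.mapRingHom D.coreKappa) = D.corePhi :=
    (D.corePhi_eq).symm
  rw [this, Polynomial.eval₂_eq_eval_map]
  have hP' : P.map D.corePhi = ∏ i : D.I, (Polynomial.X - Polynomial.C (D.ρ i y)) := hP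
  rw [hP', Polynomial.eval_prod]
  apply Finset.prod_eq_zero (Finset.mem_univ i)
  simp

/-- The separating element: `ρ i e = c ≠ 0` where `ρ i x = 0`, and `ρ i e = 0` elsewhere. -/
lemma exists_separator (x : ↥(chartAlgFin N ℓ)) :
    ∃ (e : ↥(chartAlgFin N ℓ)) (c₀ : Polynomial ↥(GaloisRep.ratLocalizedAt ℓ)),
      D.corePhi c₀ ≠ 0 ∧ (∀ i, D.ρ i x = 0 → D.ρ i e = D.corePhi c₀) ∧
        (∀ i, D.ρ i x ≠ 0 → D.ρ i e = 0) := by
  classical
  obtain ⟨P, hPm, hP⟩ := D.charpoly x
  have hP' : P.map D.corePhi = ∏ i : D.I, (Polynomial.X - Polynomial.C (D.ρ i x)) := hP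
  set Zs : Finset D.I := Finset.univ.filter (fun i => D.ρ i x = 0) with hZs
  set Ts : Finset D.I := Finset.univ.filter (fun i => ¬ D.ρ i x = 0) with hTs
  set H : Polynomial (LaurentSeries D.𝔽) :=
    ∏ i ∈ Ts, (Polynomial.X - Polynomial.C (D.ρ i x)) with hH
  have hsplit : P.map D.corePhi = Polynomial.X ^ Zs.card * H := by
    rw [hP', ← Finset.prod_filter_mul_prod_filter_not Finset.univ (fun i => D.ρ i x = 0)]
    congr 1
    rw [← Finset.prod_const]
    apply Finset.prod_congr rfl
    intro i hi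
    rw [(Finset.mem_filter.mp hi).2, map_zero, sub_zero]
  set h : Polynomial (Polynomial ↥(GaloisRep.ratLocalizedAt ℓ)) :=
    P /ₘ (Polynomial.X ^ Zs.card) with hh
  have hmap : h.map D.corePhi = H := by
    rw [hh, Polynomial.map_divByMonic _ (Polynomial.monic_X_pow _), hsplit, Polynomial.map_pow,
      Polynomial.map_X, Polynomial.mul_divByMonic_cancel_left _ (Polynomial.monic_X_pow _)]
  have hrho : ∀ i, D.ρ i (h.eval₂ (polyJ N ℓ) x) = H.eval (D.ρ i x) := by
    intro i
    rw [Polynomial.hom_eval₂, D.rho_comp_polyJ i, Polynomial.eval₂_eq_eval_map, hmap]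
  have hH0 : H.eval 0 ≠ 0 := by
    rw [hH, Polynomial.eval_prod]
    apply Finset.prod_ne_zero_iff.mpr
    intro i hi
    simp only [Polynomial.eval_sub, Polynomial.eval_X, Polynomial.eval_C, zero_sub, ne_eq,
      neg_eq_zero]
    exact (Finset.mem_filter.mp hi).2
  have hc : D.corePhi (h.coeff 0) = H.eval 0 := by
    rw [← Polynomial.coeff_zero_eq_eval_zero, ← hmap, Polynomial.coeff_map]
  refine ⟨h.eval₂ (polyJ N ℓ) x, h.coeff 0, ?_, ?_, ?_⟩
  · rw [hc]; exact hH0
  · intro i hi
    rw [hrho, hi, hc]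
  · intro i hi
    rw [hrho, hH, Polynomial.eval_prod]
    apply Finset.prod_eq_zero (Finset.mem_filter.mpr ⟨Finset.mem_univ i, hi⟩)
    simp

/-- For `v` with inverse `v'` in the chart algebra, the partial norm over the zero set of `x`
is a polynomial in `J`. -/
lemma partial_prod_mem_range (x v : ↥(chartAlgFin N ℓ)) (Z : Finset D.I)
    (hZmem : ∀ i, i ∈ Z ↔ D.ρ i x = 0) :
    ∏ i ∈ Z, D.ρ i v ∈ (coreEv D.coreJ).range := by
  classical
  have hZeq : Z = Finset.univ.filter (fun i => D.ρ i x = 0) := by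
    ext i
    simp [hZmem]
  subst hZeq
  obtain ⟨e, c₀, hc0, hZ, hT⟩ := D.exists_separator x
  set c := D.corePhi c₀ with hc
  set y : ↥(chartAlgFin N ℓ) := v * e + (polyJ N ℓ c₀ - e) with hy
  have hyZ : ∀ i, D.ρ i x = 0 → D.ρ i y = c * D.ρ i v := by
    intro i hi
    rw [hy, map_add, map_mul, map_sub, D.rho_polyJ, hZ i hi]
    ring
  have hyT : ∀ i, D.ρ i x ≠ 0 → D.ρ i y = c := by
    intro i hi
    rw [hy, map_add, map_mul, map_sub, D.rho_polyJ, hT i hi]
    ring
  set Zs : Finset D.I := Finset.univ.filter (fun i => D.ρ i x = 0) with hZs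
  set U := ∏ i ∈ Zs, D.ρ i v with hU
  have hprod : ∏ i : D.I, D.ρ i y = c ^ Fintype.card D.I * U := by
    rw [← Finset.prod_filter_mul_prod_filter_not Finset.univ (fun i => D.ρ i x = 0)]
    have h1 : ∏ i ∈ Finset.univ.filter (fun i => D.ρ i x = 0), D.ρ i y = c ^ Zs.card * U := by
      rw [hU, ← Finset.prod_const, ← Finset.prod_mul_distrib]
      apply Finset.prod_congr rfl
      intro i hi
      exact hyZ i (Finset.mem_filter.mp hi).2
    have h2 : ∏ i ∈ Finset.univ.filter (fun i => ¬ D.ρ i x = 0), D.ρ i y =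
        c ^ (Finset.univ.filter (fun i => ¬ D.ρ i x = 0)).card := by
      rw [← Finset.prod_const]
      apply Finset.prod_congr rfl
      intro i hi
      exact hyT i (Finset.mem_filter.mp hi).2
    rw [h1, h2]
    have hcard : Zs.card + (Finset.univ.filter (fun i => ¬ D.ρ i x = 0)).card =
        Fintype.card D.I := by
      rw [hZs, Finset.card_filter_add_card_filter_not, Finset.card_univ]
    rw [← hcard, pow_add]
    ring
  have hcU : c ^ Fintype.card D.I * U ∈ (coreEv D.coreJ).range := by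
    rw [← hprod]
    exact D.prod_rho_mem_range y
  have hcn : c ^ Fintype.card D.I ∈ (coreEv D.coreJ).range := by
    rw [hc, ← map_pow]
    exact D.corePhi_mem_range _
  have hcn0 : c ^ Fintype.card D.I ≠ 0 := pow_ne_zero _ hc0
  refine coreEv_mem_range_of_integral D.coreJ D.coreJ_order hcn hcn0 hcU ?_
  -- integrality of the product
  let _ : Algebra D.𝔽[X] (LaurentSeries D.𝔽) := (coreEv D.coreJ).toAlgebra
  have hint : IsIntegral D.𝔽[X] U := by
    rw [hU]
    apply IsIntegral.prod
    intro i _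
    obtain ⟨p, hpm, hp⟩ := D.rho_integral v i
    exact ⟨p, hpm, hp⟩
  obtain ⟨p, hpm, hp⟩ := hint
  exact ⟨p, hpm, hp⟩

/-- **The core theorem** (piece K): the kernel of the reduction at `∞` is `ℓ · chartAlgFin`. -/
theorem ker_eq (x : ↥(chartAlgFin N ℓ)) (hx : D.ρ D.i₀ x = 0) :
    ∃ y : ↥(chartAlgFin N ℓ), x = (ℓ : ↥(chartAlgFin N ℓ)) * y := by
  classical
  apply D.ker_all
  by_contra hcon
  obtain ⟨i₁, hi₁⟩ := not_forall.mp hcon
  set Zs : Finset D.I := Finset.univ.filter (fun i => D.ρ i x = 0) with hZs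
  set Ts : Finset D.I := Finset.univ.filter (fun i => ¬ D.ρ i x = 0) with hTs
  have hZmem : ∀ i, i ∈ Zs ↔ D.ρ i x = 0 := fun i => by simp [hZs]
  set f : D.I → LaurentSeries D.𝔽 := fun i => D.ρ i (D.u : ↥(chartAlgFin N ℓ)) with hf
  set f' : D.I → LaurentSeries D.𝔽 :=
    fun i => D.ρ i ((D.u⁻¹ : (↥(chartAlgFin N ℓ))ˣ) : ↥(chartAlgFin N ℓ)) with hf'
  have hu0 : ∀ i, f i ≠ 0 := fun i => ((D.u.isUnit).map (D.ρ i)).ne_zero
  have huinv : ∀ i, f i * f' i = 1 := by
    intro i
    rw [hf, hf', ← map_mul, Units.mul_inv, map_one]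
  have hprodinv : ∀ s : Finset D.I, (∏ i ∈ s, f i) * (∏ i ∈ s, f' i) = 1 := by
    intro s
    rw [← Finset.prod_mul_distrib]
    exact Finset.prod_eq_one fun i _ => huinv i
  -- partial norm over `Zs`
  have hZ0 : (∏ i ∈ Zs, f i).order = 0 :=
    coreEv_order_eq_zero D.coreJ D.coreJ_order
      (D.partial_prod_mem_range x (D.u : ↥(chartAlgFin N ℓ)) Zs hZmem)
      (D.partial_prod_mem_range x ((D.u⁻¹ : (↥(chartAlgFin N ℓ))ˣ) : ↥(chartAlgFin N ℓ)) Zs
        hZmem) (hprodinv Zs)
  -- full norm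
  have hA0 : (∏ i : D.I, f i).order = 0 :=
    coreEv_order_eq_zero D.coreJ D.coreJ_order
      (D.prod_rho_mem_range (D.u : ↥(chartAlgFin N ℓ)))
      (D.prod_rho_mem_range ((D.u⁻¹ : (↥(chartAlgFin N ℓ))ˣ) : ↥(chartAlgFin N ℓ)))
      (hprodinv Finset.univ)
  rw [core_order_prod _ _ (fun i _ => hu0 i)] at hZ0 hA0
  have hsum : ∑ i ∈ Zs, (f i).order + ∑ i ∈ Ts, (f i).order = ∑ i : D.I, (f i).order :=
    Finset.sum_filter_add_sum_filter_not Finset.univ (fun i => D.ρ i x = 0) _
  have hT0 : ∑ i ∈ Ts, (f i).order = 0 := by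
    rw [hZ0, hA0, zero_add] at hsum
    exact hsum
  have hTne : Ts.Nonempty := ⟨i₁, Finset.mem_filter.mpr ⟨Finset.mem_univ _, hi₁⟩⟩
  have hneg : ∑ i ∈ Ts, (f i).order < 0 := by
    apply Finset.sum_neg _ hTne
    intro i hi
    apply D.order_u
    rintro rfl
    exact (Finset.mem_filter.mp hi).2 hx
  rw [hT0] at hneg
  exact lt_irrefl _ hneg

end RedData

end Core

end

end Fermat.Agent.S28lib
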