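import Mathlib

set_option autoImplicit false

namespace Fermat.Agent.S28lib

open Polynomial

section DVR

variable {S : Type*} [CommRing S] [IsDomain S]

omit [IsDomain S] in
theorem cyc_maximalIdeal_eq (𝔮 : Ideal S) [𝔮.IsPrime] (p : S) (hp𝔮 : p ∈ 𝔮)
    (key : ∀ a ∈ 𝔮, ∃ s : S, s ∉ 𝔮 ∧ ∃ b : S, s * a = p * b) :
    IsLocalRing.maximalIdeal (Localization.AtPrime 𝔮) =
      Ideal.span {algebraMap S (Localization.AtPrime 𝔮) p} := by
  apply le_antisymm
  · intro x hx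
    obtain ⟨a, s, rfl⟩ := IsLocalization.exists_mk'_eq 𝔮.primeCompl x
    rw [IsLocalization.AtPrime.mk'_mem_maximal_iff (Localization.AtPrime 𝔮) 𝔮] at hx
    obtain ⟨s', hs', b, hb⟩ := key a hx
    rw [Ideal.mem_span_singleton]
    refine ⟨IsLocalization.mk' (Localization.AtPrime 𝔮) b (s * ⟨s', hs'⟩), ?_⟩
    rw [IsLocalization.mul_mk'_eq_mk'_of_mul]
    apply IsLocalization.mk'_eq_of_eq
    show (s : S) * (p * b) = ((s : S) * s') * a
    rw [← hb]; ring
  · rw [Ideal.span_le, Set.singleton_subset_iff]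
    exact (IsLocalization.AtPrime.to_map_mem_maximal_iff (Localization.AtPrime 𝔮) 𝔮 p).mpr hp𝔮

theorem cyc_isDVR [IsNoetherianRing S] (𝔮 : Ideal S) [𝔮.IsPrime] (p : S) (hp𝔮 : p ∈ 𝔮)
    (hp0 : p ≠ 0)
    (key : ∀ a ∈ 𝔮, ∃ s : S, s ∉ 𝔮 ∧ ∃ b : S, s * a = p * b) :
    IsDiscreteValuationRing (Localization.AtPrime 𝔮) := by
  have hmax := cyc_maximalIdeal_eq 𝔮 p hp𝔮 key
  have hinj : Function.Injective (algebraMap S (Localization.AtPrime 𝔮)) :=
    IsLocalization.injective _ 𝔮.primeCompl_le_nonZeroDivisors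
  have hnf : ¬ IsField (Localization.AtPrime 𝔮) := by
    rw [IsLocalRing.isField_iff_maximalIdeal_eq, hmax, Ideal.span_singleton_eq_bot]
    intro h
    exact hp0 (hinj (by rw [h, map_zero]))
  have := ((IsDiscreteValuationRing.TFAE (Localization.AtPrime 𝔮) hnf).out 4 0).mp
    (by rw [hmax]; exact ⟨⟨_, rfl⟩⟩)
  exact this

end DVR

end Fermat.Agent.S28lib
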