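import Mathlib
import Fermat.Prelude.Def_GaloisRep_Flat

set_option autoImplicit false

namespace Fermat.Agent.S28lib

open Polynomial

section Res

variable (ℓ : ℕ) [Fact ℓ.Prime]

theorem cyc_den_ne_zero (q : ↥(GaloisRep.ratLocalizedAt ℓ)) :
    (((q : ℚ).den : ℕ) : ZMod ℓ) ≠ 0 := by
  have hq : (q : ℚ).den.Coprime ℓ := q.2
  intro h
  rw [ZMod.natCast_eq_zero_iff] at h
  have := Nat.Coprime.eq_one_of_dvd hq.symm h
  exact (Fact.out : ℓ.Prime).one_lt.ne' this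

/-- The residue map `ℤ_(ℓ) → 𝔽_ℓ`. -/
noncomputable def cycRes : ↥(GaloisRep.ratLocalizedAt ℓ) →+* ZMod ℓ where
  toFun q := ((q : ℚ) : ZMod ℓ)
  map_one' := by simp
  map_zero' := by simp
  map_mul' a b := by
    simpa using Rat.cast_mul_of_ne_zero (cyc_den_ne_zero ℓ a) (cyc_den_ne_zero ℓ b)
  map_add' a b := by
    simpa using Rat.cast_add_of_ne_zero (cyc_den_ne_zero ℓ a) (cyc_den_ne_zero ℓ b)

theorem cycRes_apply (q : ↥(GaloisRep.ratLocalizedAt ℓ)) :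
    cycRes ℓ q = ((q : ℚ) : ZMod ℓ) := rfl

theorem cycRes_surjective : Function.Surjective (cycRes ℓ) := by
  intro x
  refine ⟨((x.val : ℕ) : ↥(GaloisRep.ratLocalizedAt ℓ)), ?_⟩
  rw [map_natCast]
  exact ZMod.natCast_zmod_val x

theorem cycRes_ker (q : ↥(GaloisRep.ratLocalizedAt ℓ)) (h : cycRes ℓ q = 0) :
    ∃ y : ↥(GaloisRep.ratLocalizedAt ℓ), q = (ℓ : ↥(GaloisRep.ratLocalizedAt ℓ)) * y := by
  have hℓ : (ℓ : ℚ) ≠ 0 := by exact_mod_cast (Fact.out : ℓ.Prime).ne_zero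
  rw [cycRes_apply, Rat.cast_def, div_eq_zero_iff] at h
  have hnum : ((q : ℚ).num : ZMod ℓ) = 0 := h.resolve_right (cyc_den_ne_zero ℓ q)
  rw [ZMod.intCast_zmod_eq_zero_iff_dvd] at hnum
  obtain ⟨k, hk⟩ := hnum
  have hq : (q : ℚ) = (ℓ : ℚ) * ((k : ℚ) / ((q : ℚ).den : ℚ)) := by
    have h1 : (q : ℚ) = ((q : ℚ).num : ℚ) / ((q : ℚ).den : ℚ) := (Rat.num_div_den _).symm
    rw [hk] at h1
    conv_lhs => rw [h1]
    push_cast
    ring
  have hmem : ((k : ℚ) / ((q : ℚ).den : ℚ)) ∈ GaloisRep.ratLocalizedAt ℓ := by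
    show ((k : ℚ) / ((q : ℚ).den : ℚ)).den.Coprime ℓ
    have hdvd : (((k : ℚ) / ((q : ℚ).den : ℚ)).den : ℤ) ∣ ((q : ℚ).den : ℤ) := by
      have := Rat.den_dvd k (q : ℚ).den
      rwa [Rat.divInt_eq_div] at this
    have hdvd' : ((k : ℚ) / ((q : ℚ).den : ℚ)).den ∣ (q : ℚ).den := by exact_mod_cast hdvd
    exact Nat.Coprime.coprime_dvd_left hdvd' q.2
  refine ⟨⟨_, hmem⟩, Subtype.ext ?_⟩
  simpa using hq

omit [Fact ℓ.Prime] in
/-- `ℤ_(ℓ)` is a principal ideal ring. -/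
theorem cyc_isPrincipalIdealRing : IsPrincipalIdealRing ↥(GaloisRep.ratLocalizedAt ℓ) := by
  refine ⟨fun I => ?_⟩
  obtain ⟨n, hn⟩ : ∃ n : ℤ, I.comap (Int.castRingHom ↥(GaloisRep.ratLocalizedAt ℓ)) =
      Ideal.span {n} := ⟨_, (Submodule.IsPrincipal.span_singleton_generator _).symm⟩
  refine ⟨⟨(n : ↥(GaloisRep.ratLocalizedAt ℓ)), ?_⟩⟩
  apply le_antisymm
  · intro x hx
    -- `x = num / den`, `den` a unit
    have hden : ((((x : ℚ).den : ℕ) : ℚ))⁻¹ ∈ GaloisRep.ratLocalizedAt ℓ := by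
      show (((((x : ℚ).den : ℕ) : ℚ))⁻¹).den.Coprime ℓ
      have : (((((x : ℚ).den : ℕ) : ℚ))⁻¹).den = (x : ℚ).den := by
        have h := Rat.den_div_eq_of_coprime (a := 1) (b := ((x : ℚ).den : ℤ))
          (by exact_mod_cast Nat.pos_of_ne_zero (x : ℚ).den_nz) (by simp)
        have h1 : ((((x : ℚ).den : ℕ) : ℚ))⁻¹ = ((1 : ℤ) : ℚ) / (((x : ℚ).den : ℤ) : ℚ) := by simp
        rw [h1]
        exact_mod_cast h
      rw [this]; exact x.2
    have hxd : ((x : ℚ).num : ↥(GaloisRep.ratLocalizedAt ℓ)) =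
        (((x : ℚ).den : ℕ) : ↥(GaloisRep.ratLocalizedAt ℓ)) * x := by
      apply Subtype.ext
      push_cast
      rw [mul_comm]
      exact (Rat.mul_den_eq_num _).symm
    have hnumI : ((x : ℚ).num : ↥(GaloisRep.ratLocalizedAt ℓ)) ∈ I := by
      rw [hxd]; exact I.mul_mem_left _ hx
    have hmem : (x : ℚ).num ∈ I.comap (Int.castRingHom ↥(GaloisRep.ratLocalizedAt ℓ)) := hnumI
    rw [hn, Ideal.mem_span_singleton] at hmem
    obtain ⟨k, hk⟩ := hmem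
    have hx' : x = (n : ↥(GaloisRep.ratLocalizedAt ℓ)) *
        ((k : ↥(GaloisRep.ratLocalizedAt ℓ)) * ⟨_, hden⟩) := by
      apply Subtype.ext
      push_cast
      have h1 : (x : ℚ) = ((x : ℚ).num : ℚ) / ((x : ℚ).den : ℚ) := (Rat.num_div_den _).symm
      rw [hk] at h1
      conv_lhs => rw [h1]
      push_cast
      ring
    rw [hx']
    exact Submodule.mem_span_singleton.mpr ⟨_, by rw [smul_eq_mul, mul_comm]⟩
  · rw [Submodule.span_le, Set.singleton_subset_iff]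
    have : n ∈ I.comap (Int.castRingHom ↥(GaloisRep.ratLocalizedAt ℓ)) := by
      rw [hn]; exact Ideal.mem_span_singleton_self n
    exact this

end Res

end Fermat.Agent.S28lib
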