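import Mathlib
import Fermat.Prelude.Def_GaloisRep_Flat
import Fermat.Agent.S28lib.CycRes

set_option autoImplicit false

namespace Fermat.Agent.S28lib

open Polynomial

section Key

variable (ℓ : ℕ) [Fact ℓ.Prime]

theorem cyc_map_ker (f : (↥(GaloisRep.ratLocalizedAt ℓ))[X])
    (hf : f.map (cycRes ℓ) = 0) :
    ∃ c : (↥(GaloisRep.ratLocalizedAt ℓ))[X], f = C (ℓ : ↥(GaloisRep.ratLocalizedAt ℓ)) * c := by
  have hcoef : ∀ n, ∃ y : ↥(GaloisRep.ratLocalizedAt ℓ),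
      f.coeff n = (ℓ : ↥(GaloisRep.ratLocalizedAt ℓ)) * y := by
    intro n
    apply cycRes_ker
    have := congrArg (fun p => p.coeff n) hf
    simpa using this
  choose y hy using hcoef
  refine ⟨∑ n ∈ f.support, monomial n (y n), ?_⟩
  refine Polynomial.ext fun n => ?_
  rw [coeff_C_mul, finsetSum_coeff]
  simp only [coeff_monomial]
  rw [Finset.sum_ite_eq' f.support n]
  by_cases hn : n ∈ f.support
  · rw [if_pos hn, hy n]
  · rw [if_neg hn, mul_zero]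
    exact notMem_support_iff.mp hn

variable {S : Type*} [CommRing S]

/-- **Unramifiedness, elementwise.** In a ring generated over `ℤ_(ℓ)` by an `N`-th root of
unity (`ℓ ∤ N`), every prime `𝔮 ∋ ℓ` becomes `(ℓ)` after localising at `𝔮`. -/
theorem cyc_key (N : ℕ) (hℓN : ¬ ℓ ∣ N)
    (ι : ↥(GaloisRep.ratLocalizedAt ℓ) →+* S) (ζ : S) (hζ : ζ ^ N = 1)
    (hgen : ∀ a : S, ∃ f : (↥(GaloisRep.ratLocalizedAt ℓ))[X], a = f.eval₂ ι ζ)
    (𝔮 : Ideal S) [h𝔮 : 𝔮.IsPrime] (hℓ𝔮 : (ℓ : S) ∈ 𝔮) (a : S) (ha : a ∈ 𝔮) :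
    ∃ s : S, s ∉ 𝔮 ∧ ∃ b : S, s * a = (ℓ : S) * b := by
  classical
  set ev : (↥(GaloisRep.ratLocalizedAt ℓ))[X] →+* S := eval₂RingHom ι ζ with hev
  set mp : (↥(GaloisRep.ratLocalizedAt ℓ))[X] →+* (ZMod ℓ)[X] := mapRingHom (cycRes ℓ) with hmp
  have hmp_surj : Function.Surjective mp := Polynomial.map_surjective _ (cycRes_surjective ℓ)
  have hevℓ : ∀ c, ev (C (ℓ : ↥(GaloisRep.ratLocalizedAt ℓ)) * c) = (ℓ : S) * ev c := by
    intro c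
    rw [map_mul]
    congr 1
    simp [hev]
  have hker : ∀ f, mp f = 0 → ∃ c, f = C (ℓ : ↥(GaloisRep.ratLocalizedAt ℓ)) * c :=
    fun f hf => cyc_map_ker ℓ f hf
  -- the prime of `𝔽_ℓ[X]`
  obtain ⟨g, hg⟩ : ∃ g : (ZMod ℓ)[X], (𝔮.comap ev).map mp = Ideal.span {g} :=
    ⟨_, (Submodule.IsPrincipal.span_singleton_generator _).symm⟩
  have hmem : ∀ x : (ZMod ℓ)[X], x ∈ (𝔮.comap ev).map mp ↔
      ∃ y, ev y ∈ 𝔮 ∧ mp y = x := by
    intro x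
    rw [Ideal.mem_map_iff_of_surjective mp hmp_surj]
    simp [Ideal.mem_comap]
  have hXN : (X ^ N - 1 : (ZMod ℓ)[X]) ∈ (𝔮.comap ev).map mp := by
    rw [hmem]
    refine ⟨X ^ N - 1, ?_, by simp [hmp]⟩
    have : ev (X ^ N - 1) = 0 := by simp [hev, hζ]
    rw [this]; exact 𝔮.zero_mem
  obtain ⟨h, hh⟩ : g ∣ (X ^ N - 1 : (ZMod ℓ)[X]) := by
    rw [hg] at hXN
    exact Ideal.mem_span_singleton.mp hXN
  have hN : ((N : ℕ) : ZMod ℓ) ≠ 0 := by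
    rw [Ne, ZMod.natCast_eq_zero_iff]; exact hℓN
  have hsep : (g * h).Separable := by
    rw [← hh]; exact X_pow_sub_one_separable_iff.mpr hN
  obtain ⟨α, β, hαβ⟩ := hsep.isCoprime
  -- lifts
  obtain ⟨g', hg'𝔮, hg'⟩ : ∃ y, ev y ∈ 𝔮 ∧ mp y = g := by
    rw [← hmem, hg]; exact Ideal.mem_span_singleton_self g
  obtain ⟨h', hh'⟩ := hmp_surj h
  obtain ⟨α', hα'⟩ := hmp_surj α
  obtain ⟨β', hβ'⟩ := hmp_surj β
  obtain ⟨c₁, hc₁⟩ := hker (α' * g' + β' * h' - 1) (by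
    rw [map_sub, map_add, map_mul, map_mul, hα', hg', hβ', hh', hαβ, map_one, sub_self])
  obtain ⟨c₂, hc₂⟩ := hker (g' * h' - (X ^ N - 1)) (by
    rw [map_sub, map_mul, hg', hh', ← hh]
    simp [hmp])
  have hs : ev h' ∉ 𝔮 := by
    intro hs
    have h1 := congrArg ev hc₁
    rw [hevℓ, map_sub, map_add, map_mul, map_mul, map_one] at h1
    have h2 : (1 : S) = ev α' * ev g' + ev β' * ev h' - (ℓ : S) * ev c₁ := by
      rw [← h1]; ring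
    apply h𝔮.ne_top
    rw [Ideal.eq_top_iff_one, h2]
    exact 𝔮.sub_mem (𝔮.add_mem (𝔮.mul_mem_left _ hg'𝔮) (𝔮.mul_mem_left _ hs))
      (𝔮.mul_mem_right _ hℓ𝔮)
  refine ⟨ev h', hs, ?_⟩
  obtain ⟨f, rfl⟩ := hgen a
  have hf𝔮 : ev f ∈ 𝔮 := ha
  have hfg : mp f ∈ Ideal.span {g} := by
    rw [← hg, hmem]; exact ⟨f, hf𝔮, rfl⟩
  obtain ⟨e, he⟩ := Ideal.mem_span_singleton.mp hfg
  obtain ⟨e', he'⟩ := hmp_surj e
  obtain ⟨c₃, hc₃⟩ := hker (f - g' * e') (by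
    rw [map_sub, map_mul, hg', he', he, sub_self])
  have h2 := congrArg ev hc₂
  rw [hevℓ, map_sub, map_mul] at h2
  have h2' : ev (X ^ N - 1) = 0 := by simp [hev, hζ]
  rw [h2', sub_zero] at h2
  have h3 := congrArg ev hc₃
  rw [hevℓ, map_sub, map_mul] at h3
  refine ⟨ev c₂ * ev e' + ev h' * ev c₃, ?_⟩
  have hf : f.eval₂ ι ζ = ev f := rfl
  rw [hf]
  have : ev f = ev g' * ev e' + (ℓ : S) * ev c₃ := by rw [← h3]; ring
  rw [this]
  calc ev h' * (ev g' * ev e' + (ℓ : S) * ev c₃)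
      = (ev g' * ev h') * ev e' + (ℓ : S) * (ev h' * ev c₃) := by ring
    _ = ((ℓ : S) * ev c₂) * ev e' + (ℓ : S) * (ev h' * ev c₃) := by rw [h2]
    _ = (ℓ : S) * (ev c₂ * ev e' + ev h' * ev c₃) := by ring

end Key

end Fermat.Agent.S28lib
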