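import Mathlib
import Fermat.Prelude.Def_GaloisRep_Flat
import Fermat.Agent.S28lib.CycRes
import Fermat.Agent.S28lib.CycKey
import Fermat.Agent.S28lib.CycDVR

set_option autoImplicit false

namespace Fermat.Agent.S28lib

open Polynomial

section Main

variable (ℓ : ℕ) [Fact ℓ.Prime]

/-- the inclusion `ℤ_(ℓ) → ℂ` -/
noncomputable def cycι₀ : ↥(GaloisRep.ratLocalizedAt ℓ) →+* ℂ :=
  (algebraMap ℚ ℂ).comp (GaloisRep.ratLocalizedAt ℓ).subtype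

omit [Fact ℓ.Prime] in
theorem cycι₀_apply (q : ↥(GaloisRep.ratLocalizedAt ℓ)) : cycι₀ ℓ q = ((q : ℚ) : ℂ) := rfl

/-- evaluation at a complex number -/
noncomputable def cycEv (ζ : ℂ) : (↥(GaloisRep.ratLocalizedAt ℓ))[X] →+* ℂ :=
  eval₂RingHom (cycι₀ ℓ) ζ

/-- `ℤ_(ℓ)[ζ] ⊂ ℂ` -/
noncomputable def cycA₁ (ζ : ℂ) : Subring ℂ := (cycEv ℓ ζ).range

omit [Fact ℓ.Prime] in
theorem cycι₀_injective : Function.Injective (cycι₀ ℓ) := by
  intro a b h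
  apply Subtype.ext
  have : ((a : ℚ) : ℂ) = ((b : ℚ) : ℂ) := h
  exact_mod_cast this

omit [Fact ℓ.Prime] in
theorem cyc_isIntegralElem (N : ℕ) (hN : N ≠ 0) (ζ : ℂ) (hζ : ζ ^ N = 1)
    (f : (↥(GaloisRep.ratLocalizedAt ℓ))[X]) :
    (cycι₀ ℓ).IsIntegralElem (f.eval₂ (cycι₀ ℓ) ζ) := by
  have hζi : (cycι₀ ℓ).IsIntegralElem ζ := by
    refine ⟨X ^ N - 1, monic_X_pow_sub_C 1 hN, ?_⟩
    simp [hζ]
  induction f using Polynomial.induction_on with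
  | C a =>
    rw [eval₂_C]
    exact (cycι₀ ℓ).isIntegralElem_map
  | add p q hp hq =>
    rw [eval₂_add]
    exact RingHom.IsIntegralElem.add _ hp hq
  | monomial n a h =>
    rw [eval₂_mul, eval₂_C, eval₂_pow, eval₂_X]
    exact RingHom.IsIntegralElem.mul _ (cycι₀ ℓ).isIntegralElem_map
      (by
        have : (cycι₀ ℓ).IsIntegralElem (ζ ^ (n + 1)) := by
          induction (n + 1) with
          | zero => rw [pow_zero]; simpa using (cycι₀ ℓ).isIntegralElem_map (x := 1)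
          | succ k ih => rw [pow_succ]; exact RingHom.IsIntegralElem.mul _ ih hζi
        exact this)

/-- `ℓ` is not invertible in `ℤ_(ℓ)[ζ]`. -/
theorem cyc_not_inv_mem (N : ℕ) (hN : N ≠ 0) (ζ : ℂ) (hζ : ζ ^ N = 1) :
    ((ℓ : ℂ))⁻¹ ∉ cycA₁ ℓ ζ := by
  rintro ⟨f, hf⟩
  have hint := cyc_isIntegralElem ℓ N hN ζ hζ f
  have hf' : f.eval₂ (cycι₀ ℓ) ζ = ((ℓ : ℂ))⁻¹ := hf
  rw [hf'] at hint
  obtain ⟨p, hpm, hp⟩ := hint
  have hℓ0 : (ℓ : ℂ) ≠ 0 := by exact_mod_cast (Fact.out : ℓ.Prime).ne_zero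
  rw [eval₂_eq_sum_range] at hp
  set n := p.natDegree with hn
  have h1 : ∑ i ∈ Finset.range (n + 1), cycι₀ ℓ (p.coeff i) * (ℓ : ℂ) ^ (n - i) = 0 := by
    have := congrArg (fun z => z * (ℓ : ℂ) ^ n) hp
    simp only [zero_mul, Finset.sum_mul] at this
    rw [← this]
    refine Finset.sum_congr rfl fun i hi => ?_
    have hi' : i ≤ n := Nat.lt_succ_iff.mp (Finset.mem_range.mp hi)
    rw [mul_assoc]
    congr 1
    rw [inv_pow, ← Nat.sub_add_cancel hi', pow_add, Nat.add_sub_cancel]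
    field_simp
  have h2 : ∑ i ∈ Finset.range (n + 1), p.coeff i *
      (ℓ : ↥(GaloisRep.ratLocalizedAt ℓ)) ^ (n - i) = 0 := by
    apply cycι₀_injective ℓ
    rw [map_sum, map_zero, ← h1]
    refine Finset.sum_congr rfl fun i _ => ?_
    rw [map_mul, map_pow, map_natCast]
  have h3 := congrArg (cycRes ℓ) h2
  rw [map_sum, map_zero, Finset.sum_range_succ] at h3
  have h4 : ∑ i ∈ Finset.range n, cycRes ℓ (p.coeff i *
      (ℓ : ↥(GaloisRep.ratLocalizedAt ℓ)) ^ (n - i)) = 0 := by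
    refine Finset.sum_eq_zero fun i hi => ?_
    have hi' : i < n := Finset.mem_range.mp hi
    rw [map_mul, map_pow, map_natCast, ZMod.natCast_self, zero_pow (by omega), mul_zero]
  rw [h4, zero_add, Nat.sub_self, pow_zero, mul_one, hn, hpm.coeff_natDegree, map_one] at h3
  exact one_ne_zero h3

omit [Fact ℓ.Prime] in
theorem cyc_ι₀_mem_A₁ (ζ : ℂ) (q : ↥(GaloisRep.ratLocalizedAt ℓ)) :
    ((q : ℚ) : ℂ) ∈ cycA₁ ℓ ζ :=
  ⟨C q, by simp [cycEv, cycι₀_apply]⟩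

omit [Fact ℓ.Prime] in
theorem cyc_ζ_mem_A₁ (ζ : ℂ) : ζ ∈ cycA₁ ℓ ζ :=
  ⟨X, by simp [cycEv]⟩

theorem cyc_natCast_inv_mem (m : ℕ) (hm : ¬ ℓ ∣ m) :
    ((m : ℚ))⁻¹ ∈ GaloisRep.ratLocalizedAt ℓ := by
  show (((m : ℚ))⁻¹).den.Coprime ℓ
  have hm0 : m ≠ 0 := by rintro rfl; exact hm (dvd_zero _)
  have : (((m : ℚ))⁻¹).den = m := by
    have h := Rat.den_div_eq_of_coprime (a := 1) (b := (m : ℤ))
      (by exact_mod_cast Nat.pos_of_ne_zero hm0) (by simp)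
    have h1 : ((m : ℚ))⁻¹ = ((1 : ℤ) : ℚ) / ((m : ℤ) : ℚ) := by simp
    rw [h1]
    exact_mod_cast h
  rw [this]
  exact (Nat.Coprime.symm ((Nat.Prime.coprime_iff_not_dvd (Fact.out : ℓ.Prime)).mpr hm))

end Main

end Fermat.Agent.S28lib
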