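import Mathlib
import Fermat.Prelude.Def_GaloisRep_Flat
import Fermat.Agent.S28lib.CycRes
import Fermat.Agent.S28lib.CycKey
import Fermat.Agent.S28lib.CycDVR
import Fermat.Agent.S28lib.CycA1

set_option autoImplicit false

namespace Fermat.Agent.S28lib

open Polynomial

/-- **Piece Z.** A discrete valuation ring `A ⊂ ℂ` with uniformiser `ℓ` containing all `N`-th
roots of unity and `ℤ_(ℓ)`, with `A ∩ ℚ = ℤ_(ℓ)`, together with its residue map. -/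
theorem exists_cycRed (N ℓ : ℕ) [NeZero N] [Fact ℓ.Prime] (hℓN : ¬ ℓ ∣ N) :
    ∃ (A : Subring ℂ) (𝔽 : Type) (_ : Field 𝔽) (_ : CharP 𝔽 ℓ) (r : ↥A →+* 𝔽),
      IsPrincipalIdealRing ↥A ∧
      (∀ ζ : ℂ, ζ ^ N = 1 → ζ ∈ A) ∧ (∀ m : ℕ, ¬ ℓ ∣ m → ((m : ℂ))⁻¹ ∈ A) ∧
      (∀ x : ↥A, r x = 0 → ∃ y : ↥A, x = (ℓ : ↥A) * y) ∧
      (∀ x : ℚ, ((x : ℂ)) ∈ A → x ∈ GaloisRep.ratLocalizedAt ℓ) := by
  classical
  have hℓp : ℓ.Prime := Fact.out
  have hN : N ≠ 0 := NeZero.ne N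
  -- the primitive root
  set ζ : ℂ := Complex.exp (2 * Real.pi * Complex.I / N) with hζdef
  have hζ : IsPrimitiveRoot ζ N := Complex.isPrimitiveRoot_exp N hN
  have hζN : ζ ^ N = 1 := hζ.pow_eq_one
  -- the ring `A₁ = ℤ_(ℓ)[ζ]`
  set A₁ : Subring ℂ := cycA₁ ℓ ζ with hA₁
  have : IsPrincipalIdealRing ↥(GaloisRep.ratLocalizedAt ℓ) := cyc_isPrincipalIdealRing ℓ
  have : IsNoetherianRing ↥A₁ := by
    rw [hA₁, cycA₁]; infer_instance
  let ev₁ : (↥(GaloisRep.ratLocalizedAt ℓ))[X] →+* ↥A₁ := (cycEv ℓ ζ).rangeRestrict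
  have hev₁ : ∀ f, ((ev₁ f : ↥A₁) : ℂ) = f.eval₂ (cycι₀ ℓ) ζ := fun f => rfl
  have hev₁_surj : Function.Surjective ev₁ := (cycEv ℓ ζ).rangeRestrict_surjective
  let ι : ↥(GaloisRep.ratLocalizedAt ℓ) →+* ↥A₁ := ev₁.comp C
  let ζ₁ : ↥A₁ := ev₁ X
  have hev₁' : ∀ f : (↥(GaloisRep.ratLocalizedAt ℓ))[X], ev₁ f = f.eval₂ ι ζ₁ := by
    intro f
    have : ev₁ = eval₂RingHom ι ζ₁ := by
      apply Polynomial.ringHom_ext
      · intro a; simp [ι]
      · simp [ζ₁]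
    rw [this]; rfl
  have hζ₁ : ζ₁ ^ N = 1 := by
    apply Subtype.ext
    rw [Subring.coe_pow, Subring.coe_one]
    show ((ev₁ X : ↥A₁) : ℂ) ^ N = 1
    rw [hev₁, eval₂_X]
    exact hζN
  have hgen : ∀ a : ↥A₁, ∃ f : (↥(GaloisRep.ratLocalizedAt ℓ))[X], a = f.eval₂ ι ζ₁ := by
    intro a
    obtain ⟨f, rfl⟩ := hev₁_surj a
    exact ⟨f, hev₁' f⟩
  -- `ℓ` is not a unit of `A₁`
  have hℓnu : Ideal.span {(ℓ : ↥A₁)} ≠ ⊤ := by
    intro h
    rw [Ideal.span_singleton_eq_top] at h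
    obtain ⟨b, hb⟩ := h.exists_right_inv
    have hb' : (ℓ : ℂ) * (b : ℂ) = 1 := by
      have := congrArg (Subtype.val) hb
      simpa using this
    have hℓ0 : (ℓ : ℂ) ≠ 0 := by exact_mod_cast hℓp.ne_zero
    have : (b : ℂ) = ((ℓ : ℂ))⁻¹ := by
      field_simp
      rw [mul_comm]; exact hb'
    exact cyc_not_inv_mem ℓ N hN ζ hζN (this ▸ b.2)
  obtain ⟨𝔮, h𝔮max, h𝔮le⟩ := Ideal.exists_le_maximal _ hℓnu
  have : 𝔮.IsPrime := h𝔮max.isPrime
  have hℓ𝔮 : (ℓ : ↥A₁) ∈ 𝔮 := h𝔮le (Ideal.mem_span_singleton_self _)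
  have hℓ0 : (ℓ : ↥A₁) ≠ 0 := by
    intro h
    have := congrArg (Subtype.val) h
    simp only [SubringClass.coe_natCast, ZeroMemClass.coe_zero] at this
    exact hℓp.ne_zero (by exact_mod_cast this)
  have key := cyc_key ℓ N hℓN ι ζ₁ hζ₁ hgen 𝔮 hℓ𝔮
  -- the localisation
  have hDVR : IsDiscreteValuationRing (Localization.AtPrime 𝔮) := cyc_isDVR 𝔮 (ℓ : ↥A₁) hℓ𝔮 hℓ0 key
  have hmax : IsLocalRing.maximalIdeal (Localization.AtPrime 𝔮) =
      Ideal.span {((ℓ : ℕ) : Localization.AtPrime 𝔮)} := by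
    have := cyc_maximalIdeal_eq 𝔮 (ℓ : ↥A₁) hℓ𝔮 key
    rwa [map_natCast] at this
  -- the embedding into `ℂ`
  have hunit : ∀ y : 𝔮.primeCompl, IsUnit (A₁.subtype y) := by
    intro y
    apply IsUnit.mk0
    intro h0
    have : (y : ↥A₁) = 0 := Subtype.ext h0
    exact y.2 (this ▸ 𝔮.zero_mem)
  let emb : Localization.AtPrime 𝔮 →+* ℂ := IsLocalization.lift hunit
  have hemb_alg : ∀ a : ↥A₁, emb (algebraMap ↥A₁ (Localization.AtPrime 𝔮) a) = (a : ℂ) :=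
    fun a => IsLocalization.lift_eq hunit a
  have hemb_inj : Function.Injective emb := by
    rw [injective_iff_map_eq_zero]
    intro x hx
    obtain ⟨a, s, rfl⟩ := IsLocalization.exists_mk'_eq 𝔮.primeCompl x
    rw [IsLocalization.lift_mk'_spec, mul_zero] at hx
    have : a = 0 := Subtype.ext hx
    rw [this, IsLocalization.mk'_zero]
  set A : Subring ℂ := emb.range with hA
  let e : Localization.AtPrime 𝔮 ≃+* ↥A :=
    RingEquiv.ofBijective emb.rangeRestrict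
      ⟨fun x y h => hemb_inj (congrArg Subtype.val h), emb.rangeRestrict_surjective⟩
  have he : ∀ x, ((e x : ↥A) : ℂ) = emb x := fun x => rfl
  have hA₁A : ∀ z : ℂ, z ∈ A₁ → z ∈ A := fun z hz =>
    RingHom.mem_range.mpr ⟨algebraMap ↥A₁ (Localization.AtPrime 𝔮) ⟨z, hz⟩, hemb_alg ⟨z, hz⟩⟩
  have hRA : ∀ q : ↥(GaloisRep.ratLocalizedAt ℓ), ((q : ℚ) : ℂ) ∈ A :=
    fun q => hA₁A _ (cyc_ι₀_mem_A₁ ℓ ζ q)
  have hℓnu' : ¬ IsUnit ((ℓ : ℕ) : Localization.AtPrime 𝔮) := by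
    intro h
    have : ((ℓ : ℕ) : Localization.AtPrime 𝔮) ∈ IsLocalRing.maximalIdeal _ := by
      rw [hmax]; exact Ideal.mem_span_singleton_self _
    exact (IsLocalRing.mem_maximalIdeal _).mp this h
  refine ⟨A, IsLocalRing.ResidueField (Localization.AtPrime 𝔮), inferInstance, ?_,
    (IsLocalRing.residue (Localization.AtPrime 𝔮)).comp e.symm.toRingHom, ?_, ?_, ?_, ?_, ?_⟩
  · -- characteristic
    rw [CharP.charP_iff_prime_eq_zero hℓp]
    have : ((ℓ : ℕ) : IsLocalRing.ResidueField (Localization.AtPrime 𝔮)) =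
        IsLocalRing.residue _ ((ℓ : ℕ) : Localization.AtPrime 𝔮) := by
      rw [map_natCast]
    rw [this, IsLocalRing.residue_eq_zero_iff, hmax]
    exact Ideal.mem_span_singleton_self _
  · exact IsPrincipalIdealRing.of_surjective e.toRingHom e.surjective
  · intro ζ' hζ'
    obtain ⟨i, -, rfl⟩ := hζ.eq_pow_of_pow_eq_one hζ'
    exact hA₁A _ (pow_mem (cyc_ζ_mem_A₁ ℓ ζ) i)
  · intro m hm
    have := hRA ⟨_, cyc_natCast_inv_mem ℓ m hm⟩
    simpa using this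
  · intro x hx
    have hx' : e.symm x ∈ IsLocalRing.maximalIdeal (Localization.AtPrime 𝔮) := by
      rw [← IsLocalRing.residue_eq_zero_iff]; exact hx
    rw [hmax, Ideal.mem_span_singleton] at hx'
    obtain ⟨y, hy⟩ := hx'
    refine ⟨e y, ?_⟩
    have : x = e (e.symm x) := (e.apply_symm_apply x).symm
    rw [this, hy, map_mul, map_natCast]
  · intro x hx
    by_contra hxR
    -- `ℓ ∣ x.den`
    have hdvd : ℓ ∣ x.den := by
      by_contra hnd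
      exact hxR ((Nat.Prime.coprime_iff_not_dvd hℓp).mpr hnd).symm
    obtain ⟨d, hd⟩ := hdvd
    have hnum : ¬ (ℓ : ℤ) ∣ x.num := by
      intro h
      have h1 : ℓ ∣ x.num.natAbs := Int.natCast_dvd.mp h
      have h2 : ℓ ∣ Nat.gcd x.num.natAbs x.den := Nat.dvd_gcd h1 ⟨d, hd⟩
      rw [x.reduced] at h2
      exact hℓp.one_lt.ne' (Nat.dvd_one.mp h2)
    have hnum0 : x.num ≠ 0 := fun h => hnum (h ▸ dvd_zero _)
    -- `y = d / num ∈ ℤ_(ℓ)`
    have hy : ((d : ℚ) / (x.num : ℚ)) ∈ GaloisRep.ratLocalizedAt ℓ := by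
      show ((d : ℚ) / (x.num : ℚ)).den.Coprime ℓ
      have h1 : (((d : ℚ) / (x.num : ℚ)).den : ℤ) ∣ x.num := by
        have := Rat.den_dvd (d : ℤ) x.num
        rwa [Rat.divInt_eq_div, Int.cast_natCast] at this
      have h2 : ¬ ℓ ∣ ((d : ℚ) / (x.num : ℚ)).den := by
        intro h
        exact hnum (dvd_trans (Int.natCast_dvd_natCast.mpr h) h1)
      exact ((Nat.Prime.coprime_iff_not_dvd hℓp).mpr h2).symm
    have hyA := hRA ⟨_, hy⟩
    have hprod : (ℓ : ℂ) * ((((d : ℚ) / (x.num : ℚ) : ℚ) : ℂ) * (x : ℂ)) = 1 := by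
      have hx1 : (x : ℚ) = (x.num : ℚ) / (x.den : ℚ) := (Rat.num_div_den x).symm
      have hden0 : (x.den : ℚ) ≠ 0 := by exact_mod_cast x.den_nz
      have hq : (ℓ : ℚ) * (((d : ℚ) / (x.num : ℚ)) * x) = 1 := by
        have hnum0' : (x.num : ℚ) ≠ 0 := by exact_mod_cast hnum0
        have hdq : (x.den : ℚ) = (ℓ : ℚ) * (d : ℚ) := by exact_mod_cast hd
        rw [hdq] at hden0
        have h1 : (ℓ : ℚ) * (((d : ℚ) / (x.num : ℚ)) *
            ((x.num : ℚ) / ((ℓ : ℚ) * (d : ℚ)))) = 1 := by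
          have hℓ0' : (ℓ : ℚ) ≠ 0 := left_ne_zero_of_mul hden0
          have hd0' : (d : ℚ) ≠ 0 := right_ne_zero_of_mul hden0
          field_simp
        rw [← hdq, Rat.num_div_den] at h1
        exact h1
      exact_mod_cast congrArg (fun q : ℚ => (q : ℂ)) hq
    -- so `ℓ` is a unit in `A`
    let z : ↥A := ⟨_, hyA⟩ * ⟨_, hx⟩
    have hz : (ℓ : ↥A) * z = 1 := by
      apply Subtype.ext
      simpa [z] using hprod
    apply hℓnu'
    have h1 : e.symm ((ℓ : ↥A) * z) = 1 := by rw [hz, map_one]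
    rw [map_mul, map_natCast] at h1
    exact IsUnit.of_mul_eq_one _ h1

end Fermat.Agent.S28lib
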