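import Mathlib
import Fermat.Prelude.Def_ModularCurve_LaurentCoeff
import Fermat.Agent.S28lib.CoeffRing

/-!
# S28, piece (N): normality of `A⸨q⸩` inside `𝕂⸨q⸩`

For a subring `A` of a field `𝕂` which is a principal ideal ring, a Laurent series over `𝕂` which
is a quotient of two Laurent series with coefficients in `A` and is integral over the ring of
Laurent series with coefficients in `A` has itself all coefficients in `A`.
(`A⟦X⟧` is a UFD, hence integrally closed, and so is its localisation `A⸨X⸩`.)
-/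

set_option autoImplicit false

namespace Fermat.Agent.S28lib

open ModularCurve HahnSeries

noncomputable section

variable {𝕂 : Type*} [Field 𝕂]

/-- `A⸨X⸩` is integrally closed when `A` is a principal ideal domain. -/
theorem isIntegrallyClosed_laurentSeries (A : Type*) [CommRing A] [IsDomain A]
    [IsPrincipalIdealRing A] : IsIntegrallyClosed (LaurentSeries A) :=
  isIntegrallyClosed_of_isLocalization _
    (Submonoid.powers (PowerSeries.X : PowerSeries A)) (by
      rintro x ⟨n, rfl⟩
      exact mem_nonZeroDivisors_of_ne_zero (pow_ne_zero n PowerSeries.X_ne_zero))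

/-- **Normality.** If `x ∈ 𝕂⸨q⸩` is a quotient of elements of `A⸨q⸩` and is integral over
`A⸨q⸩`, then `x ∈ A⸨q⸩`. -/
theorem coeffRing_normal (A : Subring 𝕂) [IsPrincipalIdealRing ↥A]
    (x b : LaurentSeries 𝕂) (hb : b ∈ coeffRing A) (hb0 : b ≠ 0) (hxb : x * b ∈ coeffRing A)
    (hint : IsIntegral ↥(coeffRing A) x) : x ∈ coeffRing A := by
  classical
  have : IsIntegrallyClosed (LaurentSeries ↥A) := isIntegrallyClosed_laurentSeries ↥A
  set ι : LaurentSeries ↥A →+* LaurentSeries 𝕂 := coeffMap A.subtype with hι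
  have hιinj : Function.Injective ι := coeffMap_subtype_injective
  let _ : Algebra (LaurentSeries ↥A) (LaurentSeries 𝕂) := ι.toAlgebra
  have halg : ∀ a : LaurentSeries ↥A, algebraMap (LaurentSeries ↥A) (LaurentSeries 𝕂) a = ι a :=
    fun _ => rfl
  -- integrality over `A⸨q⸩`
  obtain ⟨p, hpm, hp0⟩ := hint
  have hcoef : ∀ c : ↥(coeffRing A), ∃ a : LaurentSeries ↥A, ι a = (c : LaurentSeries 𝕂) :=
    fun c => c.2
  choose lift hlift using hcoef
  have hlifts : p.map (coeffRing A).subtype ∈ Polynomial.lifts ι := by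
    rw [Polynomial.lifts_iff_coeff_lifts]
    intro n
    rw [Polynomial.coeff_map]
    exact ⟨lift (p.coeff n), hlift _⟩
  obtain ⟨q, hq, -, hqm⟩ := Polynomial.lifts_and_natDegree_eq_and_monic hlifts (hpm.map _)
  have hint' : IsIntegral (LaurentSeries ↥A) x := by
    refine ⟨q, hqm, ?_⟩
    rw [Polynomial.eval₂_eq_eval_map]
    have : q.map (algebraMap (LaurentSeries ↥A) (LaurentSeries 𝕂)) =
        p.map (coeffRing A).subtype := hq
    rw [this, ← Polynomial.eval₂_eq_eval_map]
    exact hp0
  -- `x` is in the image of the fraction field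
  obtain ⟨b', rfl⟩ := hb
  obtain ⟨a', ha'⟩ := hxb
  have hb'0 : b' ≠ 0 := by
    rintro rfl
    exact hb0 (map_zero _)
  let g : LaurentSeries ↥A →ₐ[LaurentSeries ↥A] LaurentSeries 𝕂 :=
    Algebra.ofId _ _
  have hg : Function.Injective g := hιinj
  let φ : FractionRing (LaurentSeries ↥A) →ₐ[LaurentSeries ↥A] LaurentSeries 𝕂 :=
    IsFractionRing.liftAlgHom hg
  have hφ : ∀ a : LaurentSeries ↥A,
      φ (algebraMap (LaurentSeries ↥A) (FractionRing (LaurentSeries ↥A)) a) = ι a := by
    intro a
    rw [AlgHom.commutes]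
    rfl
  set y : FractionRing (LaurentSeries ↥A) :=
    algebraMap _ _ a' / algebraMap _ _ b' with hy
  have hxy : φ y = x := by
    have hne : ι b' ≠ 0 := fun h => hb'0 (hιinj (by rw [h, map_zero]))
    rw [hy, map_div₀, hφ, hφ, div_eq_iff hne]
    exact ha'
  have hyint : IsIntegral (LaurentSeries ↥A) y := by
    rw [← isIntegral_algHom_iff φ φ.toRingHom.injective, hxy]
    exact hint'
  obtain ⟨c, hc⟩ := IsIntegrallyClosed.isIntegral_iff.mp hyint
  refine ⟨c, ?_⟩
  rw [← hxy, ← hc, hφ]

end

end Fermat.Agent.S28lib
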