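import Mathlib
import Fermat.Prelude.Def_ModularCurve_IgusaScheme
import Fermat.Prelude.Def_ModularCurve_X0ModL
import Fermat.Agent.S28lib.CoeffRing
import Fermat.Agent.S28lib.Normal

/-!
# S28, pieces (N)/(R): elements of the chart algebras have `ℓ`-integral `q`-expansions

* `ℤ_(ℓ) = GaloisRep.ratLocalizedAt ℓ` is a discrete valuation ring, with residue map
  `icRes : ℤ_(ℓ) →+* ZMod ℓ` whose kernel is generated by `ℓ`;
* every element of the function field is a quotient of elements of `ℤ_(ℓ)⸨q⸩`;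
* hence every element of `chartAlgMid N ℓ` (so of `chartAlgFin`, `chartAlgInf`) lies in
  `ℤ_(ℓ)⸨q⸩` (`mem_coeffRing_of_mem_chartAlgMid`), and reduction of coefficients is a ring hom
  `redMid : chartAlgMid N ℓ →+* LaurentSeries (ZMod ℓ)`, with `redMid j = jbar`
  and `redMid x = 0 → x = ℓ · g`, `g ∈ ℤ_(ℓ)⸨q⸩`.
-/

set_option autoImplicit false
set_option linter.unusedSectionVars false

namespace Fermat.Agent.S28lib

open ModularCurve ModularCurve.IgusaScheme HahnSeries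

noncomputable section

variable (ℓ : ℕ) [Fact ℓ.Prime]

/-! ### `ℤ_(ℓ)` -/

/-- `den` of an element of `ℤ_(ℓ)` is nonzero in `ZMod ℓ`. -/
theorem ic_den_ne_zero (x : ↥(GaloisRep.ratLocalizedAt ℓ)) :
    (((x : ℚ).den : ℕ) : ZMod ℓ) ≠ 0 := by
  have hx : (x : ℚ).den.Coprime ℓ := x.2
  intro h
  rw [ZMod.natCast_eq_zero_iff] at h
  have := Nat.Coprime.eq_one_of_dvd hx.symm h
  exact (Fact.out : ℓ.Prime).one_lt.ne' this

/-- The residue map `ℤ_(ℓ) → 𝔽_ℓ`. -/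
def icRes : ↥(GaloisRep.ratLocalizedAt ℓ) →+* ZMod ℓ where
  toFun x := ((x : ℚ) : ZMod ℓ)
  map_one' := by simp
  map_zero' := by simp
  map_mul' x y := by
    simpa using Rat.cast_mul_of_ne_zero (ic_den_ne_zero ℓ x) (ic_den_ne_zero ℓ y)
  map_add' x y := by
    simpa using Rat.cast_add_of_ne_zero (ic_den_ne_zero ℓ x) (ic_den_ne_zero ℓ y)

theorem icRes_apply (x : ↥(GaloisRep.ratLocalizedAt ℓ)) : icRes ℓ x = ((x : ℚ) : ZMod ℓ) := rfl

theorem ic_span_isPrime : (Ideal.span {(ℓ : ℤ)}).IsPrime := by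
  rw [Ideal.span_singleton_prime (by exact_mod_cast (Fact.out : ℓ.Prime).ne_zero)]
  exact Nat.prime_iff_prime_int.mp Fact.out

theorem ic_mem_primeCompl_iff (s : ℤ) :
    s ∈ (Ideal.span {(ℓ : ℤ)}).primeCompl (hp := ic_span_isPrime ℓ) ↔ ¬ (ℓ : ℤ) ∣ s := by
  rw [Ideal.mem_primeCompl_iff, Ideal.mem_span_singleton]

theorem ic_inv_intCast_mem (s : ℤ) (hs : ¬ (ℓ : ℤ) ∣ s) :
    ((s : ℚ)⁻¹) ∈ GaloisRep.ratLocalizedAt ℓ := by
  show ((s : ℚ)⁻¹).den.Coprime ℓ
  have hs0 : s ≠ 0 := by rintro rfl; exact hs (dvd_zero _)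
  have hden : ((s : ℚ)⁻¹).den = s.natAbs := by
    rw [Rat.inv_intCast_den, if_neg hs0]
  rw [hden]
  have := (Fact.out : ℓ.Prime)
  rw [Nat.coprime_comm, Nat.Prime.coprime_iff_not_dvd this]
  intro h
  exact hs (Int.natCast_dvd.mpr h)

instance ic_isLocalization :
    @IsLocalization.AtPrime ℤ _ ↥(GaloisRep.ratLocalizedAt ℓ) _ _ (Ideal.span {(ℓ : ℤ)})
      (ic_span_isPrime ℓ) := by
  have := ic_span_isPrime ℓ
  refine ⟨?_, ?_, ?_⟩
  · rintro ⟨s, hs⟩
    rw [ic_mem_primeCompl_iff] at hs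
    have hs0 : s ≠ 0 := by rintro rfl; exact hs (dvd_zero _)
    refine IsUnit.of_mul_eq_one ⟨(s : ℚ)⁻¹, ic_inv_intCast_mem ℓ s hs⟩ (Subtype.ext ?_)
    simp [hs0]
  · intro z
    have hz : (z : ℚ).den.Coprime ℓ := z.2
    have hmem : ((z : ℚ).den : ℤ) ∈ (Ideal.span {(ℓ : ℤ)}).primeCompl := by
      rw [ic_mem_primeCompl_iff]
      intro h
      have h' : ℓ ∣ (z : ℚ).den := Int.natCast_dvd_natCast.mp h
      have := Nat.Coprime.eq_one_of_dvd hz.symm h'
      exact (Fact.out : ℓ.Prime).one_lt.ne' this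
    refine ⟨((z : ℚ).num, ⟨((z : ℚ).den : ℤ), hmem⟩), Subtype.ext ?_⟩
    simp [Rat.mul_den_eq_num]
  · intro x y h
    refine ⟨1, ?_⟩
    have h' := congrArg (Subtype.val) h
    simp at h'
    simpa using h'

instance ic_isDVR : IsDiscreteValuationRing ↥(GaloisRep.ratLocalizedAt ℓ) := by
  have := ic_span_isPrime ℓ
  exact IsLocalization.AtPrime.isDiscreteValuationRing_of_dedekind_domain ℤ
    (P := Ideal.span {(ℓ : ℤ)})
    (by
      rw [Ne, Ideal.span_singleton_eq_bot]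
      exact_mod_cast (Fact.out : ℓ.Prime).ne_zero) _

/-- The kernel of the residue map is generated by `ℓ`. -/
theorem icRes_ker (x : ↥(GaloisRep.ratLocalizedAt ℓ)) (hx : icRes ℓ x = 0) :
    ∃ y : ↥(GaloisRep.ratLocalizedAt ℓ), x = (ℓ : ↥(GaloisRep.ratLocalizedAt ℓ)) * y := by
  have hℓ := (Fact.out : ℓ.Prime)
  have hden := ic_den_ne_zero ℓ x
  rw [icRes_apply, Rat.cast_def, div_eq_zero_iff] at hx
  rcases hx with hx | hx
  · rw [ZMod.intCast_zmod_eq_zero_iff_dvd] at hx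
    obtain ⟨m, hm⟩ := hx
    have hmem : ((m : ℚ) / ((x : ℚ).den : ℚ)) ∈ GaloisRep.ratLocalizedAt ℓ := by
      have h1 : ((x : ℚ).den : ℚ)⁻¹ ∈ GaloisRep.ratLocalizedAt ℓ := by
        have := ic_inv_intCast_mem ℓ ((x : ℚ).den : ℤ) (by
          intro h
          have h' : ℓ ∣ (x : ℚ).den := Int.natCast_dvd_natCast.mp h
          have := Nat.Coprime.eq_one_of_dvd (Nat.Coprime.symm x.2) h'
          exact hℓ.one_lt.ne' this)
        simpa using this
      rw [div_eq_mul_inv]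
      exact Subring.mul_mem _ (intCast_mem _ m) h1
    refine ⟨⟨_, hmem⟩, Subtype.ext ?_⟩
    have hx' : (x : ℚ) = ((x : ℚ).num : ℚ) / ((x : ℚ).den : ℚ) := (Rat.num_div_den _).symm
    have hd0 : ((x : ℚ).den : ℚ) ≠ 0 := by exact_mod_cast (x : ℚ).den_ne_zero
    simp only [Subring.coe_mul, Subring.coe_natCast]
    calc (x : ℚ) = ((x : ℚ).num : ℚ) / ((x : ℚ).den : ℚ) := hx'
      _ = (((ℓ : ℤ) * m : ℤ) : ℚ) / ((x : ℚ).den : ℚ) := by rw [hm]
      _ = (ℓ : ℚ) * ((m : ℚ) / ((x : ℚ).den : ℚ)) := by push_cast; ring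
  · exact absurd hx hden

/-- Any ring hom from `ℤ_(ℓ)` to a field of characteristic zero is the rational cast. -/
theorem ringHom_ratLocalizedAt_apply {T : Type*} [Field T] [CharZero T]
    (f : ↥(GaloisRep.ratLocalizedAt ℓ) →+* T) (a : ↥(GaloisRep.ratLocalizedAt ℓ)) :
    f a = ((a : ℚ) : T) := by
  have h : a * (((a : ℚ).den : ℕ) : ↥(GaloisRep.ratLocalizedAt ℓ)) =
      (((a : ℚ).num : ℤ) : ↥(GaloisRep.ratLocalizedAt ℓ)) := by
    apply Subtype.ext
    push_cast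
    exact Rat.mul_den_eq_num _
  have h2 := congrArg f h
  rw [map_mul, map_natCast, map_intCast] at h2
  rw [Rat.cast_def, eq_div_iff (Nat.cast_ne_zero.mpr (a : ℚ).den_ne_zero)]
  exact h2

/-! ### The function field consists of quotients of elements of `ℤ_(ℓ)⸨q⸩` -/

/-- `x` is a quotient of two Laurent series with coefficients in `A`. -/
def IsCoeffQuot {𝕂 : Type*} [Field 𝕂] (A : Subring 𝕂) (x : LaurentSeries 𝕂) : Prop :=
  ∃ b : LaurentSeries 𝕂, b ∈ coeffRing A ∧ b ≠ 0 ∧ x * b ∈ coeffRing A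

section Quot

variable {𝕂 : Type*} [Field 𝕂] (A : Subring 𝕂)

theorem isCoeffQuot_of_mem {x : LaurentSeries 𝕂} (hx : x ∈ coeffRing A) : IsCoeffQuot A x :=
  ⟨1, one_mem _, one_ne_zero, by rwa [mul_one]⟩

theorem IsCoeffQuot.add {x y : LaurentSeries 𝕂} (hx : IsCoeffQuot A x) (hy : IsCoeffQuot A y) :
    IsCoeffQuot A (x + y) := by
  obtain ⟨b, hb, hb0, hxb⟩ := hx
  obtain ⟨c, hc, hc0, hyc⟩ := hy
  refine ⟨b * c, mul_mem hb hc, mul_ne_zero hb0 hc0, ?_⟩
  have : (x + y) * (b * c) = (x * b) * c + (y * c) * b := by ring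
  rw [this]
  exact add_mem (mul_mem hxb hc) (mul_mem hyc hb)

theorem IsCoeffQuot.mul {x y : LaurentSeries 𝕂} (hx : IsCoeffQuot A x) (hy : IsCoeffQuot A y) :
    IsCoeffQuot A (x * y) := by
  obtain ⟨b, hb, hb0, hxb⟩ := hx
  obtain ⟨c, hc, hc0, hyc⟩ := hy
  refine ⟨b * c, mul_mem hb hc, mul_ne_zero hb0 hc0, ?_⟩
  have : (x * y) * (b * c) = (x * b) * (y * c) := by ring
  rw [this]
  exact mul_mem hxb hyc

theorem IsCoeffQuot.inv {x : LaurentSeries 𝕂} (hx : IsCoeffQuot A x) :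
    IsCoeffQuot A x⁻¹ := by
  by_cases hx0 : x = 0
  · rw [hx0, inv_zero]
    exact isCoeffQuot_of_mem A (zero_mem _)
  obtain ⟨b, hb, hb0, hxb⟩ := hx
  refine ⟨x * b, hxb, mul_ne_zero hx0 hb0, ?_⟩
  rw [← mul_assoc, inv_mul_cancel₀ hx0, one_mul]
  exact hb

end Quot

/-- `j`, over any coefficient ring, is invertible as a Laurent series. -/
theorem exists_jqModC_mul_eq_one (R : Type*) [CommRing R] :
    ∃ u : LaurentSeries R, jqModC R * u = 1 := by
  set P : PowerSeries R := jNum.map (Int.castRingHom R) with hP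
  have hP0 : PowerSeries.constantCoeff P = ((1 : Rˣ) : R) := by
    rw [hP, ← PowerSeries.coeff_zero_eq_constantCoeff, PowerSeries.coeff_map,
      PowerSeries.coeff_zero_eq_constantCoeff, constantCoeff_jNum]
    simp
  refine ⟨HahnSeries.single (1 : ℤ) 1 * HahnSeries.ofPowerSeries ℤ R (PowerSeries.invOfUnit P 1),
    ?_⟩
  have h1 := PowerSeries.mul_invOfUnit P 1 hP0
  have h2 : HahnSeries.ofPowerSeries ℤ R P *
      HahnSeries.ofPowerSeries ℤ R (PowerSeries.invOfUnit P 1) = 1 := by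
    rw [← map_mul, h1, map_one]
  have h3 : (HahnSeries.single (-1 : ℤ) (1 : R)) * HahnSeries.single (1 : ℤ) 1 = 1 := by
    rw [HahnSeries.single_mul_single]
    simp
  calc jqModC R * (HahnSeries.single (1 : ℤ) 1 *
        HahnSeries.ofPowerSeries ℤ R (PowerSeries.invOfUnit P 1))
      = (HahnSeries.single (-1 : ℤ) (1 : R) * HahnSeries.single (1 : ℤ) 1) *
        (HahnSeries.ofPowerSeries ℤ R P *
          HahnSeries.ofPowerSeries ℤ R (PowerSeries.invOfUnit P 1)) := by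
        rw [jqModC]; ring
    _ = 1 := by rw [h2, h3, one_mul]

variable {𝕂 : Type*} [Field 𝕂] (A : Subring 𝕂)

theorem jqModC_mem_coeffRing : jqModC 𝕂 ∈ coeffRing A :=
  ⟨jqModC ↥A, coeffMap_jqModC _⟩

theorem jqNModC_mem_coeffRing (d : ℕ) [NeZero d] : qExpand 𝕂 d (jqModC 𝕂) ∈ coeffRing A :=
  ⟨qExpand ↥A d (jqModC ↥A), by rw [coeffMap_qExpand, coeffMap_jqModC]⟩

theorem jqModC_inv_mem_coeffRing : (jqModC 𝕂)⁻¹ ∈ coeffRing A := by
  obtain ⟨u, hu⟩ := exists_jqModC_mul_eq_one ↥A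
  refine ⟨u, ?_⟩
  have h := congrArg (coeffMap A.subtype) hu
  rw [map_mul, map_one, coeffMap_jqModC] at h
  exact eq_inv_of_mul_eq_one_right h

theorem C_mem_coeffRing {a : 𝕂} (ha : a ∈ A) : (HahnSeries.C a : LaurentSeries 𝕂) ∈ coeffRing A := by
  refine ⟨HahnSeries.C ⟨a, ha⟩, ?_⟩
  exact coeffMap_single _ _ _

/-! ### Conjugate expansions of elements of the chart algebras are integral -/

section General

variable [CharZero 𝕂] (N : ℕ) [NeZero N]

/-- A ring hom from the function field to Laurent series sends rational constants to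
constants. -/
theorem map_ratCast_eq_C (σ : ↥(modularFunctionFieldFull N) →+* LaurentSeries 𝕂) (r : ℚ) :
    σ ((r : ℚ) : ↥(modularFunctionFieldFull N)) = HahnSeries.C (r : 𝕂) := by
  rw [map_ratCast σ r]
  exact (map_ratCast (HahnSeries.C : 𝕂 →+* LaurentSeries 𝕂) r).symm

/-- Every value of a ring hom `σ` from the function field to `𝕂⸨q⸩` which sends the generators
`j(q^d)` into `A⸨q⸩` is a quotient of elements of `A⸨q⸩`. -/
theorem isCoeffQuot_map (σ : ↥(modularFunctionFieldFull N) →+* LaurentSeries 𝕂)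
    (hσ : ∀ (d : ℕ) (_ : NeZero d) (hd : d ∣ N),
      σ ⟨qExpand ℚ d jq, jqd_mem_full N hd⟩ ∈ coeffRing A)
    (x : ↥(modularFunctionFieldFull N)) : IsCoeffQuot A (σ x) := by
  obtain ⟨x, hx⟩ := x
  induction hx using IntermediateField.adjoin_induction with
  | mem y hy =>
    obtain ⟨d, hne, hd, rfl⟩ := hy
    exact isCoeffQuot_of_mem A (hσ d hne hd)
  | algebraMap r =>
    have h1 : σ ⟨algebraMap ℚ (LaurentSeries ℚ) r, IntermediateField.algebraMap_mem _ r⟩ =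
        HahnSeries.C (r : 𝕂) := by
      have e : (⟨algebraMap ℚ (LaurentSeries ℚ) r, IntermediateField.algebraMap_mem _ r⟩ :
          ↥(modularFunctionFieldFull N)) = ((r : ℚ) : ↥(modularFunctionFieldFull N)) := by
        apply Subtype.ext
        show algebraMap ℚ (LaurentSeries ℚ) r = _
        rw [eq_ratCast (algebraMap ℚ (LaurentSeries ℚ)) r]
        norm_cast
      rw [e]
      exact map_ratCast_eq_C N σ r
    rw [h1]
    refine ⟨HahnSeries.C ((r.den : ℕ) : 𝕂), C_mem_coeffRing A (natCast_mem A _),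
      HahnSeries.C_ne_zero (Nat.cast_ne_zero.mpr r.den_ne_zero), ?_⟩
    · rw [← map_mul]
      have : (r : 𝕂) * ((r.den : ℕ) : 𝕂) = ((r.num : ℤ) : 𝕂) := by
        have := Rat.mul_den_eq_num r
        exact_mod_cast congrArg (fun q : ℚ => (q : 𝕂)) this
      rw [this]
      exact C_mem_coeffRing A (intCast_mem A _)
  | add y z hy hz ihy ihz =>
    have : (⟨y + z, add_mem hy hz⟩ : ↥(modularFunctionFieldFull N)) = ⟨y, hy⟩ + ⟨z, hz⟩ := rfl
    rw [this, map_add]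
    exact ihy.add A ihz
  | inv y hy ihy =>
    have : (⟨y⁻¹, inv_mem hy⟩ : ↥(modularFunctionFieldFull N)) = (⟨y, hy⟩)⁻¹ := rfl
    rw [this, map_inv₀]
    exact ihy.inv A
  | mul y z hy hz ihy ihz =>
    have : (⟨y * z, mul_mem hy hz⟩ : ↥(modularFunctionFieldFull N)) = ⟨y, hy⟩ * ⟨z, hz⟩ := rfl
    rw [this, map_mul]
    exact ihy.mul A ihz

/-- **Integrality of conjugate expansions.** Let `σ` be a ring hom from the function field to
`𝕂⸨q⸩` sending the generators `j(q^d)` and `j⁻¹` into `A⸨q⸩`, where `A ⊇ ℤ_(ℓ)` is a principal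
ideal ring.  Then `σ` maps `chartAlgMid N ℓ` (hence `chartAlgFin`, `chartAlgInf`) into `A⸨q⸩`. -/
theorem map_mem_coeffRing_of_mem_chartAlgMid [IsPrincipalIdealRing ↥A]
    (hA : ∀ r : ℚ, r ∈ GaloisRep.ratLocalizedAt ℓ → (r : 𝕂) ∈ A)
    (σ : ↥(modularFunctionFieldFull N) →+* LaurentSeries 𝕂)
    (hσ : ∀ (d : ℕ) (_ : NeZero d) (hd : d ∣ N),
      σ ⟨qExpand ℚ d jq, jqd_mem_full N hd⟩ ∈ coeffRing A)
    (hσinv : (σ (jFull N))⁻¹ ∈ coeffRing A)
    (x : ↥(modularFunctionFieldFull N)) (hx : x ∈ chartAlgMid N ℓ) :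
    σ x ∈ coeffRing A := by
  have hσj : σ (jFull N) ∈ coeffRing A := by
    have h := hσ 1 inferInstance (one_dvd N)
    have e : (⟨qExpand ℚ 1 jq, jqd_mem_full N (one_dvd N)⟩ : ↥(modularFunctionFieldFull N)) =
        jFull N := Subtype.ext (qExpand_one_apply jq)
    rwa [e] at h
  -- the base algebra maps into `A⸨q⸩`
  have hbase : ∀ c : ↥(modularFunctionFieldFull N),
      c ∈ Algebra.adjoin ↥(GaloisRep.ratLocalizedAt ℓ)
        ({jFull N, (jFull N)⁻¹} : Set ↥(modularFunctionFieldFull N)) → σ c ∈ coeffRing A := by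
    intro c hc
    induction hc using Algebra.adjoin_induction with
    | mem y hy =>
      rcases hy with rfl | hy
      · exact hσj
      · rw [Set.mem_singleton_iff] at hy
        rw [hy, map_inv₀]
        exact hσinv
    | algebraMap a =>
      have hc0 : CharZero (LaurentSeries 𝕂) :=
        charZero_of_injective_ringHom (f := (HahnSeries.C : 𝕂 →+* LaurentSeries 𝕂))
          HahnSeries.C_injective
      have h1 := ringHom_ratLocalizedAt_apply ℓ
        (σ.comp (algebraMap ↥(GaloisRep.ratLocalizedAt ℓ) ↥(modularFunctionFieldFull N))) a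
      rw [RingHom.comp_apply] at h1
      rw [h1, ← map_ratCast (HahnSeries.C : 𝕂 →+* LaurentSeries 𝕂)]
      exact C_mem_coeffRing A (hA _ a.2)
    | add y z _ _ ihy ihz => rw [map_add]; exact add_mem ihy ihz
    | mul y z _ _ ihy ihz => rw [map_mul]; exact mul_mem ihy ihz
  let φ : ↥(Algebra.adjoin ↥(GaloisRep.ratLocalizedAt ℓ)
        ({jFull N, (jFull N)⁻¹} : Set ↥(modularFunctionFieldFull N))) →+* ↥(coeffRing A) :=
    (σ.comp (Subalgebra.val _).toRingHom).codRestrict (coeffRing A) (fun c => hbase c.1 c.2)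
  have hint : IsIntegral ↥(coeffRing A) (σ x) := by
    have hx' : IsIntegral ↥(Algebra.adjoin ↥(GaloisRep.ratLocalizedAt ℓ)
        ({jFull N, (jFull N)⁻¹} : Set ↥(modularFunctionFieldFull N))) x :=
      (mem_chartAlg_iff N ℓ).mp hx
    exact hx'.map_of_comp_eq φ σ (by ext c; rfl)
  obtain ⟨b, hb, hb0, hxb⟩ := isCoeffQuot_map A N σ hσ x
  exact coeffRing_normal A (σ x) b hb hb0 hxb hint

end General

/-! ### The expansion at `∞`: reduction of `chartAlgMid` -/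

section Rat

variable (N : ℕ) [NeZero N]

/-- The inclusion of the function field in `ℚ⸨q⸩`, as a ring hom. -/
def ffVal : ↥(modularFunctionFieldFull N) →+* LaurentSeries ℚ where
  toFun := Subtype.val
  map_one' := rfl
  map_mul' _ _ := rfl
  map_zero' := rfl
  map_add' _ _ := rfl

@[simp] theorem ffVal_apply (x : ↥(modularFunctionFieldFull N)) :
    ffVal N x = (x : LaurentSeries ℚ) := rfl

/-- Every element of `chartAlgMid N ℓ` has all its `q`-coefficients in `ℤ_(ℓ)`. -/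
theorem mem_coeffRing_of_mem_chartAlgMid (x : ↥(modularFunctionFieldFull N))
    (hx : x ∈ chartAlgMid N ℓ) :
    (x : LaurentSeries ℚ) ∈ coeffRing (GaloisRep.ratLocalizedAt ℓ) := by
  refine map_mem_coeffRing_of_mem_chartAlgMid ℓ (GaloisRep.ratLocalizedAt ℓ) N
    (fun r hr => by simpa using hr) (ffVal N) ?_ ?_ x hx
  · intro d _ hd
    exact jqNModC_mem_coeffRing (𝕂 := ℚ) (GaloisRep.ratLocalizedAt ℓ) d
  · exact jqModC_inv_mem_coeffRing (𝕂 := ℚ) (GaloisRep.ratLocalizedAt ℓ)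

theorem coeff_mem_of_mem_chartAlgMid (x : ↥(modularFunctionFieldFull N))
    (hx : x ∈ chartAlgMid N ℓ) (k : ℤ) :
    (x : LaurentSeries ℚ).coeff k ∈ GaloisRep.ratLocalizedAt ℓ :=
  mem_coeffRing_iff.mp (mem_coeffRing_of_mem_chartAlgMid ℓ N x hx) k

/-- The `q`-expansion, as a ring hom `chartAlgMid N ℓ → ℤ_(ℓ)⸨q⸩ ⊂ ℚ⸨q⸩`. -/
def liftMid : ↥(chartAlgMid N ℓ) →+* ↥(coeffRing (GaloisRep.ratLocalizedAt ℓ)) :=
  ((ffVal N).comp (Subalgebra.val (chartAlgMid N ℓ)).toRingHom).codRestrict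
      (coeffRing (GaloisRep.ratLocalizedAt ℓ))
      (fun x => mem_coeffRing_of_mem_chartAlgMid ℓ N x.1 x.2)

@[simp] theorem coe_liftMid (x : ↥(chartAlgMid N ℓ)) :
    ((liftMid ℓ N x : ↥(coeffRing (GaloisRep.ratLocalizedAt ℓ))) : LaurentSeries ℚ) =
      ((x : ↥(modularFunctionFieldFull N)) : LaurentSeries ℚ) := rfl

/-- **Reduction mod `ℓ` of `q`-expansions** on the middle chart. -/
def redMid : ↥(chartAlgMid N ℓ) →+* LaurentSeries (ZMod ℓ) :=
  (coeffRed (icRes ℓ)).comp (liftMid ℓ N)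

theorem redMid_coeff (x : ↥(chartAlgMid N ℓ)) (k : ℤ) :
    (redMid ℓ N x).coeff k =
      icRes ℓ ⟨((x : ↥(modularFunctionFieldFull N)) : LaurentSeries ℚ).coeff k,
        coeff_mem_of_mem_chartAlgMid ℓ N x.1 x.2 k⟩ :=
  coeffRed_coeff (icRes ℓ) (liftMid ℓ N x) k _

/-- If `y ∈ ℤ_(ℓ)⸨q⸩` is the `q`-expansion of `x`, then `redMid x` is the reduction of `y`. -/
theorem redMid_eq_of_lift (x : ↥(chartAlgMid N ℓ))
    (y : LaurentSeries ↥(GaloisRep.ratLocalizedAt ℓ))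
    (hy : coeffMap (GaloisRep.ratLocalizedAt ℓ).subtype y =
      ((x : ↥(modularFunctionFieldFull N)) : LaurentSeries ℚ)) :
    redMid ℓ N x = coeffMap (icRes ℓ) y := by
  ext k
  rw [redMid_coeff, coeffMap_coeff]
  congr 1
  apply Subtype.ext
  have := congrArg (fun z : LaurentSeries ℚ => z.coeff k) hy
  simpa using this.symm

/-- `redMid j = jbar`. -/
theorem redMid_j (hj : jFull N ∈ chartAlgMid N ℓ) :
    redMid ℓ N ⟨jFull N, hj⟩ = jqModC (ZMod ℓ) := by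
  rw [redMid_eq_of_lift ℓ N ⟨jFull N, hj⟩ (jqModC ↥(GaloisRep.ratLocalizedAt ℓ))
    (coeffMap_jqModC _), coeffMap_jqModC]

/-- `redMid j(q^d) = jbar(q^d)` (whenever `j(q^d)` lies in the chart algebra). -/
theorem redMid_jd (d : ℕ) [NeZero d] (hd : d ∣ N)
    (hj : (⟨qExpand ℚ d jq, jqd_mem_full N hd⟩ : ↥(modularFunctionFieldFull N)) ∈
      chartAlgMid N ℓ) :
    redMid ℓ N ⟨⟨qExpand ℚ d jq, jqd_mem_full N hd⟩, hj⟩ = qExpand (ZMod ℓ) d (jqModC (ZMod ℓ)) := by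
  rw [redMid_eq_of_lift ℓ N _ (qExpand ↥(GaloisRep.ratLocalizedAt ℓ) d
    (jqModC ↥(GaloisRep.ratLocalizedAt ℓ)))
    (by rw [coeffMap_qExpand, coeffMap_jqModC]; rfl), coeffMap_qExpand, coeffMap_jqModC]

/-- The kernel of `redMid`: the `q`-expansion is `ℓ` times an element of `ℤ_(ℓ)⸨q⸩`. -/
theorem exists_eq_C_mul_of_redMid_eq_zero (x : ↥(chartAlgMid N ℓ)) (hx : redMid ℓ N x = 0) :
    ∃ g : LaurentSeries ℚ, g ∈ coeffRing (GaloisRep.ratLocalizedAt ℓ) ∧
      ((x : ↥(modularFunctionFieldFull N)) : LaurentSeries ℚ) = HahnSeries.C (ℓ : ℚ) * g := by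
  obtain ⟨g, hg⟩ := exists_eq_mul_of_coeffRed_eq_zero (icRes ℓ)
    (ℓ : ↥(GaloisRep.ratLocalizedAt ℓ)) (icRes_ker ℓ) (liftMid ℓ N x) hx
  exact ⟨g, g.2, by simpa using hg⟩

/-- Conversely, if the `q`-expansion is `ℓ` times an element of `ℤ_(ℓ)⸨q⸩`, then `redMid x = 0`. -/
theorem redMid_eq_zero_of_eq_C_mul (x : ↥(chartAlgMid N ℓ)) (g : LaurentSeries ℚ)
    (hg : g ∈ coeffRing (GaloisRep.ratLocalizedAt ℓ))
    (hx : ((x : ↥(modularFunctionFieldFull N)) : LaurentSeries ℚ) = HahnSeries.C (ℓ : ℚ) * g) :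
    redMid ℓ N x = 0 := by
  obtain ⟨g', rfl⟩ := hg
  have hy : coeffMap (GaloisRep.ratLocalizedAt ℓ).subtype
      (HahnSeries.C (ℓ : ↥(GaloisRep.ratLocalizedAt ℓ)) * g') =
      ((x : ↥(modularFunctionFieldFull N)) : LaurentSeries ℚ) := by
    rw [map_mul, hx]
    congr 1
    exact coeffMap_single _ _ _
  rw [redMid_eq_of_lift ℓ N x _ hy, map_mul]
  have : coeffMap (icRes ℓ) (HahnSeries.C (ℓ : ↥(GaloisRep.ratLocalizedAt ℓ))) = 0 := by
    have h1 : coeffMap (icRes ℓ) (HahnSeries.C (ℓ : ↥(GaloisRep.ratLocalizedAt ℓ))) =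
        HahnSeries.C (icRes ℓ (ℓ : ↥(GaloisRep.ratLocalizedAt ℓ))) := coeffMap_single _ _ _
    rw [h1, map_natCast, ZMod.natCast_self, map_zero]
  rw [this, zero_mul]

theorem redMid_eq_zero_iff (x : ↥(chartAlgMid N ℓ)) :
    redMid ℓ N x = 0 ↔ ∃ g : LaurentSeries ℚ, g ∈ coeffRing (GaloisRep.ratLocalizedAt ℓ) ∧
      ((x : ↥(modularFunctionFieldFull N)) : LaurentSeries ℚ) = HahnSeries.C (ℓ : ℚ) * g :=
  ⟨exists_eq_C_mul_of_redMid_eq_zero ℓ N x, fun ⟨g, hg, hx⟩ =>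
    redMid_eq_zero_of_eq_C_mul ℓ N x g hg hx⟩

/-- `redMid` kills `ℓ`. -/
theorem redMid_natCast_self : redMid ℓ N (ℓ : ↥(chartAlgMid N ℓ)) = 0 := by
  rw [map_natCast]
  have h : ((ℓ : ℕ) : LaurentSeries (ZMod ℓ)) = HahnSeries.C ((ℓ : ℕ) : ZMod ℓ) :=
    (map_natCast (HahnSeries.C : ZMod ℓ →+* LaurentSeries (ZMod ℓ)) ℓ).symm
  rw [h, ZMod.natCast_self, map_zero]

end Rat

end

end Fermat.Agent.S28lib
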