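import Mathlib
import Fermat.Prelude.Def_ModularCurve_IgusaScheme
import Fermat.Agent.S28lib.IntCoeff

/-!
# S28, piece (K'): the kernel statement for the chart at infinity follows from the finite chart

`ker_inf_of_ker_fin`: if every element of `chartAlgFin` whose `q`-expansion vanishes mod `ℓ` is
divisible by `ℓ` in `chartAlgFin`, then the same holds for `chartAlgInf`.

Main tool (`isIntegral_of_isIntegral_mul_of_prime`): over an integrally closed domain `R` with a
prime `π` and `t ∉ (π)`, if `π z` and `t z` are integral over `R` then so is `z`.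
-/


set_option autoImplicit false
set_option linter.style.haveILetI false

namespace Fermat.Agent.S28lib

open Polynomial

section Abstract

/-- Over a field, the minimal polynomial of `c • v` is the minimal polynomial of `v` with roots
scaled by `c` (`c ≠ 0`). -/
theorem minpoly_mul_eq_scaleRoots {K L : Type*} [Field K] [Field L] [Algebra K L]
    {c : K} (hc : c ≠ 0) {v : L} (hv : IsIntegral K v) :
    minpoly K (algebraMap K L c * v) = (minpoly K v).scaleRoots c := by
  have hcv : IsIntegral K (algebraMap K L c * v) := isIntegral_algebraMap.mul hv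
  have h1 : minpoly K (algebraMap K L c * v) ∣ (minpoly K v).scaleRoots c :=
    minpoly.dvd K _ (scaleRoots_aeval_eq_zero (minpoly.aeval K v))
  have h2 : minpoly K v ∣ (minpoly K (algebraMap K L c * v)).scaleRoots c⁻¹ := by
    refine minpoly.dvd K _ ?_
    have := scaleRoots_aeval_eq_zero (r := c⁻¹) (minpoly.aeval K (algebraMap K L c * v))
    rwa [← mul_assoc, ← map_mul, inv_mul_cancel₀ hc, map_one, one_mul] at this
  have h3 : (minpoly K v).scaleRoots c ∣ minpoly K (algebraMap K L c * v) := by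
    have := scaleRoots_dvd _ _ (r := c) h2
    rwa [← scaleRoots_mul, inv_mul_cancel₀ hc, scaleRoots_one] at this
  exact eq_of_monic_of_associated (minpoly.monic hcv)
    ((monic_scaleRoots_iff c).mpr (minpoly.monic hv)) (associated_of_dvd_dvd h1 h3)

/-- **Two-denominator lemma.**  Let `R` be an integrally closed domain, `π` a prime of `R` and
`t ∈ R` not divisible by `π`.  If `π z` and `t z` are integral over `R`, so is `z`. -/
theorem isIntegral_of_isIntegral_mul_of_prime {R L : Type*} [CommRing R] [IsDomain R]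
    [IsIntegrallyClosed R] [Field L] [Algebra R L] [FaithfulSMul R L]
    {π t : R} (hπ : Prime π) (hπt : ¬ π ∣ t) (z : L)
    (h1 : IsIntegral R (algebraMap R L π * z)) (h2 : IsIntegral R (algebraMap R L t * z)) :
    IsIntegral R z := by
  classical
  let K := FractionRing R
  let _ : Algebra K L := FractionRing.liftAlgebra R L
  have : IsScalarTower R K L := FractionRing.isScalarTower_liftAlgebra R L
  have hπ0 : π ≠ 0 := hπ.ne_zero
  have ht0 : t ≠ 0 := by rintro rfl; exact hπt (dvd_zero _)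
  have hinjK : Function.Injective (algebraMap R K) := IsFractionRing.injective R K
  have hinjL : Function.Injective (algebraMap R L) := FaithfulSMul.algebraMap_injective R L
  set u : L := algebraMap R L π * z with hu
  set v : L := algebraMap R L t * z with hv
  have hu' : minpoly K u = (minpoly R u).map (algebraMap R K) :=
    minpoly.isIntegrallyClosed_eq_field_fractions' K h1
  have hv' : minpoly K v = (minpoly R v).map (algebraMap R K) :=
    minpoly.isIntegrallyClosed_eq_field_fractions' K h2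
  set c : K := algebraMap R K π / algebraMap R K t with hc
  have htK : algebraMap R K t ≠ 0 := fun h => ht0 (hinjK (by rw [h, map_zero]))
  have hπK : algebraMap R K π ≠ 0 := fun h => hπ0 (hinjK (by rw [h, map_zero]))
  have hc0 : c ≠ 0 := div_ne_zero hπK htK
  have huv : u = algebraMap K L c * v := by
    have htL : algebraMap R L t ≠ 0 := fun h => ht0 (hinjL (by rw [h, map_zero]))
    rw [hc, map_div₀, ← IsScalarTower.algebraMap_apply, ← IsScalarTower.algebraMap_apply, hu, hv]
    field_simp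
  have hvK : IsIntegral K v := h2.tower_top
  have hS : minpoly K u = (minpoly K v).scaleRoots c := by
    rw [huv]; exact minpoly_mul_eq_scaleRoots hc0 hvK
  set d := (minpoly R v).natDegree with hd
  have hdv : (minpoly K v).natDegree = d := by
    rw [hv', (minpoly.monic h2).natDegree_map]
  have hdu : (minpoly R u).natDegree = d := by
    have : (minpoly K u).natDegree = d := by rw [hS, natDegree_scaleRoots, hdv]
    rwa [hu', (minpoly.monic h1).natDegree_map] at this
  -- coefficient identity in `R`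
  have hcoef : ∀ i, (minpoly R u).coeff i * t ^ (d - i) = (minpoly R v).coeff i * π ^ (d - i) := by
    intro i
    apply hinjK
    have := congrArg (fun p : K[X] => p.coeff i) hS
    simp only [coeff_scaleRoots, hdv] at this
    rw [hu', hv', coeff_map, coeff_map] at this
    rw [map_mul, map_mul, map_pow, map_pow, this, hc, div_pow, mul_assoc,
      div_mul_cancel₀ _ (pow_ne_zero _ htK)]
  have hdiv : ∀ i, π ^ (d - i) ∣ (minpoly R u).coeff i := by
    intro i
    refine hπ.pow_dvd_of_dvd_mul_right (b := t ^ (d - i)) (d - i)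
      (fun h => hπt (hπ.dvd_of_dvd_pow h)) ?_
    rw [hcoef i]
    exact dvd_mul_left _ _
  choose qc hqc using hdiv
  -- the polynomial `q` with `q.scaleRoots π = minpoly R u`
  let q : R[X] := X ^ d + ∑ i ∈ Finset.range d, C (qc i) * X ^ i
  have hqdeg : (∑ i ∈ Finset.range d, C (qc i) * X ^ i).degree < (d : WithBot ℕ) := by
    rw [degree_lt_iff_coeff_zero]
    intro m hm
    rw [finsetSum_coeff]
    refine Finset.sum_eq_zero fun i hi => ?_
    have hi' := Finset.mem_range.mp hi
    rw [coeff_C_mul, coeff_X_pow, if_neg (by omega), mul_zero]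
  have hqm : q.Monic := monic_X_pow_add hqdeg
  have hqd : q.natDegree = d := by
    have h := natDegree_add_eq_left_of_degree_lt (p := (X : R[X]) ^ d)
      (q := ∑ i ∈ Finset.range d, C (qc i) * X ^ i) (by rwa [degree_X_pow])
    rwa [natDegree_X_pow] at h
  have hqcoeff : ∀ i, i < d → q.coeff i = qc i := by
    intro i hi
    simp only [q, coeff_add, coeff_X_pow, finsetSum_coeff, coeff_C_mul, hi.ne, if_false,
      zero_add]
    rw [Finset.sum_eq_single i]
    · simp
    · intro j _ hji
      simp [hji.symm]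
    · intro h
      exact absurd (Finset.mem_range.mpr hi) h
  have hscale : q.scaleRoots π = minpoly R u := by
    ext i
    rw [coeff_scaleRoots, hqd]
    rcases lt_trichotomy i d with hi | hi | hi
    · rw [hqcoeff i hi, hqc i, mul_comm]
    · subst hi
      rw [← hqd, hqm.coeff_natDegree, hqd, Nat.sub_self, pow_zero, one_mul]
      rw [← hdu, (minpoly.monic h1).coeff_natDegree]
    · rw [coeff_eq_zero_of_natDegree_lt (by rw [hqd]; exact hi), zero_mul,
        coeff_eq_zero_of_natDegree_lt (by rw [hdu]; exact hi)]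
  have hzero : aeval u (q.scaleRoots π) = 0 := by rw [hscale]; exact minpoly.aeval R u
  rw [aeval_def, hu, scaleRoots_eval₂_mul] at hzero
  have hπL : algebraMap R L π ≠ 0 := fun h => hπ0 (hinjL (by rw [h, map_zero]))
  exact ⟨q, hqm, (mul_eq_zero.mp hzero).resolve_left (pow_ne_zero _ hπL)⟩

end Abstract

/-! ### Integrality over a ring with the same image -/

theorem isIntegral_of_forall_exists_algebraMap_eq {A B C : Type*} [CommRing A] [CommRing B]
    [CommRing C] [Algebra A C] [Algebra B C]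
    (h : ∀ b : B, ∃ a : A, algebraMap A C a = algebraMap B C b) {y : C} (hy : IsIntegral B y) :
    IsIntegral A y := by
  obtain ⟨p, hpm, hp0⟩ := hy
  have hlifts : p.map (algebraMap B C) ∈ Polynomial.lifts (algebraMap A C) := by
    rw [Polynomial.lifts_iff_coeff_lifts]
    intro n
    rw [Polynomial.coeff_map]
    exact h _
  obtain ⟨q, hq, -, hqm⟩ := Polynomial.lifts_and_natDegree_eq_and_monic hlifts (hpm.map _)
  refine ⟨q, hqm, ?_⟩
  rw [Polynomial.eval₂_eq_eval_map, hq, ← Polynomial.eval₂_eq_eval_map]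
  exact hp0

/-- A ring hom `Ψ : R[X] → S` into a domain is injective as soon as there is a ring hom
`κ : S → T` killing `Ψ X ≠ 0` and injective on the constants. -/
theorem polynomial_ringHom_injective {R S T : Type*} [CommRing R] [CommRing S] [IsDomain S]
    [CommRing T] (Ψ : R[X] →+* S) (κ : S →+* T) (hX : Ψ X ≠ 0) (hκX : κ (Ψ X) = 0)
    (hκ : ∀ a : R, κ (Ψ (C a)) = 0 → a = 0) : Function.Injective Ψ := by
  rw [injective_iff_map_eq_zero]
  intro p
  induction' hn : p.natDegree using Nat.strong_induction_on with n ih generalizing p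
  intro hp
  have h0 : p.coeff 0 = 0 := by
    apply hκ
    have h1 := congrArg κ hp
    rw [← divX_mul_X_add p, map_add, map_mul, map_add, map_mul, hκX, mul_zero, zero_add,
      map_zero] at h1
    exact h1
  have hp' : p = divX p * X := by
    conv_lhs => rw [← divX_mul_X_add p, h0, map_zero, add_zero]
  by_cases hp0 : p = 0
  · exact hp0
  have hΨ : Ψ (divX p) = 0 := by
    rw [hp', map_mul] at hp
    exact (mul_eq_zero.mp hp).resolve_right hX
  have hdeg : (divX p).natDegree < n := by
    rw [natDegree_divX_eq_natDegree_tsub_one, hn]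
    have : 0 < p.natDegree := by
      rw [Nat.pos_iff_ne_zero]
      intro h
      apply hp0
      rw [eq_C_of_natDegree_eq_zero h, h0, map_zero]
    omega
  have := ih _ hdeg (divX p) rfl hΨ
  rw [hp', this, zero_mul]

/-! ### `s = j⁻¹` is transcendental over `ℤ_(ℓ)` -/

open ModularCurve ModularCurve.IgusaScheme

noncomputable section

set_option linter.unusedSectionVars false

variable (N : ℕ) [NeZero N] (ℓ : ℕ) [Fact ℓ.Prime]

/-- `j⁻¹` as a power series: `q · (jNum)⁻¹`. -/
def jInvPS : PowerSeries ℚ := PowerSeries.X * PowerSeries.invOfUnit jNumQ 1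

theorem constantCoeff_jInvPS : PowerSeries.constantCoeff jInvPS = 0 := by
  rw [jInvPS, map_mul, PowerSeries.constantCoeff_X, zero_mul]

theorem ofPowerSeries_jInvPS : HahnSeries.ofPowerSeries ℤ ℚ jInvPS = jq⁻¹ := by
  have h1 : jNumQ * PowerSeries.invOfUnit jNumQ 1 = 1 :=
    PowerSeries.mul_invOfUnit jNumQ 1 (by rw [constantCoeff_jNumQ]; rfl)
  have h2 : HahnSeries.ofPowerSeries ℤ ℚ jNumQ *
      HahnSeries.ofPowerSeries ℤ ℚ (PowerSeries.invOfUnit jNumQ 1) = 1 := by
    rw [← map_mul, h1, map_one]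
  refine eq_inv_of_mul_eq_one_right ?_
  have h3 : (HahnSeries.single (-1 : ℤ) (1 : ℚ)) * HahnSeries.single (1 : ℤ) 1 = 1 := by
    rw [HahnSeries.single_mul_single]
    simp
  rw [jq, jInvPS, map_mul, HahnSeries.ofPowerSeries_X]
  calc HahnSeries.single (-1 : ℤ) (1 : ℚ) * HahnSeries.ofPowerSeries ℤ ℚ jNumQ *
        (HahnSeries.single 1 1 * HahnSeries.ofPowerSeries ℤ ℚ (PowerSeries.invOfUnit jNumQ 1))
      = (HahnSeries.single (-1 : ℤ) (1 : ℚ) * HahnSeries.single (1 : ℤ) 1) *
        (HahnSeries.ofPowerSeries ℤ ℚ jNumQ *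
          HahnSeries.ofPowerSeries ℤ ℚ (PowerSeries.invOfUnit jNumQ 1)) := by ring
    _ = 1 := by rw [h3, h2, one_mul]

theorem jInvPS_ne_zero : jInvPS ≠ 0 := by
  intro h
  have h1 := ofPowerSeries_jInvPS
  rw [h, map_zero] at h1
  exact jq_ne_zero (inv_eq_zero.mp h1.symm)

/-- The evaluation `ℤ_(ℓ)[X] → F`, `X ↦ j⁻¹`. -/
def evInv : Polynomial ↥(GaloisRep.ratLocalizedAt ℓ) →ₐ[↥(GaloisRep.ratLocalizedAt ℓ)]
    ↥(modularFunctionFieldFull N) :=
  Polynomial.aeval (jFull N)⁻¹

theorem evInv_X : evInv N ℓ X = (jFull N)⁻¹ := by simp [evInv]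

theorem evInv_C_natCast : evInv N ℓ (C (ℓ : ↥(GaloisRep.ratLocalizedAt ℓ))) =
    (ℓ : ↥(modularFunctionFieldFull N)) := by
  rw [evInv, Polynomial.aeval_C, map_natCast]

theorem evInv_injective : Function.Injective (evInv N ℓ) := by
  -- compare with the power series expansion
  let Ψ : Polynomial ↥(GaloisRep.ratLocalizedAt ℓ) →+* PowerSeries ℚ :=
    Polynomial.eval₂RingHom
      ((PowerSeries.C : ℚ →+* PowerSeries ℚ).comp (GaloisRep.ratLocalizedAt ℓ).subtype) jInvPS
  have hΨX : Ψ X = jInvPS := by simp [Ψ]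
  have hΨC : ∀ a, Ψ (C a) = PowerSeries.C ((a : ↥(GaloisRep.ratLocalizedAt ℓ)) : ℚ) := by
    intro a; simp [Ψ]
  have hΨinj : Function.Injective Ψ := by
    refine polynomial_ringHom_injective Ψ (PowerSeries.constantCoeff (R := ℚ)) ?_ ?_ ?_
    · rw [hΨX]; exact jInvPS_ne_zero
    · rw [hΨX]; exact constantCoeff_jInvPS
    · intro a ha
      rw [hΨC, PowerSeries.constantCoeff_C] at ha
      exact Subtype.ext ha
  have hcomp : (ffVal N).comp (evInv N ℓ).toRingHom =
      (HahnSeries.ofPowerSeries ℤ ℚ : PowerSeries ℚ →+* LaurentSeries ℚ).comp Ψ := by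
    have hc0 : CharZero (LaurentSeries ℚ) :=
      charZero_of_injective_ringHom (f := (HahnSeries.C : ℚ →+* LaurentSeries ℚ))
        HahnSeries.C_injective
    refine Polynomial.ringHom_ext (fun a => ?_) ?_
    · have h1 := ringHom_ratLocalizedAt_apply ℓ
        (((ffVal N).comp (evInv N ℓ).toRingHom).comp Polynomial.C) a
      have h2 := ringHom_ratLocalizedAt_apply ℓ
        (((HahnSeries.ofPowerSeries ℤ ℚ : PowerSeries ℚ →+* LaurentSeries ℚ).comp Ψ).comp
          Polynomial.C) a
      simp only [RingHom.comp_apply] at h1 h2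
      rw [RingHom.comp_apply, RingHom.comp_apply, h1, h2]
    · rw [RingHom.comp_apply, RingHom.comp_apply, hΨX, ofPowerSeries_jInvPS]
      show ffVal N (evInv N ℓ X) = _
      rw [evInv_X]
      rfl
  intro p q hpq
  apply hΨinj
  apply HahnSeries.ofPowerSeries_injective (Γ := ℤ) (R := ℚ)
  have := congrArg (ffVal N) hpq
  have h1 := congrArg (fun f => f p) hcomp
  have h2 := congrArg (fun f => f q) hcomp
  simp only [RingHom.comp_apply] at h1 h2
  rw [← h1, ← h2]
  exact this

/-! ### `ℓ` is prime in `ℤ_(ℓ)[X]`, and does not divide `X ^ k` -/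

theorem ic_prime_natCast : Prime ((ℓ : ℕ) : ↥(GaloisRep.ratLocalizedAt ℓ)) := by
  have hℓ0 : ((ℓ : ℕ) : ↥(GaloisRep.ratLocalizedAt ℓ)) ≠ 0 :=
    Nat.cast_ne_zero.mpr (Fact.out : ℓ.Prime).ne_zero
  rw [← Ideal.span_singleton_prime hℓ0]
  have hker : RingHom.ker (icRes ℓ) = Ideal.span {((ℓ : ℕ) : ↥(GaloisRep.ratLocalizedAt ℓ))} := by
    ext x
    rw [RingHom.mem_ker, Ideal.mem_span_singleton]
    constructor
    · intro hx
      obtain ⟨y, hy⟩ := icRes_ker ℓ x hx
      exact ⟨y, hy⟩
    · rintro ⟨y, rfl⟩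
      rw [map_mul, map_natCast, ZMod.natCast_self, zero_mul]
  rw [← hker]
  exact RingHom.ker_isPrime _

theorem ic_prime_C : Prime (C ((ℓ : ℕ) : ↥(GaloisRep.ratLocalizedAt ℓ))) :=
  Polynomial.prime_C_iff.mpr (ic_prime_natCast ℓ)

theorem ic_not_C_dvd_X_pow (k : ℕ) :
    ¬ C ((ℓ : ℕ) : ↥(GaloisRep.ratLocalizedAt ℓ)) ∣ (X : Polynomial ↥(GaloisRep.ratLocalizedAt ℓ)) ^ k := by
  intro h
  rw [Polynomial.C_dvd_iff_dvd_coeff] at h
  have h1 := h k
  rw [Polynomial.coeff_X_pow, if_pos rfl] at h1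
  exact (ic_prime_natCast ℓ).not_isUnit (isUnit_of_dvd_one h1)

/-! ### The main statement -/

/-- Integrality over `ℤ_(ℓ)[j⁻¹]` (the base of `chartAlgInf`) is integrality over `ℤ_(ℓ)[X]`
acting through `X ↦ j⁻¹`, and conversely. -/
theorem mem_chartAlgInf_iff_isIntegral_evInv (y : ↥(modularFunctionFieldFull N)) :
    y ∈ chartAlgInf N ℓ ↔
      @IsIntegral (Polynomial ↥(GaloisRep.ratLocalizedAt ℓ)) ↥(modularFunctionFieldFull N) _ _
        (evInv N ℓ).toRingHom.toAlgebra y := by
  letI : Algebra (Polynomial ↥(GaloisRep.ratLocalizedAt ℓ)) ↥(modularFunctionFieldFull N) :=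
    (evInv N ℓ).toRingHom.toAlgebra
  have hrange : Algebra.adjoin ↥(GaloisRep.ratLocalizedAt ℓ)
      ({(jFull N)⁻¹} : Set ↥(modularFunctionFieldFull N)) = (evInv N ℓ).range :=
    Algebra.adjoin_singleton_eq_range_aeval _ _
  rw [mem_chartAlg_iff]
  constructor
  · intro hy
    refine isIntegral_of_forall_exists_algebraMap_eq (fun b => ?_) hy
    have hb : (b : ↥(modularFunctionFieldFull N)) ∈ (evInv N ℓ).range := hrange ▸ b.2
    obtain ⟨p, hp⟩ := hb
    exact ⟨p, hp⟩
  · intro hy
    refine isIntegral_of_forall_exists_algebraMap_eq (fun p => ?_) hy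
    have hp : evInv N ℓ p ∈ Algebra.adjoin ↥(GaloisRep.ratLocalizedAt ℓ)
        ({(jFull N)⁻¹} : Set ↥(modularFunctionFieldFull N)) := by
      rw [hrange]; exact ⟨p, rfl⟩
    exact ⟨⟨_, hp⟩, rfl⟩

/-- **Piece (K′).**  The kernel statement for the chart at infinity follows from the one for the
finite chart. -/
theorem ker_inf_of_ker_fin
    (hfin : ∀ b : ↥(chartAlgFin N ℓ), redMid ℓ N (inclFin N ℓ b) = 0 →
      ∃ c : ↥(chartAlgFin N ℓ), b = (ℓ : ↥(chartAlgFin N ℓ)) * c)
    (b : ↥(chartAlgInf N ℓ)) (hb : redMid ℓ N (inclInf N ℓ b) = 0) :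
    ∃ c : ↥(chartAlgInf N ℓ), b = (ℓ : ↥(chartAlgInf N ℓ)) * c := by
  classical
  have hj0 : jFull N ≠ 0 := jFull_ne_zero N
  have hℓF : ((ℓ : ℕ) : ↥(modularFunctionFieldFull N)) ≠ 0 :=
    Nat.cast_ne_zero.mpr (Fact.out : ℓ.Prime).ne_zero
  -- Step 1: `j ^ n * b ∈ chartAlgFin`
  have hbmid : (b : ↥(modularFunctionFieldFull N)) ∈
      chartAlg N ℓ (insert (jFull N)⁻¹ ({jFull N} : Set ↥(modularFunctionFieldFull N))) :=
    chartAlg_mono N ℓ (by
      intro y hy
      rw [Set.mem_singleton_iff] at hy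
      rw [hy]
      exact Set.mem_insert _ _) b.2
  obtain ⟨n, hn⟩ := exists_pow_mul_mem_chartAlg (Set.mem_singleton (jFull N)) hj0 hbmid
  -- Step 2: its reduction vanishes
  have hred : redMid ℓ N (inclFin N ℓ ⟨(jFull N) ^ n * b, hn⟩) = 0 := by
    have e : inclFin N ℓ ⟨(jFull N) ^ n * b, hn⟩ =
        (inclFin N ℓ (jChartFin N ℓ)) ^ n * inclInf N ℓ b := by
      apply Subtype.ext
      simp
    rw [e, map_mul, hb, mul_zero]
  -- Step 3: divide by `ℓ` in the finite chart
  obtain ⟨c, hc⟩ := hfin _ hred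
  have hc' : (jFull N) ^ n * (b : ↥(modularFunctionFieldFull N)) =
      (ℓ : ↥(modularFunctionFieldFull N)) * (c : ↥(modularFunctionFieldFull N)) := by
    have := congrArg (fun y : ↥(chartAlgFin N ℓ) => (y : ↥(modularFunctionFieldFull N))) hc
    simpa using this
  -- Step 4: `z = b / ℓ` lies in the middle chart
  set z : ↥(modularFunctionFieldFull N) :=
    ((ℓ : ℕ) : ↥(modularFunctionFieldFull N))⁻¹ * b with hz
  have hzb : ((ℓ : ℕ) : ↥(modularFunctionFieldFull N)) * z = b := by
    rw [hz, ← mul_assoc, mul_inv_cancel₀ hℓF, one_mul]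
  have hzc : z = ((jFull N)⁻¹) ^ n * (c : ↥(modularFunctionFieldFull N)) := by
    have h1 : (jFull N) ^ n * z = (c : ↥(modularFunctionFieldFull N)) := by
      apply mul_left_cancel₀ hℓF
      rw [← hc', ← hzb]
      ring
    rw [← h1, ← mul_assoc, ← mul_pow, inv_mul_cancel₀ hj0, one_pow, one_mul]
  have hzmid : z ∈ chartAlg N ℓ
      (insert ((jFull N)⁻¹)⁻¹ ({(jFull N)⁻¹} : Set ↥(modularFunctionFieldFull N))) := by
    rw [inv_inv, hzc]
    have hs : (jFull N)⁻¹ ∈ chartAlgMid N ℓ := subset_chartAlg N ℓ _ (by simp)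
    have hcm : (c : ↥(modularFunctionFieldFull N)) ∈ chartAlgMid N ℓ :=
      chartAlg_mono N ℓ (sFin_subset N) c.2
    exact mul_mem (pow_mem hs n) hcm
  -- Step 5: `s ^ k * z ∈ chartAlgInf`
  obtain ⟨k, hk⟩ := exists_pow_mul_mem_chartAlg (Set.mem_singleton ((jFull N)⁻¹))
    (inv_ne_zero hj0) hzmid
  -- Step 6: the two-denominator lemma over `ℤ_(ℓ)[X]`
  letI : Algebra (Polynomial ↥(GaloisRep.ratLocalizedAt ℓ)) ↥(modularFunctionFieldFull N) :=
    (evInv N ℓ).toRingHom.toAlgebra
  haveI : FaithfulSMul (Polynomial ↥(GaloisRep.ratLocalizedAt ℓ))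
      ↥(modularFunctionFieldFull N) :=
    (faithfulSMul_iff_algebraMap_injective _ _).mpr (evInv_injective N ℓ)
  have h1 : IsIntegral (Polynomial ↥(GaloisRep.ratLocalizedAt ℓ))
      (algebraMap (Polynomial ↥(GaloisRep.ratLocalizedAt ℓ)) ↥(modularFunctionFieldFull N)
        (C ((ℓ : ℕ) : ↥(GaloisRep.ratLocalizedAt ℓ))) * z) := by
    have e : algebraMap (Polynomial ↥(GaloisRep.ratLocalizedAt ℓ)) ↥(modularFunctionFieldFull N)
        (C ((ℓ : ℕ) : ↥(GaloisRep.ratLocalizedAt ℓ))) = (ℓ : ↥(modularFunctionFieldFull N)) :=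
      evInv_C_natCast N ℓ
    rw [e, hzb]
    exact (mem_chartAlgInf_iff_isIntegral_evInv N ℓ _).mp b.2
  have h2 : IsIntegral (Polynomial ↥(GaloisRep.ratLocalizedAt ℓ))
      (algebraMap (Polynomial ↥(GaloisRep.ratLocalizedAt ℓ)) ↥(modularFunctionFieldFull N)
        (X ^ k) * z) := by
    have e : algebraMap (Polynomial ↥(GaloisRep.ratLocalizedAt ℓ)) ↥(modularFunctionFieldFull N)
        (X ^ k) = ((jFull N)⁻¹) ^ k := by
      show evInv N ℓ (X ^ k) = _
      rw [map_pow, evInv_X]
    rw [e]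
    exact (mem_chartAlgInf_iff_isIntegral_evInv N ℓ _).mp hk
  have hzint := isIntegral_of_isIntegral_mul_of_prime (ic_prime_C ℓ) (ic_not_C_dvd_X_pow ℓ k) z h1 h2
  have hzinf : z ∈ chartAlgInf N ℓ := (mem_chartAlgInf_iff_isIntegral_evInv N ℓ z).mpr hzint
  refine ⟨⟨z, hzinf⟩, Subtype.ext ?_⟩
  rw [Subalgebra.coe_mul]
  have e : (((ℓ : ℕ) : ↥(chartAlgInf N ℓ)) : ↥(modularFunctionFieldFull N)) =
      ((ℓ : ℕ) : ↥(modularFunctionFieldFull N)) := by
    norm_cast
  rw [e]
  exact hzb.symm

end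

end Fermat.Agent.S28lib
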