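/-
S28 library (item 66, architect helper24) — the CHARACTERISTIC-ZERO interface.

`ExpData N ℓ` packages the conjugate expansions `σ i : F → ℂ((t))` (`t = q^{1/N}`, `F` the function
field `modularFunctionFieldFull N` over `ℚ`), a coefficient ring `A ⊂ ℂ` (a discrete valuation ring
of `ℚ(ζ_N)` above `ℓ`, unramified) with residue map `r : A → 𝔽`, the symmetric-function property,
and the modular unit `u`.  File `Inst.lean` turns an `ExpData` into a `RedData` (see `Defs.lean`).
No sorry in this file (definitions only).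
-/
import Mathlib
import Fermat.Prelude.Def_ModularCurve_IgusaScheme
import Fermat.Agent.S28lib.CoeffRing

set_option autoImplicit false

open ModularCurve ModularCurve.IgusaScheme IntermediateField

namespace Fermat.Agent.S28lib

noncomputable section

variable (N : ℕ) [NeZero N] (ℓ : ℕ) [Fact ℓ.Prime]

/-- Characteristic-zero expansion data for the Igusa model. -/
structure ExpData where
  /-- the coefficient ring (a DVR of `ℚ(ζ_N)` above `ℓ`) -/
  A : Subring ℂ
  /-- its residue field -/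
  𝔽 : Type
  [instField : Field 𝔽]
  [instCharP : CharP 𝔽 ℓ]
  /-- the residue map -/
  r : ↥A →+* 𝔽
  /-- `ℓ` generates the kernel of the residue map (unramifiedness) -/
  ker_r : ∀ x : ↥A, r x = 0 → ∃ y : ↥A, x = (ℓ : ↥A) * y
  /-- `A ∩ ℚ ⊆ ℤ_(ℓ)` -/
  A_rat : ∀ x : ℚ, ((x : ℂ)) ∈ A → x ∈ GaloisRep.ratLocalizedAt ℓ
  /-- `ℤ_(ℓ) ⊆ A` -/
  Zl_mem : ∀ x : ℚ, x ∈ GaloisRep.ratLocalizedAt ℓ → ((x : ℂ)) ∈ A
  /-- `A((t))` is integrally closed in its fraction field (inside `ℂ((t))`) -/
  normal : ∀ x b : LaurentSeries ℂ, b ∈ coeffRing A → b ≠ 0 → x * b ∈ coeffRing A →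
    IsIntegral ↥(coeffRing A) x → x ∈ coeffRing A
  /-- the index set of the conjugates -/
  I : Type
  [instFintype : Fintype I]
  [instDecEq : DecidableEq I]
  /-- the identity conjugate -/
  i₀ : I
  /-- the conjugate expansions -/
  σ : I → ↥(modularFunctionFieldFull N) →+* LaurentSeries ℂ
  /-- the identity conjugate is the given `q`-expansion, written in `t = q^{1/N}` -/
  σ_i₀ : ∀ x : ↥(modularFunctionFieldFull N),
    σ i₀ x = qExpand ℂ N (coeffMap (algebraMap ℚ ℂ) (x : LaurentSeries ℚ))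
  /-- all conjugates fix `j` -/
  σ_j : ∀ i, σ i (jFull N) = σ i₀ (jFull N)
  /-- every conjugate expansion is a quotient of series with coefficients in `A` -/
  σ_frac : ∀ (i : I) (f : ↥(modularFunctionFieldFull N)),
    ∃ b : LaurentSeries ℂ, b ∈ coeffRing A ∧ b ≠ 0 ∧ σ i f * b ∈ coeffRing A
  /-- the characteristic polynomial of `f` has coefficients in `ℚ(j)` -/
  sym : ∀ f : ↥(modularFunctionFieldFull N),
    ∃ P : Polynomial ↥(modularFunctionFieldFull N), P.Monic ∧
      (∀ k, P.coeff k ∈ ℚ⟮jFull N⟯) ∧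
      ∀ i' : I, P.map (σ i') = ∏ i : I, (Polynomial.X - Polynomial.C (σ i f))
  /-- the modular unit -/
  u : ↥(modularFunctionFieldFull N)
  u_ne : u ≠ 0
  /-- `u` and `u⁻¹` are integral over `ℚ[j]` (holomorphic on the upper half plane) -/
  u_int : IsIntegral ↥(Algebra.adjoin ℚ {jFull N}) u
  u_inv_int : IsIntegral ↥(Algebra.adjoin ℚ {jFull N}) u⁻¹
  /-- all conjugate expansions of `u` and `u⁻¹` have coefficients in `A` -/
  u_coeff : ∀ i, σ i u ∈ coeffRing A
  u_inv_coeff : ∀ i, σ i u⁻¹ ∈ coeffRing A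
  /-- the reduction of every conjugate `≠ i₀` of `u` has a pole -/
  u_order : ∀ i, i ≠ i₀ → ∃ n : ℤ, n < 0 ∧
    ∃ hn : (σ i u).coeff n ∈ A, r ⟨(σ i u).coeff n, hn⟩ ≠ 0

attribute [instance] ExpData.instField ExpData.instCharP ExpData.instFintype ExpData.instDecEq

end

end Fermat.Agent.S28lib
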