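/-
S28 library (helper24): generic algebra used by the instantiation `ExpData → RedData`.
* `coeff_prod_X_sub_C_mem` : coefficients of `∏ (X - a_i)` lie in any subring containing the `a_i`;
* `isIntegralElem_coeff_prod` : they are integral if the `a_i` are;
* `mem_range_aeval_of_isIntegralElem` : `K₀[j]` is integrally closed in `K₀(j)` (`j` transcendental);
* `coeff_eval₂_top`, `gauss_coeff_mem` : a polynomial in a Laurent series `J` with a pole and leading
  coefficient `1` has coefficients in a subring `R` as soon as its value has.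
No sorry.
-/
import Mathlib

set_option autoImplicit false

open Polynomial IntermediateField

namespace Fermat.Agent.S28lib

section Subring

variable {L : Type*} [CommRing L]

/-- The coefficients of `∏ (X - a_i)` lie in any subring containing the `a_i`. -/
theorem coeff_prod_X_sub_C_mem (S : Subring L) {ι : Type*} (s : Finset ι) (a : ι → L)
    (ha : ∀ i ∈ s, a i ∈ S) (k : ℕ) : (∏ i ∈ s, (X - C (a i))).coeff k ∈ S := by
  have hmem : ∏ i ∈ s, (X - C (a i)) ∈ (Polynomial.mapRingHom S.subtype).range := by
    refine Subring.prod_mem _ fun i hi => ?_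
    exact ⟨X - C ⟨a i, ha i hi⟩, by simp⟩
  obtain ⟨Q, hQ⟩ := hmem
  rw [← hQ, Polynomial.coe_mapRingHom, Polynomial.coeff_map]
  exact (Q.coeff k).2

/-- The subring of elements integral with respect to a ring homomorphism. -/
def intElemSubring {R : Type*} [CommRing R] (f : R →+* L) : Subring L where
  carrier := {x | f.IsIntegralElem x}
  mul_mem' := fun hx hy => RingHom.IsIntegralElem.mul f hx hy
  one_mem' := by
    have := f.isIntegralElem_map (x := 1)
    rwa [map_one] at this
  add_mem' := fun hx hy => RingHom.IsIntegralElem.add f hx hy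
  zero_mem' := by
    have := f.isIntegralElem_map (x := 0)
    rwa [map_zero] at this
  neg_mem' := fun hx => RingHom.IsIntegralElem.neg f hx

theorem mem_intElemSubring {R : Type*} [CommRing R] (f : R →+* L) (x : L) :
    x ∈ intElemSubring f ↔ f.IsIntegralElem x := Iff.rfl

/-- The coefficients of `∏ (X - a_i)` are integral if the `a_i` are. -/
theorem isIntegralElem_coeff_prod {R : Type*} [CommRing R] (f : R →+* L) {ι : Type*}
    (s : Finset ι) (a : ι → L) (ha : ∀ i ∈ s, f.IsIntegralElem (a i)) (k : ℕ) :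
    f.IsIntegralElem ((∏ i ∈ s, (X - C (a i))).coeff k) :=
  coeff_prod_X_sub_C_mem (intElemSubring f) s a ha k

end Subring

section Transfer

variable {R F₁ L : Type*} [CommRing R] [CommRing F₁] [CommRing L]

/-- integrality is preserved by ring homomorphisms -/
theorem isIntegralElem_map_of {φ : R →+* F₁} (σ : F₁ →+* L) {x : F₁} (hx : φ.IsIntegralElem x) :
    (σ.comp φ).IsIntegralElem (σ x) := by
  obtain ⟨p, hp, hpx⟩ := hx
  refine ⟨p, hp, ?_⟩
  rw [← Polynomial.hom_eval₂, hpx, map_zero]

/-- integrality is reflected by injective ring homomorphisms -/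
theorem isIntegralElem_of_map {φ : R →+* F₁} (σ : F₁ →+* L) (hσ : Function.Injective σ)
    {x : F₁} (hx : (σ.comp φ).IsIntegralElem (σ x)) : φ.IsIntegralElem x := by
  obtain ⟨p, hp, hpx⟩ := hx
  refine ⟨p, hp, hσ ?_⟩
  rw [Polynomial.hom_eval₂, hpx, map_zero]

end Transfer

section Bridge

variable {R F₁ : Type*} [CommRing R] [CommRing F₁] [Algebra R F₁]

/-- integral over the subalgebra `R[j]` iff integral w.r.t. `R[X] → F₁, X ↦ j` -/
theorem isIntegral_adjoin_singleton_iff (j x : F₁) :
    IsIntegral ↥(Algebra.adjoin R ({j} : Set F₁)) x ↔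
      (Polynomial.aeval (R := R) j).toRingHom.IsIntegralElem x := by
  classical
  set S := Algebra.adjoin R ({j} : Set F₁) with hS
  let jS : ↥S := ⟨j, Algebra.subset_adjoin rfl⟩
  let ψ : Polynomial R →+* ↥S := (Polynomial.aeval (R := R) jS).toRingHom
  have hψ : ∀ g, ((ψ g : ↥S) : F₁) = (Polynomial.aeval (R := R) j).toRingHom g := by
    intro g
    exact Polynomial.aeval_subalgebra_coe g S jS
  have hcomp : (algebraMap ↥S F₁).comp ψ = (Polynomial.aeval (R := R) j).toRingHom :=
    RingHom.ext hψ
  constructor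
  · rintro ⟨p, hp, hpx⟩
    have hlift : p ∈ Polynomial.lifts ψ := by
      rw [Polynomial.lifts_iff_coeff_lifts]
      intro n
      have hc : ((p.coeff n : ↥S) : F₁) ∈ (Polynomial.aeval (R := R) j).range := by
        rw [← Algebra.adjoin_singleton_eq_range_aeval]
        exact (p.coeff n).2
      obtain ⟨g, hg⟩ := hc
      exact ⟨g, Subtype.ext ((hψ g).trans hg)⟩
    obtain ⟨q, hq, -, hqm⟩ := Polynomial.lifts_and_natDegree_eq_and_monic hlift hp
    refine ⟨q, hqm, ?_⟩
    rw [← hcomp, ← Polynomial.eval₂_map, hq]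
    exact hpx
  · rintro ⟨q, hq, hqx⟩
    refine ⟨q.map ψ, hq.map ψ, ?_⟩
    rw [Polynomial.eval₂_map, hcomp]
    exact hqx

end Bridge

section Normal

variable {K₀ F₁ : Type*} [Field K₀] [Field F₁] [Algebra K₀ F₁]

/-- `K₀[j]` is integrally closed in `K₀(j)` when `j` is transcendental. -/
theorem mem_range_aeval_of_isIntegralElem (j : F₁)
    (hj : Function.Injective (Polynomial.aeval (R := K₀) j)) (c : F₁) (hc : c ∈ K₀⟮j⟯)
    (hint : (Polynomial.aeval (R := K₀) j).toRingHom.IsIntegralElem c) :
    ∃ G : K₀[X], Polynomial.aeval j G = c := by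
  classical
  set φ : K₀[X] →+* F₁ := (Polynomial.aeval (R := K₀) j).toRingHom with hφ
  have hφinj : Function.Injective φ := hj
  let K := FractionRing K₀[X]
  let ψ : K →+* F₁ := IsFractionRing.lift hφinj
  have hψ : ∀ G : K₀[X], ψ (algebraMap K₀[X] K G) = φ G := fun G =>
    IsFractionRing.lift_algebraMap hφinj G
  -- the range of `ψ` contains `K₀(j)`
  have hconst : ∀ a : K₀, algebraMap K₀ F₁ a ∈ ψ.fieldRange := by
    intro a
    refine ⟨algebraMap K₀[X] K (C a), ?_⟩
    rw [hψ, hφ]
    simp
  have hle : K₀⟮j⟯ ≤ Subfield.toIntermediateField ψ.fieldRange hconst := by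
    rw [IntermediateField.adjoin_le_iff]
    rintro x hx
    rw [Set.mem_singleton_iff] at hx
    subst hx
    refine ⟨algebraMap K₀[X] K X, ?_⟩
    rw [hψ, hφ]
    simp
  obtain ⟨κ, hκ⟩ := hle hc
  -- `κ` is integral over `K₀[X]`
  have hκint : IsIntegral K₀[X] κ := by
    obtain ⟨p, hp, hpx⟩ := hint
    refine ⟨p, hp, ψ.injective ?_⟩
    rw [Polynomial.hom_eval₂, map_zero, hκ]
    have : ψ.comp (algebraMap K₀[X] K) = φ := RingHom.ext hψ
    rw [this]
    exact hpx
  obtain ⟨G, hG⟩ := IsIntegrallyClosed.isIntegral_iff.mp hκint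
  refine ⟨G, ?_⟩
  have := hψ G
  rw [hG, hκ] at this
  exact this.symm

end Normal

section Gauss

variable {L : Type*} [Field L]

/-- If `J` has a pole of exact order `m > 0` with leading coefficient `1`, the coefficient of
`q^{-m d}` in `P(J)` is the `d`-th coefficient of `P`, for `deg P ≤ d`. -/
theorem coeff_eval₂_top (J : LaurentSeries L) (m : ℕ) (hm : 0 < m)
    (hlead : ∀ n : ℕ, (J ^ n).coeff (-((m : ℤ) * n)) = 1)
    (hlow : ∀ (n : ℕ) (k : ℤ), k < -((m : ℤ) * n) → (J ^ n).coeff k = 0)
    (d : ℕ) (P : Polynomial L) (hP : P.natDegree < d + 1) :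
    (Polynomial.eval₂ HahnSeries.C J P).coeff (-((m : ℤ) * d)) = P.coeff d := by
  rw [Polynomial.eval₂_eq_sum_range' HahnSeries.C hP J, HahnSeries.coeff_sum,
    Finset.sum_eq_single d]
  · rw [HahnSeries.C_mul_eq_smul, HahnSeries.coeff_smul, hlead d, smul_eq_mul, mul_one]
  · intro i hi hid
    rw [HahnSeries.C_mul_eq_smul, HahnSeries.coeff_smul]
    have hlt : i < d := lt_of_le_of_ne (Nat.lt_succ_iff.mp (Finset.mem_range.mp hi)) hid
    rw [hlow i _ (by
      have h1 : (m : ℤ) * i < (m : ℤ) * d := by
        apply mul_lt_mul_of_pos_left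
        · exact_mod_cast hlt
        · exact_mod_cast hm
      linarith), smul_zero]
  · intro hd
    exact absurd (Finset.mem_range.mpr (Nat.lt_succ_self d)) hd

/-- `P ↦ P(J)` is injective. -/
theorem eval₂_eq_zero_imp (J : LaurentSeries L) (m : ℕ) (hm : 0 < m)
    (hlead : ∀ n : ℕ, (J ^ n).coeff (-((m : ℤ) * n)) = 1)
    (hlow : ∀ (n : ℕ) (k : ℤ), k < -((m : ℤ) * n) → (J ^ n).coeff k = 0)
    (P : Polynomial L) (hP : Polynomial.eval₂ HahnSeries.C J P = 0) : P = 0 := by
  by_contra hne
  have h := coeff_eval₂_top J m hm hlead hlow P.natDegree P (Nat.lt_succ_self _)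
  rw [hP] at h
  exact hne (Polynomial.leadingCoeff_eq_zero.mp (by rw [Polynomial.leadingCoeff, ← h]; rfl))

/-- **Gauss lemma** for polynomials in `J`: if `P(J)` has coefficients in the subring `R`
(and so do the powers of `J`), then `P` has coefficients in `R`. -/
theorem gauss_coeff_mem (R : Subring L) (J : LaurentSeries L) (m : ℕ) (hm : 0 < m)
    (hJ : ∀ (n : ℕ) (k : ℤ), (J ^ n).coeff k ∈ R)
    (hlead : ∀ n : ℕ, (J ^ n).coeff (-((m : ℤ) * n)) = 1)
    (hlow : ∀ (n : ℕ) (k : ℤ), k < -((m : ℤ) * n) → (J ^ n).coeff k = 0) :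
    ∀ (d : ℕ) (P : Polynomial L), P.natDegree < d →
      (∀ k : ℤ, (Polynomial.eval₂ HahnSeries.C J P).coeff k ∈ R) → ∀ i, P.coeff i ∈ R := by
  intro d
  induction d with
  | zero => intro P hP; exact absurd hP (Nat.not_lt_zero _)
  | succ d ih =>
    intro P hP hcoef
    have hc : P.coeff d ∈ R := by
      rw [← coeff_eval₂_top J m hm hlead hlow d P hP]
      exact hcoef _
    by_cases hd0 : d = 0
    · subst hd0
      intro i
      rcases Nat.eq_zero_or_pos i with h | h
      · rw [h]; exact hc
      · rw [Polynomial.coeff_eq_zero_of_natDegree_lt (by omega)]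
        exact R.zero_mem
    have hdeg' : (P.erase d).natDegree < d := by
      have h1 : (P.erase d).natDegree ≤ d := by
        refine (Polynomial.natDegree_le_iff_coeff_eq_zero).mpr fun n hn => ?_
        rw [Polynomial.coeff_erase]
        split_ifs with h
        · rfl
        · exact Polynomial.coeff_eq_zero_of_natDegree_lt (by omega)
      rcases Nat.lt_or_ge (P.erase d).natDegree d with h | h
      · exact h
      · have heq : (P.erase d).natDegree = d := le_antisymm h1 h
        have hne : P.erase d ≠ 0 := by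
          intro h0
          rw [h0, Polynomial.natDegree_zero] at heq
          exact hd0 heq.symm
        have := Polynomial.leadingCoeff_ne_zero.mpr hne
        rw [Polynomial.leadingCoeff, heq, Polynomial.coeff_erase, if_pos rfl] at this
        exact absurd rfl this
    have hsplit : Polynomial.eval₂ HahnSeries.C J (P.erase d)
        = Polynomial.eval₂ HahnSeries.C J P - HahnSeries.C (P.coeff d) * J ^ d := by
      have h := Polynomial.monomial_add_erase P d
      have h' : Polynomial.eval₂ HahnSeries.C J P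
          = Polynomial.eval₂ HahnSeries.C J (Polynomial.monomial d (P.coeff d))
            + Polynomial.eval₂ HahnSeries.C J (P.erase d) := by
        rw [← Polynomial.eval₂_add, h]
      rw [h', Polynomial.eval₂_monomial]
      ring
    have hcoef' : ∀ k : ℤ, (Polynomial.eval₂ HahnSeries.C J (P.erase d)).coeff k ∈ R := by
      intro k
      rw [hsplit, HahnSeries.coeff_sub, HahnSeries.C_mul_eq_smul, HahnSeries.coeff_smul,
        smul_eq_mul]
      exact R.sub_mem (hcoef k) (R.mul_mem hc (hJ d k))
    have hih := ih (P.erase d) hdeg' hcoef'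
    intro i
    by_cases hid : i = d
    · rw [hid]; exact hc
    · have := hih i
      rwa [Polynomial.coeff_erase, if_neg hid] at this

end Gauss

end Fermat.Agent.S28lib
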