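/-
S28 library (helper24), piece I: from the characteristic-zero data `ExpData N ℓ` to the reduction
data `RedData N ℓ`.
-/
import Mathlib
import Fermat.Prelude.Def_ModularCurve_IgusaScheme
import Fermat.Prelude.Def_ModularCurve_JqCoeff
import Fermat.Agent.S28lib.Defs
import Fermat.Agent.S28lib.ExpData
import Fermat.Agent.S28lib.IntAlg

set_option autoImplicit false

open ModularCurve ModularCurve.IgusaScheme IntermediateField Polynomial

namespace Fermat.Agent.S28lib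

noncomputable section

variable {N : ℕ} [NeZero N] {ℓ : ℕ} [Fact ℓ.Prime]

/-! ### The series `J = j(t^N)` -/

variable (N) in
/-- the expansion of `j` in `t = q^{1/N}` over `ℂ` -/
def Jser : LaurentSeries ℂ := qExpand ℂ N (coeffMap (algebraMap ℚ ℂ) jq)

theorem Jser_pow (n : ℕ) :
    Jser N ^ n = qExpand ℂ N (coeffMap (Int.castRingHom ℂ) (jqModC ℤ ^ n)) := by
  have h : coeffMap (algebraMap ℚ ℂ) jq = coeffMap (Int.castRingHom ℂ) (jqModC ℤ) := by
    rw [← jqModC_rat, jqModC_eq_map_intCast ℚ]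
    ext k
    simp
  rw [Jser, h, map_pow, map_pow]

theorem Jser_pow_coeff_mem (A : Subring ℂ) (n : ℕ) (k : ℤ) : (Jser N ^ n).coeff k ∈ A := by
  rw [Jser_pow]
  by_cases hk : (N : ℤ) ∣ k
  · obtain ⟨k', rfl⟩ := hk
    rw [qExpand_coeff_mul, coeffMap_coeff]
    exact intCast_mem A _
  · rw [qExpand_coeff_of_not_dvd N _ hk]
    exact A.zero_mem

theorem Jser_pow_lead (n : ℕ) : (Jser N ^ n).coeff (-((N : ℤ) * n)) = 1 := by
  rw [Jser, ← map_pow, ← map_pow, show -((N : ℤ) * n) = (N : ℤ) * (-(n : ℤ)) by ring,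
    qExpand_coeff_mul, coeffMap_coeff, coeff_jq_pow_self]
  simp

theorem Jser_pow_low (n : ℕ) (k : ℤ) (hk : k < -((N : ℤ) * n)) : (Jser N ^ n).coeff k = 0 := by
  rw [Jser, ← map_pow, ← map_pow]
  by_cases hdvd : (N : ℤ) ∣ k
  · obtain ⟨k', rfl⟩ := hdvd
    rw [qExpand_coeff_mul, coeffMap_coeff]
    have hN : (0 : ℤ) < N := by exact_mod_cast Nat.pos_of_ne_zero (NeZero.ne N)
    have : k' < -(n : ℤ) := by
      by_contra h
      push Not at h
      have := mul_le_mul_of_nonneg_left h hN.le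
      linarith
    rw [coeff_jq_pow_of_lt this]
    simp
  · exact qExpand_coeff_of_not_dvd N _ hdvd

theorem Jser_mem_coeffRing (A : Subring ℂ) : Jser N ∈ coeffRing A :=
  mem_coeffRing_iff.mpr fun k => by simpa using Jser_pow_coeff_mem (N := N) A 1 k

/-! ### The polynomial rings acting on `F` -/

variable (N) in
/-- `ℚ[X] → F`, `X ↦ j` -/
def phiQ : Polynomial ℚ →+* ↥(modularFunctionFieldFull N) :=
  (Polynomial.aeval (R := ℚ) (jFull N)).toRingHom

variable (N ℓ) in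
/-- `ℤ_(ℓ)[X] → F`, `X ↦ j` -/
def phiZ : Polynomial ↥(GaloisRep.ratLocalizedAt ℓ) →+* ↥(modularFunctionFieldFull N) :=
  (Polynomial.aeval (R := ↥(GaloisRep.ratLocalizedAt ℓ)) (jFull N)).toRingHom

theorem phiZ_eq_polyJ (g : Polynomial ↥(GaloisRep.ratLocalizedAt ℓ)) :
    phiZ N ℓ g = ((polyJ N ℓ g : ↥(chartAlgFin N ℓ)) : ↥(modularFunctionFieldFull N)) := by
  unfold phiZ polyJ
  simp only [AlgHom.toRingHom_eq_coe, RingHom.coe_coe]
  rw [← Subalgebra.coe_val, ← Polynomial.aeval_algHom_apply]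
  rfl

theorem phiZ_eq_phiQ (g : Polynomial ↥(GaloisRep.ratLocalizedAt ℓ)) :
    phiZ N ℓ g = phiQ N (g.map (GaloisRep.ratLocalizedAt ℓ).subtype) := by
  unfold phiZ phiQ
  simp only [AlgHom.toRingHom_eq_coe, RingHom.coe_coe, Polynomial.aeval_def,
    Polynomial.eval₂_map]
  rfl

/-! ### Conjugate expansions of polynomials in `j` -/

variable (E : ExpData N ℓ)

theorem sig_i₀_j : E.σ E.i₀ (jFull N) = Jser N := by
  rw [E.σ_i₀]
  rfl

theorem sig_ratCast (i : E.I) (a : ℚ) :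
    E.σ i (algebraMap ℚ ↥(modularFunctionFieldFull N) a) = HahnSeries.C (a : ℂ) := by
  have h : (E.σ i).comp (algebraMap ℚ ↥(modularFunctionFieldFull N)) =
      (HahnSeries.C : ℂ →+* LaurentSeries ℂ).comp (algebraMap ℚ ℂ) := RingHom.ext_rat _ _
  have := congrArg (fun f => f a) h
  simpa using this

/-- all conjugates agree on `ℚ[j]`, where they are `G ↦ G(J)` -/
theorem sig_phiQ (i : E.I) (G : Polynomial ℚ) :
    E.σ i (phiQ N G) = Polynomial.eval₂ HahnSeries.C (Jser N) (G.map (algebraMap ℚ ℂ)) := by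
  unfold phiQ
  simp only [AlgHom.toRingHom_eq_coe, RingHom.coe_coe, Polynomial.aeval_def]
  rw [Polynomial.hom_eval₂, Polynomial.eval₂_map, E.σ_j i, sig_i₀_j]
  congr 1
  exact RingHom.ext_rat _ _

theorem sig_comp_phiQ (i : E.I) : (E.σ i).comp (phiQ N) = (E.σ E.i₀).comp (phiQ N) :=
  RingHom.ext fun G => by
    rw [RingHom.comp_apply, RingHom.comp_apply, sig_phiQ, sig_phiQ]

theorem sig_injective (i : E.I) : Function.Injective (E.σ i) := (E.σ i).injective

theorem phiQ_injective : Function.Injective (phiQ N) := by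
  -- uses any `ExpData`-free argument: embed in Laurent series over `ℚ`
  intro G G' h
  have h0 : phiQ N (G - G') = 0 := by rw [map_sub, h, sub_self]
  have hJ : ∀ n : ℕ, ((jq : LaurentSeries ℚ) ^ n).coeff (-(((1 : ℕ) : ℤ) * n)) = 1 := by
    intro n
    simpa using coeff_jq_pow_self n
  have hlow : ∀ (n : ℕ) (k : ℤ), k < -(((1 : ℕ) : ℤ) * n) →
      ((jq : LaurentSeries ℚ) ^ n).coeff k = 0 := by
    intro n k hk
    exact coeff_jq_pow_of_lt (by simpa using hk)
  have h2 : Polynomial.eval₂ HahnSeries.C (jq : LaurentSeries ℚ) (G - G') = 0 := by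
    have h3 := congrArg (fun x : ↥(modularFunctionFieldFull N) =>
      (modularFunctionFieldFull N).toSubfield.subtype x) h0
    simp only [phiQ, AlgHom.toRingHom_eq_coe, RingHom.coe_coe, Polynomial.aeval_def,
      map_zero] at h3
    rw [Polynomial.hom_eval₂] at h3
    rw [← h3]
    congr 1
  have := eval₂_eq_zero_imp (jq : LaurentSeries ℚ) 1 Nat.one_pos hJ hlow (G - G') h2
  exact sub_eq_zero.mp this

/-! ### The key lemma: characteristic polynomials with coefficients in `ℤ_(ℓ)[j]` -/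

/-- **INT.** If `f ∈ F` is integral over `ℚ[j]` and all its conjugate expansions have
coefficients in `A`, then its characteristic polynomial has coefficients in `ℤ_(ℓ)[j]`. -/
theorem exists_charpoly (f : ↥(modularFunctionFieldFull N)) (hint : (phiQ N).IsIntegralElem f)
    (hcoeff : ∀ i, E.σ i f ∈ coeffRing E.A) :
    ∃ P : Polynomial (Polynomial ↥(GaloisRep.ratLocalizedAt ℓ)), P.Monic ∧
      ∀ i' : E.I, (P.map (phiZ N ℓ)).map (E.σ i') =
        ∏ i : E.I, (Polynomial.X - Polynomial.C (E.σ i f)) := by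
  classical
  obtain ⟨P₀, hmonic, hcoef, hP₀⟩ := E.sym f
  have hlift : P₀ ∈ Polynomial.lifts (phiZ N ℓ) := by
    rw [Polynomial.lifts_iff_coeff_lifts]
    intro k
    have hσc : E.σ E.i₀ (P₀.coeff k) =
        (∏ i : E.I, (Polynomial.X - Polynomial.C (E.σ i f))).coeff k := by
      rw [← hP₀ E.i₀, Polynomial.coeff_map]
    have h1 : ((E.σ E.i₀).comp (phiQ N)).IsIntegralElem (E.σ E.i₀ (P₀.coeff k)) := by
      rw [hσc]
      refine isIntegralElem_coeff_prod _ Finset.univ _ (fun i _ => ?_) k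
      have := isIntegralElem_map_of (E.σ i) hint
      rwa [sig_comp_phiQ] at this
    have h2 : (phiQ N).IsIntegralElem (P₀.coeff k) :=
      isIntegralElem_of_map _ (sig_injective E _) h1
    obtain ⟨G, hG⟩ := mem_range_aeval_of_isIntegralElem (jFull N) (phiQ_injective (N := N))
      (P₀.coeff k) (hcoef k) h2
    have hG' : phiQ N G = P₀.coeff k := hG
    have h3 : ∀ m : ℤ,
        (Polynomial.eval₂ HahnSeries.C (Jser N) (G.map (algebraMap ℚ ℂ))).coeff m ∈ E.A := by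
      intro m
      rw [← sig_phiQ E E.i₀ G, hG', hσc]
      exact mem_coeffRing_iff.mp
        (coeff_prod_X_sub_C_mem (coeffRing E.A) Finset.univ _ (fun i _ => hcoeff i) k) m
    have h4 := gauss_coeff_mem E.A (Jser N) N (Nat.pos_of_ne_zero (NeZero.ne N))
      (Jser_pow_coeff_mem E.A) Jser_pow_lead Jser_pow_low
      ((G.map (algebraMap ℚ ℂ)).natDegree + 1) (G.map (algebraMap ℚ ℂ)) (Nat.lt_succ_self _) h3
    have h5 : ∀ i, G.coeff i ∈ GaloisRep.ratLocalizedAt ℓ := fun i =>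
      E.A_rat _ (by simpa using h4 i)
    have hsub : (↑G.coeffs : Set ℚ) ⊆ ↑(GaloisRep.ratLocalizedAt ℓ) := by
      intro c hc
      obtain ⟨n, -, rfl⟩ := Polynomial.mem_coeffs_iff.mp hc
      exact h5 n
    refine ⟨G.toSubring _ hsub, ?_⟩
    rw [phiZ_eq_phiQ, Polynomial.map_toSubring]
    exact hG'
  obtain ⟨P, hP, -, hPm⟩ := Polynomial.lifts_and_natDegree_eq_and_monic hlift hmonic
  exact ⟨P, hPm, fun i' => by rw [hP]; exact hP₀ i'⟩

/-! ### Integrality over `ℤ_(ℓ)[j]` -/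

/-- bridging lemma: integral over the subalgebra `ℤ_(ℓ)[j]` iff integral w.r.t. `phiZ` -/
theorem mem_chartAlgFin_iff_phiZ (x : ↥(modularFunctionFieldFull N)) :
    x ∈ chartAlgFin N ℓ ↔ (phiZ N ℓ).IsIntegralElem x := by
  rw [mem_chartAlg_iff]
  exact isIntegral_adjoin_singleton_iff (jFull N) x

theorem isIntegral_adjoin_rat_iff (x : ↥(modularFunctionFieldFull N)) :
    IsIntegral ↥(Algebra.adjoin ℚ ({jFull N} : Set ↥(modularFunctionFieldFull N))) x ↔
      (phiQ N).IsIntegralElem x :=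
  isIntegral_adjoin_singleton_iff (jFull N) x

theorem phiZ_isIntegralElem_imp_phiQ {x : ↥(modularFunctionFieldFull N)}
    (hx : (phiZ N ℓ).IsIntegralElem x) : (phiQ N).IsIntegralElem x := by
  obtain ⟨q, hq, hqx⟩ := hx
  refine ⟨q.map (Polynomial.mapRingHom (GaloisRep.ratLocalizedAt ℓ).subtype), hq.map _, ?_⟩
  rw [Polynomial.eval₂_map]
  have : (phiQ N).comp (Polynomial.mapRingHom (GaloisRep.ratLocalizedAt ℓ).subtype) =
      phiZ N ℓ := RingHom.ext fun g => (phiZ_eq_phiQ g).symm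
  rw [this]
  exact hqx

theorem sig_phiZ_mem (i : E.I) (g : Polynomial ↥(GaloisRep.ratLocalizedAt ℓ)) :
    E.σ i (phiZ N ℓ g) ∈ coeffRing E.A := by
  rw [phiZ_eq_phiQ, sig_phiQ, Polynomial.eval₂_eq_sum_range]
  refine Subring.sum_mem _ fun k _ => ?_
  refine Subring.mul_mem _ ?_ (Subring.pow_mem _ (Jser_mem_coeffRing E.A) k)
  rw [mem_coeffRing_iff]
  intro n
  rw [Polynomial.coeff_map, Polynomial.coeff_map, HahnSeries.C_apply, HahnSeries.coeff_single]
  split_ifs
  · exact E.Zl_mem _ (g.coeff k).2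
  · exact E.A.zero_mem

/-- conjugate expansions of elements of the finite chart have coefficients in `A` -/
theorem sig_mem_of_isIntegralElem (i : E.I) {x : ↥(modularFunctionFieldFull N)}
    (hx : (phiZ N ℓ).IsIntegralElem x) : E.σ i x ∈ coeffRing E.A := by
  obtain ⟨b, hb, hb0, hxb⟩ := E.σ_frac i x
  refine E.normal _ b hb hb0 hxb ?_
  obtain ⟨q, hq, hqx⟩ := hx
  let τ : Polynomial ↥(GaloisRep.ratLocalizedAt ℓ) →+* ↥(coeffRing E.A) :=
    ((E.σ i).comp (phiZ N ℓ)).codRestrict (coeffRing E.A) (sig_phiZ_mem E i)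
  refine ⟨q.map τ, hq.map τ, ?_⟩
  rw [Polynomial.eval₂_map]
  have : (algebraMap ↥(coeffRing E.A) (LaurentSeries ℂ)).comp τ = (E.σ i).comp (phiZ N ℓ) :=
    RingHom.ext fun g => rfl
  rw [this, ← Polynomial.hom_eval₂, hqx, map_zero]

theorem sig_mem_chart (i : E.I) (x : ↥(chartAlgFin N ℓ)) :
    E.σ i (x : ↥(modularFunctionFieldFull N)) ∈ coeffRing E.A :=
  sig_mem_of_isIntegralElem E i ((mem_chartAlgFin_iff_phiZ _).mp x.2)

/-! ### The reduced conjugate expansions -/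

/-- the inclusion of the finite chart into `F`, as a ring homomorphism -/
def chartVal : ↥(chartAlgFin N ℓ) →+* ↥(modularFunctionFieldFull N) :=
  (chartAlgFin N ℓ).toSubring.subtype

@[simp] theorem chartVal_apply (x : ↥(chartAlgFin N ℓ)) :
    chartVal (N := N) (ℓ := ℓ) x = (x : ↥(modularFunctionFieldFull N)) := rfl

theorem chartVal_polyJ (g : Polynomial ↥(GaloisRep.ratLocalizedAt ℓ)) :
    chartVal (polyJ N ℓ g) = phiZ N ℓ g := (phiZ_eq_polyJ g).symm

/-- conjugate expansion on the chart, with values in `A((t))` -/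
def tau (i : E.I) : ↥(chartAlgFin N ℓ) →+* ↥(coeffRing E.A) :=
  ((E.σ i).comp chartVal).codRestrict (coeffRing E.A) (sig_mem_chart E i)

@[simp] theorem coe_tau (i : E.I) (x : ↥(chartAlgFin N ℓ)) :
    ((tau E i x : ↥(coeffRing E.A)) : LaurentSeries ℂ) =
      E.σ i (x : ↥(modularFunctionFieldFull N)) := rfl

/-- the reduced conjugate expansion -/
def rho (i : E.I) : ↥(chartAlgFin N ℓ) →+* LaurentSeries E.𝔽 :=
  (coeffRed E.r).comp (tau E i)

theorem rho_coeff (i : E.I) (x : ↥(chartAlgFin N ℓ)) (n : ℤ)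
    (hn : (E.σ i (x : ↥(modularFunctionFieldFull N))).coeff n ∈ E.A) :
    (rho E i x).coeff n = E.r ⟨(E.σ i (x : ↥(modularFunctionFieldFull N))).coeff n, hn⟩ :=
  coeffRed_coeff E.r (tau E i x) n hn

theorem tau_polyJ (i : E.I) (g : Polynomial ↥(GaloisRep.ratLocalizedAt ℓ)) :
    tau E i (polyJ N ℓ g) = tau E E.i₀ (polyJ N ℓ g) := by
  apply Subtype.ext
  rw [coe_tau, coe_tau, ← chartVal_apply, chartVal_polyJ, phiZ_eq_phiQ, sig_phiQ, sig_phiQ]

theorem rho_polyJ (i : E.I) (g : Polynomial ↥(GaloisRep.ratLocalizedAt ℓ)) :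
    rho E i (polyJ N ℓ g) = rho E E.i₀ (polyJ N ℓ g) := by
  unfold rho
  rw [RingHom.comp_apply, RingHom.comp_apply, tau_polyJ]

theorem rho_const (a : ↥(GaloisRep.ratLocalizedAt ℓ)) :
    ∃ c : E.𝔽, rho E E.i₀ (algebraMap _ _ a) = HahnSeries.C c := by
  have hσ : E.σ E.i₀ ((algebraMap ↥(GaloisRep.ratLocalizedAt ℓ) ↥(chartAlgFin N ℓ) a :
      ↥(chartAlgFin N ℓ)) : ↥(modularFunctionFieldFull N)) = HahnSeries.C ((a : ℚ) : ℂ) := by
    have : ((algebraMap ↥(GaloisRep.ratLocalizedAt ℓ) ↥(chartAlgFin N ℓ) a :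
        ↥(chartAlgFin N ℓ)) : ↥(modularFunctionFieldFull N)) =
        algebraMap ℚ ↥(modularFunctionFieldFull N) (a : ℚ) := rfl
    rw [this, sig_ratCast]
  refine ⟨E.r ⟨((a : ℚ) : ℂ), E.Zl_mem _ a.2⟩, ?_⟩
  ext n
  have hmem : (E.σ E.i₀ ((algebraMap ↥(GaloisRep.ratLocalizedAt ℓ) ↥(chartAlgFin N ℓ) a :
      ↥(chartAlgFin N ℓ)) : ↥(modularFunctionFieldFull N))).coeff n ∈ E.A :=
    mem_coeffRing_iff.mp (sig_mem_chart E E.i₀ _) n
  rw [rho_coeff E E.i₀ _ n hmem, HahnSeries.C_apply, HahnSeries.coeff_single]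
  split_ifs with h
  · subst h
    congr 1
    apply Subtype.ext
    simp only
    rw [hσ, HahnSeries.C_apply, HahnSeries.coeff_single_same]
  · rw [← map_zero E.r]
    congr 1
    apply Subtype.ext
    simp only [ZeroMemClass.coe_zero]
    rw [hσ, HahnSeries.C_apply, HahnSeries.coeff_single_of_ne h]

theorem rho_order_j : (rho E E.i₀ (jChartFin N ℓ)).order < 0 := by
  have hσ : E.σ E.i₀ ((jChartFin N ℓ : ↥(chartAlgFin N ℓ)) : ↥(modularFunctionFieldFull N)) =
      Jser N := sig_i₀_j E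
  have hmem : (E.σ E.i₀ ((jChartFin N ℓ : ↥(chartAlgFin N ℓ)) :
      ↥(modularFunctionFieldFull N))).coeff (-(N : ℤ)) ∈ E.A :=
    mem_coeffRing_iff.mp (sig_mem_chart E E.i₀ _) _
  have h1 : (rho E E.i₀ (jChartFin N ℓ)).coeff (-(N : ℤ)) = 1 := by
    rw [rho_coeff E E.i₀ _ _ hmem, ← map_one E.r]
    congr 1
    apply Subtype.ext
    simp only [OneMemClass.coe_one]
    rw [hσ]
    simpa using Jser_pow_lead (N := N) 1
  have hne : (rho E E.i₀ (jChartFin N ℓ)).coeff (-(N : ℤ)) ≠ 0 := by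
    rw [h1]; exact one_ne_zero
  have hN : (0 : ℤ) < N := by exact_mod_cast Nat.pos_of_ne_zero (NeZero.ne N)
  exact lt_of_le_of_lt (HahnSeries.order_le_of_coeff_ne_zero hne) (by omega)

/-! ### Characteristic polynomials and the kernel -/

theorem rho_charpoly (y : ↥(chartAlgFin N ℓ)) :
    ∃ P : Polynomial (Polynomial ↥(GaloisRep.ratLocalizedAt ℓ)), P.Monic ∧
      P.map ((rho E E.i₀).comp (polyJ N ℓ)) =
        ∏ i : E.I, (Polynomial.X - Polynomial.C (rho E i y)) := by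
  classical
  have hy : (phiZ N ℓ).IsIntegralElem (y : ↥(modularFunctionFieldFull N)) :=
    (mem_chartAlgFin_iff_phiZ _).mp y.2
  obtain ⟨P, hPm, hP⟩ := exists_charpoly E (y : ↥(modularFunctionFieldFull N))
    (phiZ_isIntegralElem_imp_phiQ hy) (fun i => sig_mem_chart E i y)
  refine ⟨P, hPm, ?_⟩
  have h1 : P.map ((tau E E.i₀).comp (polyJ N ℓ)) =
      ∏ i : E.I, (Polynomial.X - Polynomial.C (tau E i y)) := by
    apply Polynomial.map_injective (coeffRing E.A).subtype Subtype.val_injective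
    rw [Polynomial.map_map, Polynomial.map_prod]
    have hcomp : (coeffRing E.A).subtype.comp ((tau E E.i₀).comp (polyJ N ℓ)) =
        (E.σ E.i₀).comp (phiZ N ℓ) := RingHom.ext fun g => by
      simp only [RingHom.comp_apply, Subring.subtype_apply, coe_tau]
      rw [← chartVal_apply, chartVal_polyJ]
    rw [hcomp, ← Polynomial.map_map, hP E.i₀]
    refine Finset.prod_congr rfl fun i _ => ?_
    simp
  have h2 : (rho E E.i₀).comp (polyJ N ℓ) =
      (coeffRed E.r).comp ((tau E E.i₀).comp (polyJ N ℓ)) := rfl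
  rw [h2, ← Polynomial.map_map, h1, Polynomial.map_prod]
  refine Finset.prod_congr rfl fun i _ => ?_
  simp [rho]

/-- an element of `F` whose characteristic polynomial has coefficients in `ℤ_(ℓ)[j]` lies in the
finite chart -/
theorem mem_chart_of_charpoly (z : ↥(modularFunctionFieldFull N))
    (P : Polynomial (Polynomial ↥(GaloisRep.ratLocalizedAt ℓ))) (hPm : P.Monic)
    (hP : (P.map (phiZ N ℓ)).map (E.σ E.i₀) =
      ∏ i : E.I, (Polynomial.X - Polynomial.C (E.σ i z))) :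
    z ∈ chartAlgFin N ℓ := by
  classical
  rw [mem_chartAlgFin_iff_phiZ]
  refine ⟨P, hPm, ?_⟩
  apply sig_injective E E.i₀
  rw [map_zero, Polynomial.eval₂_eq_eval_map, ← Polynomial.eval_map_apply, hP,
    Polynomial.eval_prod]
  exact Finset.prod_eq_zero (Finset.mem_univ E.i₀) (by simp)

theorem mem_chart_of_int (z : ↥(modularFunctionFieldFull N)) (hint : (phiQ N).IsIntegralElem z)
    (hcoeff : ∀ i, E.σ i z ∈ coeffRing E.A) : z ∈ chartAlgFin N ℓ := by
  obtain ⟨P, hPm, hP⟩ := exists_charpoly E z hint hcoeff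
  exact mem_chart_of_charpoly E z P hPm (hP E.i₀)

theorem natCast_ne_zero_complex : ((ℓ : ℕ) : ℂ) ≠ 0 :=
  Nat.cast_ne_zero.mpr (Fact.out : ℓ.Prime).ne_zero

theorem rho_ker_all (x : ↥(chartAlgFin N ℓ)) (h : ∀ i, rho E i x = 0) :
    ∃ y : ↥(chartAlgFin N ℓ), x = (ℓ : ↥(chartAlgFin N ℓ)) * y := by
  classical
  have hℓ : ((ℓ : ℕ) : ℂ) ≠ 0 := natCast_ne_zero_complex
  have hℓF : ((ℓ : ℕ) : ↥(modularFunctionFieldFull N)) ≠ 0 :=
    Nat.cast_ne_zero.mpr (Fact.out : ℓ.Prime).ne_zero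
  set z : ↥(modularFunctionFieldFull N) :=
    (x : ↥(modularFunctionFieldFull N)) * ((ℓ : ℕ) : ↥(modularFunctionFieldFull N))⁻¹ with hz
  have hcoeff : ∀ i, E.σ i z ∈ coeffRing E.A := by
    intro i
    obtain ⟨g, hg⟩ := exists_eq_mul_of_coeffRed_eq_zero E.r (ℓ : ↥E.A) E.ker_r (tau E i x) (h i)
    rw [coe_tau] at hg
    have hC : (HahnSeries.C (((ℓ : ↥E.A) : ℂ)) : LaurentSeries ℂ) =
        ((ℓ : ℕ) : LaurentSeries ℂ) := by
      rw [show (((ℓ : ↥E.A) : ℂ)) = ((ℓ : ℕ) : ℂ) by simp, map_natCast]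
    have hne : ((ℓ : ℕ) : LaurentSeries ℂ) ≠ 0 := by
      rw [← map_natCast (HahnSeries.C : ℂ →+* LaurentSeries ℂ)]
      exact (map_ne_zero_iff _ HahnSeries.C_injective).mpr hℓ
    have : E.σ i z = (g : LaurentSeries ℂ) := by
      rw [hz, map_mul, map_inv₀, map_natCast, hg, hC]
      field_simp
    rw [this]
    exact g.2
  have hint : (phiQ N).IsIntegralElem z := by
    refine RingHom.IsIntegralElem.mul _
      (phiZ_isIntegralElem_imp_phiQ ((mem_chartAlgFin_iff_phiZ _).mp x.2)) ?_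
    have := (phiQ N).isIntegralElem_map (x := Polynomial.C (((ℓ : ℕ) : ℚ)⁻¹))
    have h2 : phiQ N (Polynomial.C (((ℓ : ℕ) : ℚ)⁻¹)) =
        ((ℓ : ℕ) : ↥(modularFunctionFieldFull N))⁻¹ := by
      unfold phiQ
      simp
    rwa [h2] at this
  refine ⟨⟨z, mem_chart_of_int E z hint hcoeff⟩, ?_⟩
  apply Subtype.ext
  have hcast : (((ℓ : ↥(chartAlgFin N ℓ))) : ↥(modularFunctionFieldFull N)) =
      ((ℓ : ℕ) : ↥(modularFunctionFieldFull N)) :=
    map_natCast (chartVal (N := N) (ℓ := ℓ)) ℓ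
  rw [Subalgebra.coe_mul, hcast]
  simp only [hz]
  field_simp

/-! ### The unit -/

theorem u_mem_chart : E.u ∈ chartAlgFin N ℓ :=
  mem_chart_of_int E E.u ((isIntegral_adjoin_rat_iff _).mp E.u_int) E.u_coeff

theorem u_inv_mem_chart : E.u⁻¹ ∈ chartAlgFin N ℓ :=
  mem_chart_of_int E E.u⁻¹ ((isIntegral_adjoin_rat_iff _).mp E.u_inv_int) E.u_inv_coeff

/-- the modular unit, as a unit of the finite chart -/
def uUnit : (↥(chartAlgFin N ℓ))ˣ where
  val := ⟨E.u, u_mem_chart E⟩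
  inv := ⟨E.u⁻¹, u_inv_mem_chart E⟩
  val_inv := Subtype.ext (mul_inv_cancel₀ E.u_ne)
  inv_val := Subtype.ext (inv_mul_cancel₀ E.u_ne)

theorem rho_order_u (i : E.I) (hi : i ≠ E.i₀) :
    (rho E i ((uUnit E : (↥(chartAlgFin N ℓ))ˣ) : ↥(chartAlgFin N ℓ))).order < 0 := by
  obtain ⟨n, hn, hmem, hr⟩ := E.u_order i hi
  have h1 : (rho E i ((uUnit E : (↥(chartAlgFin N ℓ))ˣ) : ↥(chartAlgFin N ℓ))).coeff n ≠ 0 := by
    rw [rho_coeff E i _ n hmem]
    exact hr
  exact lt_of_le_of_lt (HahnSeries.order_le_of_coeff_ne_zero h1) hn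

/-! ### The reduction data -/

/-- **Piece I.** The reduction data attached to characteristic-zero expansion data. -/
def ExpData.toRedData : RedData N ℓ where
  𝔽 := E.𝔽
  I := E.I
  i₀ := E.i₀
  ρ := rho E
  ρ_poly := rho_polyJ E
  ρ_const := rho_const E
  order_j := rho_order_j E
  charpoly := rho_charpoly E
  ker_all := rho_ker_all E
  u := uUnit E
  order_u := rho_order_u E

end

end Fermat.Agent.S28lib
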