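/-
S28 library, piece S (helper3): the symmetric functions of the conjugate expansions `sig q f`
of `f ∈ F = ℚ(j_d : d ∣ N)` are rational functions of `j` over `ℚ`.

* `sig_jFull`, `sig_one`: the conjugates fix `j`; the trivial conjugate is the `q`-expansion.
* `symRat_linearIndependent`: linear disjointness of `F` and `ℚ̄(j)` over `ℚ(j)`.
* `sym_rat`: the characteristic polynomial `∏_q (X - sig q f)` comes from a monic polynomial
  with coefficients in `ℚ(j)` (a power of the minimal polynomial of `f` over `ℚ(j)`).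
Complete (no gaps).
-/
import Mathlib
import Fermat.Agent.S28lib.Sig
import Fermat.Agent.S24lib.Sym
import Fermat.Prelude.Def_ModularCurve_IgusaScheme

set_option autoImplicit false

open scoped MatrixGroups
open ModularCurve ModularCurve.IgusaScheme CongruenceSubgroup IntermediateField

namespace Fermat.Agent.S28lib

open Fermat.Agent.S24lib

noncomputable section

/-! ### Linear disjointness of `ℚ̄` and `ℚ((q))` over `ℚ` -/

/-- coefficientwise application of a `ℚ`-linear functional `ℚ̄ → ℚ` -/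
def symRatLam (φ : Kbar →ₗ[ℚ] ℚ) : LaurentSeries Kbar →+ LaurentSeries ℚ where
  toFun z := z.map φ
  map_zero' := by ext; simp
  map_add' x y := by ext; simp

theorem symRatLam_coeff (φ : Kbar →ₗ[ℚ] ℚ) (z : LaurentSeries Kbar) (n : ℤ) :
    (symRatLam φ z).coeff n = φ (z.coeff n) := rfl

theorem symRatLam_const_mul (φ : Kbar →ₗ[ℚ] ℚ) (a : Kbar) (w : LaurentSeries ℚ) :
    symRatLam φ (algebraMap Kbar (LaurentSeries Kbar) a * coeffEmb Kbar w) =
      algebraMap ℚ (LaurentSeries ℚ) (φ a) * w := by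
  ext n
  rw [symRatLam_coeff, algebraMap_laurentSeries_eq_single, algebraMap_laurentSeries_eq_single,
    HahnSeries.coeff_single_zero_mul, HahnSeries.coeff_single_zero_mul, coeffEmb_coeff,
    mul_comm a, ← Algebra.smul_def, map_smul, smul_eq_mul, mul_comm]

theorem symRatLam_aeval (φ : Kbar →ₗ[ℚ] ℚ) (A : Polynomial Kbar) :
    ∃ p : Polynomial ℚ, ∀ w : LaurentSeries ℚ,
      symRatLam φ (Polynomial.aeval (coeffEmb Kbar jq) A * coeffEmb Kbar w) =
        Polynomial.aeval jq p * w := by
  induction A using Polynomial.induction_on' with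
  | add A B hA hB =>
    obtain ⟨p, hp⟩ := hA
    obtain ⟨p', hp'⟩ := hB
    refine ⟨p + p', fun w => ?_⟩
    rw [map_add, map_add, add_mul, add_mul, map_add, hp, hp']
  | monomial n a =>
    refine ⟨Polynomial.monomial n (φ a), fun w => ?_⟩
    rw [Polynomial.aeval_monomial, Polynomial.aeval_monomial, mul_assoc, ← map_pow, ← map_mul,
      symRatLam_const_mul, mul_assoc]

theorem symRat_eq_zero_of_lam (z : LaurentSeries Kbar)
    (h : ∀ φ : Kbar →ₗ[ℚ] ℚ, symRatLam φ z = 0) : z = 0 := by
  ext n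
  rw [HahnSeries.coeff_zero]
  apply (Module.forall_dual_apply_eq_zero_iff ℚ (z.coeff n)).1
  intro φ
  have := congrArg (fun y => y.coeff n) (h φ)
  simpa [symRatLam_coeff] using this

open Polynomial in
/-- linear disjointness, polynomial form -/
theorem symRat_ld_poly {ι : Type*} [Fintype ι] (x : ι → LaurentSeries ℚ)
    (hx : ∀ p : ι → Polynomial ℚ, ∑ i, aeval jq (p i) * x i = 0 → ∀ i, aeval jq (p i) = 0)
    (A : ι → Polynomial Kbar)
    (h : ∑ i, aeval (coeffEmb Kbar jq) (A i) * coeffEmb Kbar (x i) = 0) :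
    ∀ i, aeval (coeffEmb Kbar jq) (A i) = 0 := by
  intro i
  apply symRat_eq_zero_of_lam
  intro φ
  choose p hp using fun i => symRatLam_aeval φ (A i)
  have h1 := congrArg (symRatLam φ) h
  rw [map_sum, map_zero] at h1
  simp only [hp] at h1
  have h2 := hx p h1 i
  have h3 := hp i 1
  rw [map_one, mul_one, mul_one] at h3
  rw [h3, h2]

/-- if a monic polynomial over `k` splits in `L` with all roots among the conjugates `ε i x` of
an element `x`, it is a power of the minimal polynomial of `x` -/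
theorem symRat_eq_pow_minpoly_of_roots {k E L : Type*} [Field k] [Field E] [Field L] [Algebra k E]
    {ι : Type*} (ε : ι → E →+* L) (τ : k →+* L) (hτ : ∀ i, (ε i).comp (algebraMap k E) = τ)
    (x : E) (hx : IsIntegral k x) :
    ∀ (n : ℕ) (Q : Polynomial k), Q.natDegree = n → Q.Monic → (Q.map τ).Splits →
      (∀ r ∈ (Q.map τ).roots, ∃ i, r = ε i x) → ∃ m : ℕ, Q = minpoly k x ^ m := by
  intro n
  induction n using Nat.strong_induction_on with
  | _ n ih =>
    intro Q hn hQ hs hr
    by_cases h0 : Q.natDegree = 0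
    · refine ⟨0, ?_⟩
      rw [pow_zero]
      exact Polynomial.eq_one_of_monic_natDegree_zero hQ h0
    · have hmap_ne : Q.map τ ≠ 0 := (hQ.map τ).ne_zero
      have hdeg : (Q.map τ).degree ≠ 0 := by
        rw [Polynomial.degree_map]
        intro h
        exact h0 (Polynomial.natDegree_eq_zero_iff_degree_le_zero.2 (le_of_eq h))
      obtain ⟨r, hr0⟩ := hs.exists_eval_eq_zero hdeg
      obtain ⟨i, rfl⟩ := hr r ((Polynomial.mem_roots hmap_ne).2 hr0)
      have hroot : Polynomial.aeval x Q = 0 := by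
        apply (ε i).injective
        rw [map_zero, Polynomial.aeval_def, Polynomial.hom_eval₂, hτ i, ← Polynomial.eval_map]
        exact hr0
      obtain ⟨Q', hQ'⟩ := minpoly.dvd k x hroot
      have hμ := minpoly.monic hx
      have hQ'm : Q'.Monic := by
        rw [hQ'] at hQ
        exact hμ.of_mul_monic_left hQ
      have hdegQ : Q.natDegree = (minpoly k x).natDegree + Q'.natDegree := by
        rw [hQ', hμ.natDegree_mul hQ'm]
      have hpos := minpoly.natDegree_pos hx
      have hdvd : Q'.map τ ∣ Q.map τ := by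
        rw [hQ', Polynomial.map_mul]
        exact dvd_mul_left _ _
      obtain ⟨m, hm⟩ := ih Q'.natDegree (by omega) Q' rfl hQ'm (hs.of_dvd hmap_ne hdvd)
        (fun r hr' => hr r (Multiset.mem_of_le (Polynomial.roots.le_of_dvd hmap_ne hdvd) hr'))
      exact ⟨m + 1, by rw [hQ', hm, pow_succ']⟩

variable (N : ℕ) [NeZero N]

/-! ### The conjugates -/

theorem symRat_embF_congr {E E' : WH N →+* LaurentSeries ℂ} (hE : Function.Injective E)
    (hE' : Function.Injective E') (h : E = E') : embF N E hE = embF N E' hE' := by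
  subst h; rfl

omit [NeZero N] in
theorem symRat_twist_one (E : WH N →+* LaurentSeries ℂ) : twist N E 1 = E := by
  ext a
  rw [twist_apply, one_smul]

theorem symRat_toFF_jFull : toFF N (jFull N) = jF N := rfl

/-- every conjugate expansion fixes `j` -/
theorem sig_jFull (q : SL(2, ℤ) ⧸ Gamma0 N) :
    sig N q (jFull N) = qExpand ℂ N (coeffMap (algebraMap ℚ ℂ) jq) := by
  rw [sig_apply, symRat_toFF_jFull, embF_jF, twist_apply, smul_jWH, expInf_jWH]

/-- the conjugate expansion attached to the trivial coset is the given `q`-expansion -/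
theorem sig_one (x : ↥(modularFunctionFieldFull N)) :
    sig N ((1 : SL(2, ℤ)) : SL(2, ℤ) ⧸ Gamma0 N) x =
      qExpand ℂ N (coeffMap (algebraMap ℚ ℂ) (x : LaurentSeries ℚ)) := by
  have hout : ((1 : SL(2, ℤ)) : SL(2, ℤ) ⧸ Gamma0 N).out ∈ Gamma0 N := by
    have h := QuotientGroup.out_eq' ((1 : SL(2, ℤ)) : SL(2, ℤ) ⧸ Gamma0 N)
    have h2 := QuotientGroup.eq.1 h
    have h3 := inv_mem h2
    simpa using h3
  have h1 := embF_twist_mul N (expInf_injective N) 1 _ hout
  rw [sig_apply]
  have h2 : embF N (twist N (expInf N) ((1 : SL(2, ℤ)) : SL(2, ℤ) ⧸ Gamma0 N).out)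
      (twist_injective N (expInf_injective N) _) = embF N (expInf N) (expInf_injective N) := by
    rw [← symRat_embF_congr N (twist_injective N (expInf_injective N) 1) (expInf_injective N)
      (symRat_twist_one N (expInf N)), ← h1]
    exact symRat_embF_congr N _ _ (by rw [one_mul])
  rw [h2]
  unfold embF
  rw [RingHom.comp_apply, liftMF_ιF, coe_toFF, inclL_coeffEmb]



/-- all the conjugate embeddings agree on `ℚ̄(j)` -/
theorem symRat_embF_twist_eq_on (g : SL(2, ℤ)) (c : FF N) (hc : c ∈ Kbar⟮jF N⟯) :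
    embF N (twist N (expInf N) g) (twist_injective N (expInf_injective N) g) c =
      embF N (expInf N) (expInf_injective N) c := by
  have hc' : c ∈ Subfield.closure (Set.range (algebraMap Kbar (FF N)) ∪ {jF N}) := hc
  have hle : Subfield.closure (Set.range (algebraMap Kbar (FF N)) ∪ {jF N}) ≤
      RingHom.eqLocusField
        (embF N (twist N (expInf N) g) (twist_injective N (expInf_injective N) g))
        (embF N (expInf N) (expInf_injective N)) := by
    rw [Subfield.closure_le]
    rintro y (⟨a, rfl⟩ | rfl)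
    · show embF N _ _ _ = embF N _ _ _
      rw [embF_const, embF_const, twist_apply, smul_whC]
    · show embF N _ _ _ = embF N _ _ _
      rw [embF_jF, embF_jF, twist_apply, smul_jWH]
  exact hle hc'

/-! ### Descent from `ℚ̄(j)` to `ℚ(j)` -/

omit [NeZero N] in
theorem symRat_map_aeval {A B : Type*} [CommRing A] [CommRing B] [Algebra ℚ A] [Algebra ℚ B]
    (f : A →+* B) (x : A) (p : Polynomial ℚ) :
    f (Polynomial.aeval x p) = Polynomial.aeval (f x) p := by
  rw [Polynomial.aeval_def, Polynomial.aeval_def, Polynomial.hom_eval₂]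
  congr 1
  exact RingHom.ext_rat _ _

theorem symRat_coe_aeval_jFull (p : Polynomial ℚ) :
    ((Polynomial.aeval (jFull N) p : ↥(modularFunctionFieldFull N)) : LaurentSeries ℚ) =
      Polynomial.aeval jq p :=
  symRat_map_aeval (SubringClass.subtype (modularFunctionFieldFull N)) (jFull N) p

omit [NeZero N] in
theorem symRat_coe_aeval_jF (A : Polynomial Kbar) :
    ((Polynomial.aeval (jF N) A : FF N) : LaurentSeries Kbar) =
      Polynomial.aeval (coeffEmb Kbar jq) A :=
  (Polynomial.aeval_algHom_apply (modularFunctionFieldBar N).val (jF N) A).symm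

theorem symRat_coe_aeval_gen (p : Polynomial ℚ) :
    ((Polynomial.aeval (AdjoinSimple.gen ℚ (jFull N)) p : ↥ℚ⟮jFull N⟯) :
      ↥(modularFunctionFieldFull N)) = Polynomial.aeval (jFull N) p :=
  symRat_map_aeval (SubringClass.subtype ℚ⟮jFull N⟯) (AdjoinSimple.gen ℚ (jFull N)) p

open scoped IntermediateField.algebraAdjoinAdjoin in
/-- linear disjointness: families of `F` that are linearly independent over `ℚ(j)` stay
linearly independent over `ℚ̄(j)` -/
theorem symRat_linearIndependent {ι : Type*} [Fintype ι] (x : ι → ↥(modularFunctionFieldFull N))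
    (hx : LinearIndependent ↥ℚ⟮jFull N⟯ x) :
    LinearIndependent ↥Kbar⟮jF N⟯ (fun i => toFF N (x i)) := by
  rw [← LinearIndependent.iff_fractionRing (Algebra.adjoin Kbar {jF N}) ↥Kbar⟮jF N⟯]
  rw [Fintype.linearIndependent_iff]
  intro g hg i
  have hA : ∀ i, ∃ A : Polynomial Kbar, Polynomial.aeval (jF N) A = (g i : FF N) := by
    intro i
    have h2 : (g i : FF N) ∈ (Polynomial.aeval (R := Kbar) (jF N)).range := by
      rw [← Algebra.adjoin_singleton_eq_range_aeval]
      exact (g i).2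
    exact h2
  choose A hA using hA
  have hx' : ∀ p : ι → Polynomial ℚ,
      ∑ i, Polynomial.aeval jq (p i) * (x i : LaurentSeries ℚ) = 0 →
        ∀ i, Polynomial.aeval jq (p i) = 0 := by
    intro p hp i
    have h1 : ∑ i, (Polynomial.aeval (AdjoinSimple.gen ℚ (jFull N)) (p i) : ↥ℚ⟮jFull N⟯) • x i
        = 0 := by
      apply Subtype.ext
      rw [ZeroMemClass.coe_zero, ← hp]
      simp only [IntermediateField.smul_def, smul_eq_mul, symRat_coe_aeval_gen]
      push_cast
      simp only [symRat_coe_aeval_jFull]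
    have h2 := Fintype.linearIndependent_iff.1 hx _ h1 i
    rw [← symRat_coe_aeval_jFull N, ← symRat_coe_aeval_gen N, h2]
    rfl
  have h3 : ∑ i, Polynomial.aeval (coeffEmb Kbar jq) (A i) *
      coeffEmb Kbar (x i : LaurentSeries ℚ) = 0 := by
    have h4 := congrArg (fun z : FF N => (z : LaurentSeries Kbar)) hg
    simp only [Subalgebra.smul_def, smul_eq_mul, ← hA] at h4
    push_cast at h4
    simpa only [symRat_coe_aeval_jF, coe_toFF] using h4
  have h5 := symRat_ld_poly _ hx' A h3 i
  apply Subtype.ext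
  apply Subtype.ext
  rw [← hA, symRat_coe_aeval_jF, h5]
  rfl

/-- descent of algebraic relations from `ℚ̄(j)` to `ℚ(j)` -/
theorem symRat_exists_descent (f : ↥(modularFunctionFieldFull N)) (Q : Polynomial ↥Kbar⟮jF N⟯)
    (hQ : Q ≠ 0) (h0 : Polynomial.aeval (toFF N f) Q = 0) :
    ∃ R : Polynomial ↥ℚ⟮jFull N⟯, R ≠ 0 ∧ R.natDegree ≤ Q.natDegree ∧
      Polynomial.aeval f R = 0 := by
  classical
  by_contra hcon
  have hli : LinearIndependent ↥ℚ⟮jFull N⟯ (fun i : Fin (Q.natDegree + 1) => f ^ (i : ℕ)) := by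
    rw [Fintype.linearIndependent_iff]
    intro g hg
    by_contra hne
    apply hcon
    refine ⟨∑ i : Fin (Q.natDegree + 1), Polynomial.monomial (i : ℕ) (g i), ?_, ?_, ?_⟩
    · intro h
      apply hne
      intro i
      have := congrArg (fun P => P.coeff (i : ℕ)) h
      simpa [Polynomial.finsetSum_coeff, Polynomial.coeff_monomial, Fin.val_inj] using this
    · apply Polynomial.natDegree_sum_le_of_forall_le
      intro i _
      exact (Polynomial.natDegree_monomial_le _).trans (Nat.lt_succ_iff.1 i.2)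
    · rw [map_sum]
      simp only [Polynomial.aeval_monomial]
      simpa [Algebra.smul_def] using hg
  have hli' := symRat_linearIndependent N _ hli
  rw [Fintype.linearIndependent_iff] at hli'
  have hsum : ∑ i : Fin (Q.natDegree + 1), Q.coeff (i : ℕ) • toFF N (f ^ (i : ℕ)) = 0 := by
    rw [← h0, Polynomial.aeval_eq_sum_range,
      Fin.sum_univ_eq_sum_range (fun i => Q.coeff i • toFF N (f ^ i)) (Q.natDegree + 1)]
    simp [map_pow]
  have := hli' (fun i => Q.coeff i) hsum
  apply hQ
  refine Polynomial.ext fun n => ?_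
  rw [Polynomial.coeff_zero]
  by_cases hn : n < Q.natDegree + 1
  · exact this ⟨n, hn⟩
  · exact Polynomial.coeff_eq_zero_of_natDegree_lt (by omega)

theorem symRat_toFF_mem (x : ↥(modularFunctionFieldFull N)) (hx : x ∈ ℚ⟮jFull N⟯) :
    toFF N x ∈ Kbar⟮jF N⟯ := by
  have hx' : x ∈ Subfield.closure
      (Set.range (algebraMap ℚ ↥(modularFunctionFieldFull N)) ∪ {jFull N}) := hx
  have hle : Subfield.closure
      (Set.range (algebraMap ℚ ↥(modularFunctionFieldFull N)) ∪ {jFull N}) ≤
        (Kbar⟮jF N⟯.toSubfield).comap (toFF N) := by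
    rw [Subfield.closure_le]
    rintro y (⟨c, rfl⟩ | rfl)
    · show toFF N _ ∈ Kbar⟮jF N⟯
      rw [eq_ratCast, map_ratCast]
      exact SubfieldClass.ratCast_mem _ c
    · show toFF N _ ∈ Kbar⟮jF N⟯
      rw [symRat_toFF_jFull]
      exact mem_adjoin_simple_self Kbar (jF N)
  exact hle hx'

/-- the restriction of `toFF` to `ℚ(j) → ℚ̄(j)` -/
def symRatTheta : ↥ℚ⟮jFull N⟯ →+* ↥Kbar⟮jF N⟯ :=
  ((toFF N).comp (algebraMap ↥ℚ⟮jFull N⟯ ↥(modularFunctionFieldFull N))).codRestrict
    Kbar⟮jF N⟯ (fun x => symRat_toFF_mem N x x.2)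

theorem symRatTheta_comp : (algebraMap ↥Kbar⟮jF N⟯ (FF N)).comp (symRatTheta N) =
    (toFF N).comp (algebraMap ↥ℚ⟮jFull N⟯ ↥(modularFunctionFieldFull N)) := rfl


/-! ### The symmetric functions -/

set_option synthInstance.maxHeartbeats 400000 in
set_option maxHeartbeats 1000000 in
open Polynomial in
/-- piece S: the characteristic polynomial of `f` with respect to the conjugate expansions is
the image of a monic polynomial with coefficients in `ℚ(j)`. -/
theorem sym_rat (f : ↥(modularFunctionFieldFull N)) :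
    ∃ P : Polynomial ↥(modularFunctionFieldFull N), P.Monic ∧
      (∀ k, P.coeff k ∈ ℚ⟮jFull N⟯) ∧
      ∀ q' : SL(2, ℤ) ⧸ Gamma0 N, P.map (sig N q') =
        ∏ q : SL(2, ℤ) ⧸ Gamma0 N, (Polynomial.X - Polynomial.C (sig N q f)) := by
  classical
  obtain ⟨P₁, hP₁c, hP₁⟩ := sym_embF N (expInf_injective N) (toFF N f)
  have hlift : P₁ ∈ Polynomial.lifts (algebraMap ↥Kbar⟮jF N⟯ (FF N)) := by
    rw [Polynomial.lifts_iff_coeff_lifts]
    intro n
    exact ⟨⟨P₁.coeff n, hP₁c n⟩, rfl⟩
  obtain ⟨Q, hQ⟩ := (Polynomial.mem_lifts _).1 hlift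
  set ε : (SL(2, ℤ) ⧸ Gamma0 N) → FF N →+* LaurentSeries ℂ := fun q =>
    embF N (twist N (expInf N) q.out) (twist_injective N (expInf_injective N) _) with hε
  set τ : ↥Kbar⟮jF N⟯ →+* LaurentSeries ℂ :=
    (embF N (expInf N) (expInf_injective N)).comp (algebraMap ↥Kbar⟮jF N⟯ (FF N)) with hτdef
  have hτ : ∀ q, (ε q).comp (algebraMap ↥Kbar⟮jF N⟯ (FF N)) = τ := fun q =>
    RingHom.ext fun c => symRat_embF_twist_eq_on N q.out c c.2
  have hsig : ∀ q, sig N q = (ε q).comp (toFF N) := fun q => rfl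
  have hP₁' : ∀ q', P₁.map (ε q') = ∏ q : SL(2, ℤ) ⧸ Gamma0 N, (X - C (ε q (toFF N f))) :=
    fun q' => hP₁ q'.out
  have hQmap : Q.map τ = ∏ q : SL(2, ℤ) ⧸ Gamma0 N, (X - C (ε q (toFF N f))) := by
    rw [← hτ ((1 : SL(2, ℤ)) : SL(2, ℤ) ⧸ Gamma0 N), ← Polynomial.map_map, hQ, hP₁']
  have hQm : Q.Monic := by
    apply Polynomial.monic_of_injective τ.injective
    rw [hQmap]
    exact Polynomial.monic_prod_of_monic _ _ (fun q _ => Polynomial.monic_X_sub_C _)
  have hs : (Q.map τ).Splits := by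
    rw [hQmap]
    exact Polynomial.Splits.prod (fun q _ => Polynomial.Splits.X_sub_C _)
  have hr : ∀ r ∈ (Q.map τ).roots, ∃ q, r = ε q (toFF N f) := by
    intro r hr
    have h1 := (Polynomial.mem_roots'.1 hr).2
    rw [hQmap, Polynomial.IsRoot.def, Polynomial.eval_prod] at h1
    obtain ⟨q, _, hq⟩ := Finset.prod_eq_zero_iff.1 h1
    rw [Polynomial.eval_sub, Polynomial.eval_X, Polynomial.eval_C, sub_eq_zero] at hq
    exact ⟨q, hq⟩
  have hroot : Polynomial.aeval (toFF N f) Q = 0 := by
    set q₀ : SL(2, ℤ) ⧸ Gamma0 N := ((1 : SL(2, ℤ)) : SL(2, ℤ) ⧸ Gamma0 N) with hq₀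
    apply (ε q₀).injective
    rw [map_zero, Polynomial.aeval_def, Polynomial.hom_eval₂, hτ q₀, ← Polynomial.eval_map,
      hQmap, Polynomial.eval_prod]
    apply Finset.prod_eq_zero (Finset.mem_univ q₀)
    rw [Polynomial.eval_sub, Polynomial.eval_X, Polynomial.eval_C, sub_self]
  have hxint : IsIntegral ↥Kbar⟮jF N⟯ (toFF N f) := ⟨Q, hQm, by rwa [← Polynomial.aeval_def]⟩
  obtain ⟨R, hR0, -, hR⟩ := symRat_exists_descent N f Q hQm.ne_zero hroot
  have hfint : IsIntegral ↥ℚ⟮jFull N⟯ f := IsAlgebraic.isIntegral ⟨R, hR0, hR⟩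
  set μ := minpoly ↥ℚ⟮jFull N⟯ f with hμdef
  have hμm : μ.Monic := minpoly.monic hfint
  have hμK : μ.map (symRatTheta N) = minpoly ↥Kbar⟮jF N⟯ (toFF N f) := by
    apply minpoly.unique _ _ (hμm.map _)
    · rw [Polynomial.aeval_def, Polynomial.eval₂_map, symRatTheta_comp, ← Polynomial.hom_eval₂,
        ← Polynomial.aeval_def, minpoly.aeval, map_zero]
    · intro q hq hq0
      obtain ⟨R', hR'0, hR'd, hR'⟩ := symRat_exists_descent N f q hq.ne_zero hq0
      have h1 := minpoly.degree_le_of_ne_zero ↥ℚ⟮jFull N⟯ f hR'0 hR'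
      rw [Polynomial.degree_map]
      refine h1.trans ?_
      rw [Polynomial.degree_eq_natDegree hR'0, Polynomial.degree_eq_natDegree hq.ne_zero]
      exact_mod_cast hR'd
  obtain ⟨m, hm⟩ := symRat_eq_pow_minpoly_of_roots ε τ hτ (toFF N f) hxint _ Q rfl hQm hs hr
  refine ⟨(μ ^ m).map (algebraMap ↥ℚ⟮jFull N⟯ ↥(modularFunctionFieldFull N)),
    (hμm.pow m).map _, ?_, ?_⟩
  · intro k
    rw [Polynomial.coeff_map]
    exact ((μ ^ m).coeff k).2
  · intro q'
    rw [hsig, Polynomial.map_map, RingHom.comp_assoc, ← symRatTheta_comp, ← RingHom.comp_assoc,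
      ← Polynomial.map_map, ← Polynomial.map_map, Polynomial.map_pow, hμK, ← hm, hQ, hP₁']
    rfl

end

end Fermat.Agent.S28lib
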