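/-
S28 library (item 66, architect helper24) — FINAL ASSEMBLY, part 1.

* `rho_i₀_eq_zero_of_redMid`: compatibility of helper11's `redMid` with the reduced expansion
  `rho E E.i₀` of `Inst.lean`;
* `ker_fin_of_expData`: KER_fin (`redMid (inclFin b) = 0 → ℓ ∣ b`) from any `ExpData N ℓ`
  (= `RedData.ker_eq` of `Core.lean` applied to `E.toRedData`);
* `isIntegral_of_expData`: S28 from any `ExpData N ℓ` (with `ker_inf_of_ker_fin`, `Assemble`);
* `expDataOf`: the `ExpData` built from the cyclotomic ring (piece Z), normality (N), the conjugate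
  expansions `sig` (X), and the two remaining inputs S (`sym_rat`, `sig_one`, `sig_jFull`) and
  U (`exists_unit`), taken here as hypotheses.
No sorry.
-/
import Mathlib
import Fermat.Agent.S28lib.Inst
import Fermat.Agent.S28lib.Core
import Fermat.Agent.S28lib.Assemble
import Fermat.Agent.S28lib.InfChart
import Fermat.Agent.S28lib.CycRed
import Fermat.Agent.S28lib.Normal
import Fermat.Agent.S28lib.ConjInt
import Fermat.Agent.S28lib.SymRat

set_option autoImplicit false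

open scoped MatrixGroups
open AlgebraicGeometry CategoryTheory CategoryTheory.Limits
open ModularCurve ModularCurve.IgusaScheme CongruenceSubgroup IntermediateField

namespace Fermat.Agent.S28lib

open Fermat.Agent.S24lib

noncomputable section

variable {N : ℕ} [NeZero N] {ℓ : ℕ} [Fact ℓ.Prime]

/-- `q ↦ q^N` preserves `A`-integrality of coefficients. -/
theorem qExpand_coeffMap_mem_coeffRing (A : Subring ℂ)
    (hZ : ∀ x : ℚ, x ∈ GaloisRep.ratLocalizedAt ℓ → ((x : ℂ)) ∈ A)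
    (g : LaurentSeries ℚ) (hg : g ∈ coeffRing (GaloisRep.ratLocalizedAt ℓ)) :
    qExpand ℂ N (coeffMap (algebraMap ℚ ℂ) g) ∈ coeffRing A := by
  rw [mem_coeffRing_iff]
  intro n
  by_cases hn : (N : ℤ) ∣ n
  · obtain ⟨k, rfl⟩ := hn
    rw [qExpand_coeff_mul, coeffMap_coeff]
    exact hZ _ (mem_coeffRing_iff.mp hg k)
  · rw [qExpand_coeff_of_not_dvd N _ hn]
    exact A.zero_mem

theorem coeffMap_C_natCast (n : ℕ) :
    coeffMap (algebraMap ℚ ℂ) (HahnSeries.C (n : ℚ)) = HahnSeries.C (n : ℂ) := by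
  have := coeffMap_single (algebraMap ℚ ℂ) 0 (n : ℚ)
  simpa using this

/-- the expansion at `∞` of an element divisible by `ℓ` -/
theorem sig_i₀_of_eq_C_mul (E : ExpData N ℓ) (x : ↥(modularFunctionFieldFull N))
    (g : LaurentSeries ℚ) (hx : (x : LaurentSeries ℚ) = HahnSeries.C (ℓ : ℚ) * g) :
    E.σ E.i₀ x = (ℓ : LaurentSeries ℂ) * qExpand ℂ N (coeffMap (algebraMap ℚ ℂ) g) := by
  rw [E.σ_i₀, hx, map_mul, map_mul, coeffMap_C_natCast, qExpand_C,
    ← map_natCast (HahnSeries.C : ℂ →+* LaurentSeries ℂ)]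

theorem exists_eq_C_mul_of_redMid_inclFin (b : ↥(chartAlgFin N ℓ))
    (hb : redMid ℓ N (inclFin N ℓ b) = 0) :
    ∃ g : LaurentSeries ℚ, g ∈ coeffRing (GaloisRep.ratLocalizedAt ℓ) ∧
      ((b : ↥(modularFunctionFieldFull N)) : LaurentSeries ℚ) = HahnSeries.C (ℓ : ℚ) * g := by
  obtain ⟨g, hg, h⟩ := (redMid_eq_zero_iff ℓ N (inclFin N ℓ b)).mp hb
  rw [coe_chartIncl] at h
  exact ⟨g, hg, h⟩

omit [Fact ℓ.Prime] in
theorem natCast_laurent_eq_zero (𝔽 : Type) [Field 𝔽] [CharP 𝔽 ℓ] :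
    ((ℓ : ℕ) : LaurentSeries 𝔽) = 0 := by
  rw [← map_natCast (HahnSeries.C : 𝔽 →+* LaurentSeries 𝔽), CharP.cast_eq_zero, map_zero]

/-- Compatibility: if the `q`-expansion of `b` is divisible by `ℓ` in `ℤ_(ℓ)((q))`, then the
reduced expansion `rho E E.i₀ b` vanishes. -/
theorem rho_i₀_eq_zero_of_redMid (E : ExpData N ℓ) (b : ↥(chartAlgFin N ℓ))
    (hb : redMid ℓ N (inclFin N ℓ b) = 0) : rho E E.i₀ b = 0 := by
  obtain ⟨g, hg, hbg⟩ := exists_eq_C_mul_of_redMid_inclFin b hb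
  have hG : qExpand ℂ N (coeffMap (algebraMap ℚ ℂ) g) ∈ coeffRing E.A :=
    qExpand_coeffMap_mem_coeffRing E.A E.Zl_mem g hg
  have hτ : tau E E.i₀ b = (ℓ : ↥(coeffRing E.A)) * ⟨_, hG⟩ :=
    Subtype.ext (sig_i₀_of_eq_C_mul E _ g hbg)
  have hρ : rho E E.i₀ b = coeffRed E.r (tau E E.i₀ b) := rfl
  rw [hρ, hτ, map_mul, map_natCast, natCast_laurent_eq_zero, zero_mul]

/-- **KER_fin** from expansion data. -/
theorem ker_fin_of_expData (E : ExpData N ℓ) (b : ↥(chartAlgFin N ℓ))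
    (hb : redMid ℓ N (inclFin N ℓ b) = 0) :
    ∃ c : ↥(chartAlgFin N ℓ), b = (ℓ : ↥(chartAlgFin N ℓ)) * c :=
  RedData.ker_eq (E.toRedData) b (rho_i₀_eq_zero_of_redMid E b hb)

/-- **S28 from expansion data.** -/
theorem isIntegral_of_expData (E : ExpData N ℓ)
    (K : Type) [Field K] [CharP K ℓ] [Algebra ↥(GaloisRep.ratLocalizedAt ℓ) K] :
    IsIntegral ↑(pullback (igusaTo N ℓ)
      (Spec.map (CommRingCat.ofHom (algebraMap ↥(GaloisRep.ratLocalizedAt ℓ) K)))) :=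
  isIntegral_pullback_igusaTo_of_red N ℓ K (redMid ℓ N) (ker_fin_of_expData E)
    (ker_inf_of_ker_fin N ℓ (ker_fin_of_expData E))

/-- `ℤ_(ℓ) ⊆ A` as soon as `A` contains the inverses of the integers prime to `ℓ`. -/
theorem ratCast_mem_of_inv_mem (A : Subring ℂ)
    (hinv : ∀ m : ℕ, ¬ ℓ ∣ m → ((m : ℂ))⁻¹ ∈ A) (x : ℚ)
    (hx : x ∈ GaloisRep.ratLocalizedAt ℓ) : ((x : ℂ)) ∈ A := by
  have hcop : x.den.Coprime ℓ := hx
  have hnd : ¬ ℓ ∣ x.den := by
    intro h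
    have := Nat.Coprime.eq_one_of_dvd hcop.symm h
    exact (Fact.out : ℓ.Prime).one_lt.ne' this
  have hx' : (x : ℂ) = (x.num : ℂ) * ((x.den : ℂ))⁻¹ := by
    rw [Rat.cast_def, div_eq_mul_inv]
  rw [hx']
  exact A.mul_mem (intCast_mem A x.num) (hinv _ hnd)

/-- The statement of piece U (the modular unit), for a coefficient ring `A`. -/
def UnitStatement (N ℓ : ℕ) [NeZero N] (A : Subring ℂ) : Prop :=
  ∃ u : ↥(modularFunctionFieldFull N), u ≠ 0 ∧
    IsIntegral ↥(Algebra.adjoin ℚ {jFull N}) u ∧ IsIntegral ↥(Algebra.adjoin ℚ {jFull N}) u⁻¹ ∧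
    (∀ q, sig N q u ∈ coeffRing A) ∧ (∀ q, sig N q u⁻¹ ∈ coeffRing A) ∧
    ∀ q : SL(2, ℤ) ⧸ Gamma0 N, q ≠ ((1 : SL(2, ℤ)) : SL(2, ℤ) ⧸ Gamma0 N) →
      ∃ n : ℤ, n < 0 ∧ ∃ c ∈ A, (sig N q u).coeff n * c = 1

/-- **The expansion data exist** (given the modular unit). -/
theorem nonempty_expData (hℓN : ¬ ℓ ∣ N)
    (hunit : ∀ A : Subring ℂ, (∀ ζ : ℂ, ζ ^ N = 1 → ζ ∈ A) →
      (∀ m : ℕ, ¬ ℓ ∣ m → ((m : ℂ))⁻¹ ∈ A) → UnitStatement N ℓ A) :
    Nonempty (ExpData N ℓ) := by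
  classical
  obtain ⟨A, 𝔽, i𝔽, iC, r, hPID, hζ, hinv, hker, hrat⟩ := exists_cycRed N ℓ hℓN
  obtain ⟨u, hu0, hui, huinv, huc, huic, huo⟩ := hunit A hζ hinv
  exact ⟨{
    A := A
    𝔽 := 𝔽
    r := r
    ker_r := hker
    A_rat := hrat
    Zl_mem := ratCast_mem_of_inv_mem A hinv
    normal := fun x b hb hb0 hxb hint => coeffRing_normal A x b hb hb0 hxb hint
    I := SL(2, ℤ) ⧸ Gamma0 N
    i₀ := ((1 : SL(2, ℤ)) : SL(2, ℤ) ⧸ Gamma0 N)
    σ := sig N
    σ_i₀ := sig_one N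
    σ_j := fun i => by rw [sig_jFull, sig_jFull]
    σ_frac := fun i f => sig_frac N A hζ i f
    sym := sym_rat N
    u := u
    u_ne := hu0
    u_int := hui
    u_inv_int := huinv
    u_coeff := huc
    u_inv_coeff := huic
    u_order := fun i hi => by
      obtain ⟨n, hn, c, hc, h1⟩ := huo i hi
      have hmem : (sig N i u).coeff n ∈ A := mem_coeffRing_iff.mp (huc i) n
      refine ⟨n, hn, hmem, fun h0 => ?_⟩
      have h2 : (⟨(sig N i u).coeff n, hmem⟩ : ↥A) * ⟨c, hc⟩ = 1 := Subtype.ext h1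
      have h3 := congrArg r h2
      rw [map_mul, h0, zero_mul, map_one] at h3
      exact zero_ne_one h3 }⟩

/-- **S28 from the modular unit.** -/
theorem isIntegral_of_unit (hℓN : ¬ ℓ ∣ N)
    (hunit : ∀ A : Subring ℂ, (∀ ζ : ℂ, ζ ^ N = 1 → ζ ∈ A) →
      (∀ m : ℕ, ¬ ℓ ∣ m → ((m : ℂ))⁻¹ ∈ A) → UnitStatement N ℓ A)
    (K : Type) [Field K] [CharP K ℓ] [Algebra ↥(GaloisRep.ratLocalizedAt ℓ) K] :
    IsIntegral ↑(pullback (igusaTo N ℓ)
      (Spec.map (CommRingCat.ofHom (algebraMap ↥(GaloisRep.ratLocalizedAt ℓ) K)))) := by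
  obtain ⟨E⟩ := nonempty_expData hℓN hunit
  exact isIntegral_of_expData E K

end

end Fermat.Agent.S28lib
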