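/-
S28 library, piece U4 (helper17): generic algebra for the assembly of the modular unit
(orders and coefficient rings of products of integer powers of Laurent series).
No sorry.
-/
import Mathlib
import Fermat.Agent.S28lib.CoeffRing

set_option autoImplicit false

namespace Fermat.Agent.S28lib

section Laurent

variable {k : Type*} [Field k]

/-- the order of an integer power of a nonzero Laurent series. -/
theorem ua_order_pow (x : LaurentSeries k) (hx : x ≠ 0) (n : ℕ) :
    (x ^ n).order = n * x.order := by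
  induction n with
  | zero => simp
  | succ n ih =>
    rw [pow_succ, HahnSeries.order_mul (pow_ne_zero n hx) hx, ih]
    push_cast
    ring

theorem ua_order_inv (x : LaurentSeries k) (hx : x ≠ 0) : (x⁻¹).order = -x.order := by
  have h := HahnSeries.order_mul hx (inv_ne_zero hx)
  rw [mul_inv_cancel₀ hx, HahnSeries.order_one] at h
  omega

theorem ua_order_zpow (x : LaurentSeries k) (hx : x ≠ 0) (n : ℤ) :
    (x ^ n).order = n * x.order := by
  obtain ⟨m, rfl | rfl⟩ := Int.eq_nat_or_neg n
  · rw [zpow_natCast, ua_order_pow x hx]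
  · rw [zpow_neg, zpow_natCast, ua_order_inv _ (pow_ne_zero m hx), ua_order_pow x hx]
    ring

/-- the order of a finite product of nonzero Laurent series. -/
theorem ua_order_prod {ι : Type*} (s : Finset ι) (f : ι → LaurentSeries k)
    (hf : ∀ i ∈ s, f i ≠ 0) : (∏ i ∈ s, f i).order = ∑ i ∈ s, (f i).order := by
  classical
  induction s using Finset.induction_on with
  | empty => simp
  | insert a s ha ih =>
    rw [Finset.prod_insert ha, Finset.sum_insert ha]
    have h1 : f a ≠ 0 := hf a (Finset.mem_insert_self a s)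
    have h2 : ∀ i ∈ s, f i ≠ 0 := fun i hi => hf i (Finset.mem_insert_of_mem hi)
    have h3 : ∏ i ∈ s, f i ≠ 0 := Finset.prod_ne_zero_iff.mpr h2
    rw [HahnSeries.order_mul h1 h3, ih h2]

/-- the order of a finite product of integer powers. -/
theorem ua_order_prod_zpow {ι : Type*} (s : Finset ι) (f : ι → LaurentSeries k)
    (hf : ∀ i ∈ s, f i ≠ 0) (r : ι → ℤ) :
    (∏ i ∈ s, f i ^ r i).order = ∑ i ∈ s, r i * (f i).order := by
  rw [ua_order_prod s _ (fun i hi => zpow_ne_zero _ (hf i hi))]
  exact Finset.sum_congr rfl fun i hi => ua_order_zpow _ (hf i hi) _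

/-- if `x * y = 1` then the leading coefficients are inverse to each other. -/
theorem ua_coeff_mul_of_mul_eq_one {x y : LaurentSeries k} (h : x * y = 1) :
    x.coeff x.order * y.coeff (-x.order) = 1 := by
  have hx : x ≠ 0 := left_ne_zero_of_mul_eq_one h
  have hy : y ≠ 0 := right_ne_zero_of_mul_eq_one h
  have ho : y.order = -x.order := by
    have h1 := HahnSeries.order_mul hx hy
    rw [h, HahnSeries.order_one] at h1
    omega
  have h2 := HahnSeries.coeff_mul_order_add_order x y
  rw [HahnSeries.leadingCoeff_eq, HahnSeries.leadingCoeff_eq, h, ho, add_neg_cancel] at h2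
  rw [← h2]
  simp

end Laurent

section CoeffRing

variable {𝕂 : Type*} [Field 𝕂] (A : Subring 𝕂)

/-- integer powers of a unit of the coefficient ring. -/
theorem ua_zpow_mem {x y : LaurentSeries 𝕂} (hx : x ∈ coeffRing A) (hy : y ∈ coeffRing A)
    (hxy : x * y = 1) (n : ℤ) : x ^ n ∈ coeffRing A := by
  have hyx : y = x⁻¹ := eq_inv_of_mul_eq_one_right hxy
  obtain ⟨m, rfl | rfl⟩ := Int.eq_nat_or_neg n
  · rw [zpow_natCast]
    exact pow_mem hx m
  · rw [zpow_neg, zpow_natCast, ← inv_pow, ← hyx]
    exact pow_mem hy m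

theorem ua_prod_zpow_mem {ι : Type*} (s : Finset ι) (f g : ι → LaurentSeries 𝕂)
    (hf : ∀ i ∈ s, f i ∈ coeffRing A) (hg : ∀ i ∈ s, g i ∈ coeffRing A)
    (hfg : ∀ i ∈ s, f i * g i = 1) (r : ι → ℤ) :
    ∏ i ∈ s, f i ^ r i ∈ coeffRing A :=
  Subring.prod_mem _ fun i hi => ua_zpow_mem A (hf i hi) (hg i hi) (hfg i hi) (r i)

end CoeffRing

section Integral

variable {R F : Type*} [CommRing R] [Field F] [Algebra R F]

/-- integer powers of an element which is integral together with its inverse. -/
theorem ua_isIntegral_zpow {x : F} (hx : IsIntegral R x) (hx' : IsIntegral R x⁻¹) (n : ℤ) :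
    IsIntegral R (x ^ n) := by
  obtain ⟨m, rfl | rfl⟩ := Int.eq_nat_or_neg n
  · rw [zpow_natCast]
    exact hx.pow m
  · rw [zpow_neg, zpow_natCast, ← inv_pow]
    exact hx'.pow m

theorem ua_isIntegral_prod_zpow {ι : Type*} (s : Finset ι) (f : ι → F)
    (hf : ∀ i ∈ s, IsIntegral R (f i)) (hf' : ∀ i ∈ s, IsIntegral R (f i)⁻¹) (r : ι → ℤ) :
    IsIntegral R (∏ i ∈ s, f i ^ r i) :=
  IsIntegral.prod _ fun i hi => ua_isIntegral_zpow (hf i hi) (hf' i hi) (r i)

theorem ua_isIntegral_prod_zpow_inv {ι : Type*} (s : Finset ι) (f : ι → F)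
    (hf : ∀ i ∈ s, IsIntegral R (f i)) (hf' : ∀ i ∈ s, IsIntegral R (f i)⁻¹) (r : ι → ℤ) :
    IsIntegral R (∏ i ∈ s, f i ^ r i)⁻¹ := by
  rw [← Finset.prod_inv_distrib]
  refine IsIntegral.prod _ fun i hi => ?_
  rw [← zpow_neg]
  exact ua_isIntegral_zpow (hf i hi) (hf' i hi) _

end Integral

end Fermat.Agent.S28lib
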