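import Mathlib

/-!
# S28 piece U2: the combinatorics of the ONE modular unit

For `N = ∏ p^{s_p}` put, for `J ⊆ primeFactors N`, `p_J = ∏_{p ∈ J} p`, `r_J = (-1)^{|J|} ∏_{p ∉ J} p`
and `u = ∏_J u_{N/p_J}^{r_J}` with `u_d = Δ(dz)/Δ(z)`.  The conjugate of `u_d` at a coset with lower
left entry `c` has `t`-order (`t = q^{1/N}`) equal to `gcd(d,c)^2 * (N/d) - N`.  We prove
* `unitExp_sum`        : `∑_J r_J = ∏ (p - 1)`;
* `unitGcd_sum`        : `∑_J (-1)^{|J|} gcd(N/p_J, c)^2 = 0` if `N ∤ c`;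
* `unitOrd_sum`        : `∑_J r_J * (gcd(N/p_J,c)^2 * p_J - N) = - N * ∏ (p - 1)` if `N ∤ c`;
* `unitOrd_sum_neg`    : this is `< 0`.
-/

namespace Fermat.Agent.S28lib

open Finset

/-- `p_J = ∏_{p ∈ J} p`. -/
def unitP (J : Finset ℕ) : ℕ := ∏ p ∈ J, p

/-- the exponent `r_J = (-1)^{|J|} ∏_{p ∈ primeFactors N \ J} p` of `u_{N/p_J}`. -/
def unitExp (N : ℕ) (J : Finset ℕ) : ℤ :=
  (-1) ^ J.card * ∏ p ∈ N.primeFactors \ J, (p : ℤ)

/-- the `t`-order of the conjugate of `u_d = Δ(dz)/Δ(z)` at a coset with lower left entry `c`. -/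
def unitOrd (N d : ℕ) (c : ℤ) : ℤ :=
  ((Int.gcd (d : ℤ) c : ℕ) : ℤ) ^ 2 * ((N / d : ℕ) : ℤ) - (N : ℤ)

theorem unitP_insert {q : ℕ} {J : Finset ℕ} (hq : q ∉ J) : unitP (insert q J) = q * unitP J := by
  simp [unitP, Finset.prod_insert hq]

theorem unitP_dvd (N : ℕ) (_hN : N ≠ 0) {J : Finset ℕ} (hJ : J ⊆ N.primeFactors) : unitP J ∣ N := by
  have h1 : unitP J ∣ ∏ p ∈ N.primeFactors, p := Finset.prod_dvd_prod_of_subset _ _ _ hJ
  exact h1.trans (Nat.prod_primeFactors_dvd N)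

theorem unitP_pos {N : ℕ} {J : Finset ℕ} (hJ : J ⊆ N.primeFactors) : 0 < unitP J := by
  refine Finset.prod_pos fun p hp => ?_
  exact (Nat.prime_of_mem_primeFactors (hJ hp)).pos

/-- `∑_J (-1)^{|J|} ∏_{p ∈ P \ J} p = ∏_{p ∈ P} (p - 1)`. -/
theorem unitExp_sum_aux (P : Finset ℕ) :
    ∑ J ∈ P.powerset, (-1 : ℤ) ^ J.card * ∏ p ∈ P \ J, (p : ℤ) = ∏ p ∈ P, ((p : ℤ) - 1) := by
  classical
  have h := Finset.prod_add (fun p : ℕ => (p : ℤ)) (fun _ : ℕ => (-1 : ℤ)) P
  have h2 : ∏ p ∈ P, ((p : ℤ) - 1) = ∏ p ∈ P, ((p : ℤ) + (-1)) := by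
    refine Finset.prod_congr rfl fun p _ => by ring
  rw [h2, h]
  -- `prod_add` sums over `t ∈ powerset` the product `∏_{t} p * ∏_{P \ t} (-1)`; reindex `t ↦ P \ t`.
  refine Finset.sum_bij' (fun J _ => P \ J) (fun t _ => P \ t) ?_ ?_ ?_ ?_ ?_
  · intro J _
    exact Finset.mem_powerset.mpr Finset.sdiff_subset
  · intro t _
    exact Finset.mem_powerset.mpr Finset.sdiff_subset
  · intro J hJ
    exact Finset.sdiff_sdiff_eq_self (Finset.mem_powerset.mp hJ)
  · intro t ht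
    exact Finset.sdiff_sdiff_eq_self (Finset.mem_powerset.mp ht)
  · intro J hJ
    have hJ' := Finset.mem_powerset.mp hJ
    rw [Finset.sdiff_sdiff_eq_self hJ', Finset.prod_const, mul_comm]

theorem unitExp_sum (N : ℕ) :
    ∑ J ∈ N.primeFactors.powerset, unitExp N J = ∏ p ∈ N.primeFactors, ((p : ℤ) - 1) :=
  unitExp_sum_aux N.primeFactors

/-- the key cancellation: removing one more factor `q` does not change the gcd with `c`
if `q^{v_q(N)} ∤ c`. -/
theorem unit_gcd_div_eq {M q c : ℕ} (hq : q.Prime) (hM : M ≠ 0) (hqM : q ∣ M)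
    (hc : ¬ q ^ M.factorization q ∣ c) : Nat.gcd (M / q) c = Nat.gcd M c := by
  have hc0 : c ≠ 0 := by
    rintro rfl
    exact hc (dvd_zero _)
  have hMq : M / q ≠ 0 := by
    intro h
    rcases (Nat.div_eq_zero_iff).mp h with h' | h'
    · exact hq.ne_zero h'
    · exact absurd (Nat.le_of_dvd (Nat.pos_of_ne_zero hM) hqM) (not_le.mpr h')
  apply Nat.dvd_antisymm
  · exact Nat.dvd_gcd ((Nat.gcd_dvd_left _ _).trans (Nat.div_dvd_of_dvd hqM)) (Nat.gcd_dvd_right _ _)
  · refine Nat.dvd_gcd ?_ (Nat.gcd_dvd_right _ _)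
    have hg0 : Nat.gcd M c ≠ 0 := Nat.gcd_ne_zero_left hM
    rw [← Nat.factorization_le_iff_dvd hg0 hMq]
    intro p
    rw [Nat.factorization_gcd hM hc0, Nat.factorization_div hqM]
    simp only [Finsupp.inf_apply, Finsupp.coe_tsub, Pi.sub_apply]
    by_cases hpq : p = q
    · subst hpq
      rw [hq.factorization_self]
      have hlt : c.factorization p < M.factorization p := by
        by_contra hle
        exact hc ((hq.pow_dvd_iff_le_factorization hc0).mpr (not_lt.mp hle))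
      omega
    · rw [hq.factorization, Finsupp.single_apply, if_neg (Ne.symm hpq)]
      simp only [tsub_zero]
      exact min_le_left _ _

/-- for `J ⊆ primeFactors N` not containing `q`, the `q`-adic valuation of `N / p_J` is that of `N`. -/
theorem unit_factorization_div {N q : ℕ} (hN : N ≠ 0) (hq : q.Prime) {J : Finset ℕ}
    (hJ : J ⊆ N.primeFactors) (hqJ : q ∉ J) :
    (N / unitP J).factorization q = N.factorization q := by
  rw [Nat.factorization_div (unitP_dvd N hN hJ)]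
  simp only [Finsupp.coe_tsub, Pi.sub_apply]
  have : (unitP J).factorization q = 0 := by
    apply Nat.factorization_eq_zero_of_not_dvd
    intro hdvd
    rw [unitP, Prime.dvd_finsetProd_iff hq.prime] at hdvd
    obtain ⟨p, hp, hqp⟩ := hdvd
    have hp' := Nat.prime_of_mem_primeFactors (hJ hp)
    have : q = p := (Nat.prime_dvd_prime_iff_eq hq hp').mp hqp
    exact hqJ (this ▸ hp)
  omega

theorem unit_exists_prime {N c : ℕ} (hN : N ≠ 0) (hc : ¬ N ∣ c) :
    ∃ q ∈ N.primeFactors, ¬ q ^ N.factorization q ∣ c := by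
  have hc0 : c ≠ 0 := by
    rintro rfl
    exact hc (dvd_zero _)
  have h1 : ¬ N.factorization ≤ c.factorization := fun h =>
    hc ((Nat.factorization_le_iff_dvd hN hc0).mp h)
  rw [Finsupp.le_def] at h1
  simp only [not_forall, not_le] at h1
  obtain ⟨q, hq⟩ := h1
  have hqpos : 0 < N.factorization q := lt_of_le_of_lt (Nat.zero_le _) hq
  have hqP : q ∈ N.primeFactors := by
    rw [← Nat.support_factorization, Finsupp.mem_support_iff]
    exact hqpos.ne'
  refine ⟨q, hqP, fun hdvd => ?_⟩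
  have hqprime := Nat.prime_of_mem_primeFactors hqP
  have := (hqprime.pow_dvd_iff_le_factorization hc0).mp hdvd
  omega

theorem unitGcd_sum_nat (N : ℕ) (hN : N ≠ 0) (c : ℕ) (hc : ¬ N ∣ c) :
    ∑ J ∈ N.primeFactors.powerset,
      (-1 : ℤ) ^ J.card * ((Nat.gcd (N / unitP J) c : ℕ) : ℤ) ^ 2 = 0 := by
  classical
  obtain ⟨q, hqP, hqc⟩ := unit_exists_prime hN hc
  have hqprime := Nat.prime_of_mem_primeFactors hqP
  have hins : N.primeFactors = insert q (N.primeFactors.erase q) :=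
    (Finset.insert_erase hqP).symm
  have hnot : q ∉ N.primeFactors.erase q := Finset.notMem_erase q _
  rw [hins, Finset.sum_powerset_insert hnot, ← Finset.sum_add_distrib]
  refine Finset.sum_eq_zero fun J hJ => ?_
  have hJ' : J ⊆ N.primeFactors.erase q := Finset.mem_powerset.mp hJ
  have hJP : J ⊆ N.primeFactors := hJ'.trans (Finset.erase_subset _ _)
  have hqJ : q ∉ J := fun h => hnot (hJ' h)
  rw [Finset.card_insert_of_notMem hqJ, unitP_insert hqJ, pow_succ]
  have hM0 : N / unitP J ≠ 0 := by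
    intro h
    rcases (Nat.div_eq_zero_iff).mp h with h' | h'
    · exact (unitP_pos hJP).ne' h'
    · exact absurd (Nat.le_of_dvd (Nat.pos_of_ne_zero hN) (unitP_dvd N hN hJP)) (not_le.mpr h')
  have hfac := unit_factorization_div hN hqprime hJP hqJ
  have hqM : q ∣ N / unitP J := by
    have hpos : 0 < (N / unitP J).factorization q := by
      rw [hfac]
      exact hqprime.factorization_pos_of_dvd hN (Nat.dvd_of_mem_primeFactors hqP)
    exact Nat.dvd_of_factorization_pos hpos.ne'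
  have hkey : Nat.gcd (N / (q * unitP J)) c = Nat.gcd (N / unitP J) c := by
    rw [mul_comm, ← Nat.div_div_eq_div_mul]
    exact unit_gcd_div_eq hqprime hM0 hqM (by rw [hfac]; exact hqc)
  rw [hkey]
  ring

/-- **U2, gcd form**: `∑_J (-1)^{|J|} gcd(N/p_J, c)^2 = 0` if `N ∤ c`. -/
theorem unitGcd_sum (N : ℕ) (hN : N ≠ 0) (c : ℤ) (hc : ¬ (N : ℤ) ∣ c) :
    ∑ J ∈ N.primeFactors.powerset,
      (-1 : ℤ) ^ J.card * ((Int.gcd ((N / unitP J : ℕ) : ℤ) c : ℕ) : ℤ) ^ 2 = 0 := by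
  have hc' : ¬ N ∣ c.natAbs := fun h => hc (Int.natCast_dvd.mpr h)
  have := unitGcd_sum_nat N hN c.natAbs hc'
  have hgcd : ∀ J : Finset ℕ, Int.gcd ((N / unitP J : ℕ) : ℤ) c = Nat.gcd (N / unitP J) c.natAbs := by
    intro J
    rw [Int.gcd, Int.natAbs_natCast]
  simp only [hgcd]
  exact this

/-- `r_J * p_J = (-1)^{|J|} rad N`. -/
theorem unitExp_mul_unitP (N : ℕ) {J : Finset ℕ} (hJ : J ⊆ N.primeFactors) :
    unitExp N J * (unitP J : ℤ) = (-1) ^ J.card * ∏ p ∈ N.primeFactors, (p : ℤ) := by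
  classical
  rw [unitExp, unitP, mul_assoc]
  congr 1
  push_cast
  rw [Finset.prod_sdiff hJ]

theorem unit_div_div (N : ℕ) (hN : N ≠ 0) {J : Finset ℕ} (hJ : J ⊆ N.primeFactors) :
    N / (N / unitP J) = unitP J := by
  obtain ⟨k, hk⟩ := unitP_dvd N hN hJ
  have hpos := unitP_pos hJ
  have hk0 : 0 < k := by
    rcases Nat.eq_zero_or_pos k with h | h
    · subst h; simp at hk; exact absurd hk hN
    · exact h
  have h1 : N / unitP J = k := by rw [hk, Nat.mul_div_cancel_left k hpos]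
  rw [h1, hk, Nat.mul_div_cancel _ hk0]

/-- **U2**: the `t`-order of every conjugate of `u = ∏_J u_{N/p_J}^{r_J}` other than the identity
one is `- N ∏ (p - 1)`. -/
theorem unitOrd_sum (N : ℕ) (hN : N ≠ 0) (c : ℤ) (hc : ¬ (N : ℤ) ∣ c) :
    ∑ J ∈ N.primeFactors.powerset, unitExp N J * unitOrd N (N / unitP J) c =
      - ((N : ℤ) * ∏ p ∈ N.primeFactors, ((p : ℤ) - 1)) := by
  have h1 : ∀ J ∈ N.primeFactors.powerset, unitExp N J * unitOrd N (N / unitP J) c =
      (∏ p ∈ N.primeFactors, (p : ℤ)) *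
        ((-1 : ℤ) ^ J.card * ((Int.gcd ((N / unitP J : ℕ) : ℤ) c : ℕ) : ℤ) ^ 2) -
        (N : ℤ) * unitExp N J := by
    intro J hJ
    have hJ' := Finset.mem_powerset.mp hJ
    rw [unitOrd, unit_div_div N hN hJ']
    have := unitExp_mul_unitP N hJ'
    linear_combination (((Int.gcd ((N / unitP J : ℕ) : ℤ) c : ℕ) : ℤ) ^ 2) * this
  rw [Finset.sum_congr rfl h1, Finset.sum_sub_distrib, ← Finset.mul_sum, ← Finset.mul_sum,
    unitGcd_sum N hN c hc, unitExp_sum]
  ring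

theorem unit_prod_pos (N : ℕ) : 0 < ∏ p ∈ N.primeFactors, ((p : ℤ) - 1) := by
  refine Finset.prod_pos fun p hp => ?_
  have := (Nat.prime_of_mem_primeFactors hp).two_le
  omega

/-- **U2**: negativity. -/
theorem unitOrd_sum_neg (N : ℕ) (hN : N ≠ 0) (c : ℤ) (hc : ¬ (N : ℤ) ∣ c) :
    ∑ J ∈ N.primeFactors.powerset, unitExp N J * unitOrd N (N / unitP J) c < 0 := by
  rw [unitOrd_sum N hN c hc, neg_lt_zero]
  have hNpos : (0 : ℤ) < N := by exact_mod_cast Nat.pos_of_ne_zero hN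
  exact mul_pos hNpos (unit_prod_pos N)

end Fermat.Agent.S28lib
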