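/-
S28 library, piece U (helper17): the formal modular unit `Δ(q^d)/Δ(q) ∈ ℚ((q))`.
Definitions and basic formal identities only; no sorry.
-/
import Mathlib
import Fermat.Prelude.Def_ModularCurve_X0

set_option autoImplicit false

open ModularCurve

namespace Fermat.Agent.S28lib

noncomputable section

/-- the formal discriminant `q ∏ (1 - q^n)^24 ∈ ℤ[[q]]`. -/
def deltaPS : PowerSeries ℤ := PowerSeries.X * dedekindEtaUnit

/-- the formal discriminant as a Laurent series over `ℚ`. -/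
def deltaQ : LaurentSeries ℚ :=
  HahnSeries.ofPowerSeries ℤ ℚ (deltaPS.map (Int.castRingHom ℚ))

/-- the formal Eisenstein series `E₄` as a Laurent series over `ℚ`. -/
def e4Q : LaurentSeries ℚ :=
  HahnSeries.ofPowerSeries ℤ ℚ (eisenstein4.map (Int.castRingHom ℚ))

/-- the formal modular unit `Δ(q^d)/Δ(q)`. -/
def udq (d : ℕ) [NeZero d] : LaurentSeries ℚ := qExpand ℚ d deltaQ / deltaQ

theorem deltaQ_eq : deltaQ = HahnSeries.single (1 : ℤ) (1 : ℚ) *
    HahnSeries.ofPowerSeries ℤ ℚ (dedekindEtaUnit.map (Int.castRingHom ℚ)) := by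
  rw [deltaQ, deltaPS, map_mul, map_mul, PowerSeries.map_X, HahnSeries.ofPowerSeries_X]

theorem deltaQ_ne_zero : deltaQ ≠ 0 := by
  rw [deltaQ]
  intro h
  have h1 : deltaPS.map (Int.castRingHom ℚ) = 0 :=
    HahnSeries.ofPowerSeries_injective (by rw [h, map_zero])
  have h2 := congrArg (PowerSeries.coeff 1) h1
  rw [PowerSeries.coeff_map, deltaPS] at h2
  have h3 : PowerSeries.coeff 1 (PowerSeries.X * dedekindEtaUnit) = 1 := by
    rw [show (1 : ℕ) = 0 + 1 from rfl, PowerSeries.coeff_succ_X_mul,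
      PowerSeries.coeff_zero_eq_constantCoeff_apply, constantCoeff_dedekindEtaUnit]
  rw [h3] at h2
  simp at h2

/-- `j · Δ = E₄³` formally. -/
theorem jq_mul_deltaQ : jq * deltaQ = e4Q ^ 3 := by
  rw [jq, deltaQ_eq, e4Q, ← map_pow, jNumQ, jNum]
  have h1 : (HahnSeries.single (-1 : ℤ) (1 : ℚ)) * HahnSeries.single (1 : ℤ) (1 : ℚ) = 1 := by
    rw [HahnSeries.single_mul_single]
    simp
  have h2 : HahnSeries.ofPowerSeries ℤ ℚ
        ((eisenstein4 ^ 3 * dedekindEtaUnitInv).map (Int.castRingHom ℚ)) *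
      HahnSeries.ofPowerSeries ℤ ℚ (dedekindEtaUnit.map (Int.castRingHom ℚ)) =
      HahnSeries.ofPowerSeries ℤ ℚ ((eisenstein4.map (Int.castRingHom ℚ)) ^ 3) := by
    rw [← map_mul, ← map_mul, mul_assoc, mul_comm dedekindEtaUnitInv, dedekindEtaUnit_mul_inv,
      mul_one, map_pow]
  calc HahnSeries.single (-1 : ℤ) (1 : ℚ) *
        HahnSeries.ofPowerSeries ℤ ℚ ((eisenstein4 ^ 3 * dedekindEtaUnitInv).map (Int.castRingHom ℚ)) *
        (HahnSeries.single (1 : ℤ) (1 : ℚ) *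
          HahnSeries.ofPowerSeries ℤ ℚ (dedekindEtaUnit.map (Int.castRingHom ℚ)))
      = (HahnSeries.single (-1 : ℤ) (1 : ℚ) * HahnSeries.single (1 : ℤ) (1 : ℚ)) *
        (HahnSeries.ofPowerSeries ℤ ℚ
            ((eisenstein4 ^ 3 * dedekindEtaUnitInv).map (Int.castRingHom ℚ)) *
          HahnSeries.ofPowerSeries ℤ ℚ (dedekindEtaUnit.map (Int.castRingHom ℚ))) := by ring
    _ = _ := by rw [h1, h2, one_mul]

theorem udq_ne_zero (d : ℕ) [NeZero d] : udq d ≠ 0 := by
  rw [udq]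
  refine div_ne_zero ?_ deltaQ_ne_zero
  intro h
  exact deltaQ_ne_zero (qExpand_injective (R := ℚ) d (by rw [h, map_zero]))

theorem udq_mul_deltaQ (d : ℕ) [NeZero d] : udq d * deltaQ = qExpand ℚ d deltaQ := by
  rw [udq, div_mul_cancel₀ _ deltaQ_ne_zero]

end

end Fermat.Agent.S28lib
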