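/-
S28 library, piece U1 (helper13), part 1: the modular units `u_d(z) = Δ(dz)/Δ(z)` as weakly
holomorphic modular functions of level `Γ(N)` (`d ∣ N`), with their inverses, `Γ₀(N)`-invariance,
and the formula for all conjugates `u_d(g z) = δ⁻¹² Δ((a z + b)/δ)/Δ(z)`.
No sorry in this file.
-/
import Mathlib
import Fermat.Agent.S24lib.ConjWH

set_option autoImplicit false

open UpperHalfPlane ModularForm CongruenceSubgroup EisensteinSeries Filter Asymptotics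
open scoped MatrixGroups ModularForm Manifold Topology

namespace Fermat.Agent.S28lib

open Fermat.Agent.S24lib Fermat.Agent.S20lib

/-- `Δ(g z) = Δ(z) (c z + d)^12`. -/
lemma uw_discriminant_smul (g : SL(2, ℤ)) (z : ℍ) :
    discriminant (g • z) = discriminant z * denom g z ^ (12 : ℕ) := by
  have h12 := isCF_discriminant.inv g trivial
  have e12 := congrFun h12 z
  rw [SL_slash_apply] at e12
  have hd : denom g z ≠ 0 := denom_ne_zero g z
  rw [← e12, mul_assoc, ← zpow_natCast (denom (g : GL (Fin 2) ℝ) z) 12, ← zpow_add₀ hd]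
  simp

/-- **Hermite normal form** of `diag(d,1) · g` with the `gcd` and the automorphy factors. -/
theorem uw_hermite (d : ℕ) [NeZero d] (g : SL(2, ℤ)) :
    ∃ (γ' : SL(2, ℤ)) (a δ : ℕ) (b : ℤ) (ha : 0 < a) (hδ : 0 < δ),
      a * δ = d ∧ a = Int.gcd (d : ℤ) (g 1 0) ∧ 0 ≤ b ∧ b < δ ∧
      ∀ z : ℍ, nmulH d (g • z) = γ' • affH a δ b ha hδ z ∧
        denom γ' (affH a δ b ha hδ z) * (δ : ℂ) = denom g z := by
  have hgdet : g 0 0 * g 1 1 - g 0 1 * g 1 0 = 1 := by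
    have := g.det_coe
    rw [Matrix.det_fin_two] at this
    exact this
  have hd : (0 : ℤ) < d := by exact_mod_cast Nat.pos_of_ne_zero (NeZero.ne d)
  obtain ⟨p, q, r, s, a, δ, b, hdet, ha, hδ, haδ, hb0, hb1, e00, e01, e10, e11⟩ :=
    conj_hermite_int d hd (g 0 0) (g 0 1) (g 1 0) (g 1 1) hgdet
  lift a to ℕ using ha.le
  lift δ to ℕ using hδ.le
  have ha' : 0 < a := by exact_mod_cast ha
  have hδ' : 0 < δ := by exact_mod_cast hδ
  let γ' : SL(2, ℤ) := ⟨!![p, q; r, s], by rw [Matrix.det_fin_two_of]; exact hdet⟩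
  have hgcd : a = Int.gcd (d : ℤ) (g 1 0) := by
    apply Nat.dvd_antisymm
    · have h1 : (a : ℤ) ∣ (d : ℤ) := ⟨δ, haδ.symm⟩
      have h2 : (a : ℤ) ∣ g 1 0 := ⟨r, by rw [e10]; ring⟩
      exact Int.natCast_dvd_natCast.1 (Int.dvd_coe_gcd h1 h2)
    · have h1 : ((Int.gcd (d : ℤ) (g 1 0) : ℕ) : ℤ) ∣ (d : ℤ) := Int.gcd_dvd_left _ _
      have h2 : ((Int.gcd (d : ℤ) (g 1 0) : ℕ) : ℤ) ∣ g 1 0 := Int.gcd_dvd_right _ _
      have h3 : (a : ℤ) = (d * g 0 0) * s - q * g 1 0 := by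
        rw [e00, e10]
        linear_combination (-(a : ℤ)) * hdet
      have h4 : ((Int.gcd (d : ℤ) (g 1 0) : ℕ) : ℤ) ∣ (a : ℤ) := by
        rw [h3]
        exact dvd_sub (Dvd.dvd.mul_right (Dvd.dvd.mul_right h1 _) _) (Dvd.dvd.mul_left h2 _)
      exact Int.natCast_dvd_natCast.1 h4
  refine ⟨γ', a, δ, b, ha', hδ', by exact_mod_cast haδ, hgcd, hb0, hb1, fun z => ⟨?_, ?_⟩⟩
  · apply UpperHalfPlane.ext
    rw [coe_nmulH, UpperHalfPlane.coe_specialLinearGroup_apply,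
      UpperHalfPlane.coe_specialLinearGroup_apply, coe_affH]
    simp only [algebraMap_int_eq, eq_intCast, Complex.ofReal_intCast]
    have hγ00 : γ' 0 0 = p := rfl
    have hγ01 : γ' 0 1 = q := rfl
    have hγ10 : γ' 1 0 = r := rfl
    have hγ11 : γ' 1 1 = s := rfl
    rw [hγ00, hγ01, hγ10, hγ11]
    have hδC : (δ : ℂ) ≠ 0 := by exact_mod_cast hδ'.ne'
    have hden1 : ((g 1 0 : ℤ) : ℂ) * (z : ℂ) + ((g 1 1 : ℤ) : ℂ) ≠ 0 :=
      dist_lin_ne_zero (g 1 0) (g 1 1) (by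
        by_contra hcon
        rw [not_or, not_not, not_not] at hcon
        rw [hcon.1, hcon.2] at hgdet
        simp at hgdet) z
    have hden2 : ((r : ℤ) : ℂ) * (((a : ℂ) * (z : ℂ) + (b : ℂ)) / (δ : ℂ)) + ((s : ℤ) : ℂ) ≠ 0 := by
      have := dist_lin_ne_zero r s (by
        by_contra hcon
        rw [not_or, not_not, not_not] at hcon
        rw [hcon.1, hcon.2] at hdet
        simp at hdet) (affH a δ b ha' hδ' z)
      simpa using this
    have E00 : ((d : ℂ)) * ((g 0 0 : ℤ) : ℂ) = (p : ℂ) * (a : ℂ) := by exact_mod_cast e00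
    have E01 : ((d : ℂ)) * ((g 0 1 : ℤ) : ℂ) = (p : ℂ) * (b : ℂ) + (q : ℂ) * (δ : ℂ) := by
      exact_mod_cast e01
    have E10 : ((g 1 0 : ℤ) : ℂ) = (r : ℂ) * (a : ℂ) := by exact_mod_cast e10
    have E11 : ((g 1 1 : ℤ) : ℂ) = (r : ℂ) * (b : ℂ) + (s : ℂ) * (δ : ℂ) := by exact_mod_cast e11
    rw [mul_div_assoc', div_eq_div_iff hden1 hden2]
    field_simp
    rw [E10, E11]
    linear_combination ((r : ℂ) * ((a : ℂ) * (z : ℂ) + (b : ℂ)) + (s : ℂ) * (δ : ℂ)) *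
      ((z : ℂ) * E00 + E01)
  · rw [ModularGroup.denom_apply, ModularGroup.denom_apply, coe_affH]
    have hγ10 : γ' 1 0 = r := rfl
    have hγ11 : γ' 1 1 = s := rfl
    rw [hγ10, hγ11]
    have hδC : (δ : ℂ) ≠ 0 := by exact_mod_cast hδ'.ne'
    have E10 : ((g 1 0 : ℤ) : ℂ) = (r : ℂ) * (a : ℂ) := by exact_mod_cast e10
    have E11 : ((g 1 1 : ℤ) : ℂ) = (r : ℂ) * (b : ℂ) + (s : ℂ) * (δ : ℂ) := by exact_mod_cast e11
    rw [E10, E11]
    field_simp
    ring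

/-- `Δ(d z)` as a function on `ℍ`. -/
noncomputable def deltaD (d : ℕ) [NeZero d] : ℍ → ℂ := fun z => discriminant (nmulH d z)

/-- `u_d(z) = Δ(d z)/Δ(z)`. -/
noncomputable def uH (d : ℕ) : ℍ → ℂ :=
  fun z => discriminant (ofComplex ((d : ℂ) * (z : ℂ))) / discriminant z

lemma uH_eq (d : ℕ) [NeZero d] (z : ℍ) : uH d z = discriminant (nmulH d z) / discriminant z := by
  unfold uH
  rw [ofComplex_natCast_mul]

lemma uH_ne_zero (d : ℕ) (z : ℍ) : uH d z ≠ 0 :=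
  div_ne_zero (discriminant_ne_zero _) (discriminant_ne_zero _)

lemma uH_mul_discriminant (d : ℕ) [NeZero d] : uH d * discriminant = deltaD d := by
  funext z
  simp only [Pi.mul_apply, uH_eq, deltaD]
  rw [div_mul_cancel₀ _ (discriminant_ne_zero z)]

/-- **Conjugates of `u_d`.** `u_d(g z) = δ⁻¹² Δ((a z + b)/δ)/Δ(z)`, `a = gcd(d, c)`, `a δ = d`. -/
theorem uH_smul (d : ℕ) [NeZero d] (g : SL(2, ℤ)) :
    ∃ (a δ : ℕ) (b : ℤ) (ha : 0 < a) (hδ : 0 < δ),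
      a * δ = d ∧ a = Int.gcd (d : ℤ) (g 1 0) ∧ 0 ≤ b ∧ b < δ ∧
      ∀ z : ℍ, uH d (g • z) =
        ((δ : ℂ) ^ 12)⁻¹ * discriminant (affH a δ b ha hδ z) / discriminant z := by
  obtain ⟨γ', a, δ, b, ha, hδ, haδ, hgcd, hb0, hb1, h⟩ := uw_hermite d g
  refine ⟨a, δ, b, ha, hδ, haδ, hgcd, hb0, hb1, fun z => ?_⟩
  obtain ⟨h1, h2⟩ := h z
  have hδC : (δ : ℂ) ≠ 0 := by exact_mod_cast hδ.ne'
  have hden : denom γ' (affH a δ b ha hδ z) ≠ 0 := denom_ne_zero γ' _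
  rw [uH_eq, h1, uw_discriminant_smul, uw_discriminant_smul g z, ← h2, mul_pow]
  field_simp [discriminant_ne_zero z]

/-- `u_d` is `Γ₀(d)`-invariant. -/
theorem uH_smul_of_dvd (d : ℕ) [NeZero d] (g : SL(2, ℤ)) (hg : (d : ℤ) ∣ g 1 0) (z : ℍ) :
    uH d (g • z) = uH d z := by
  obtain ⟨a, δ, b, ha, hδ, haδ, hgcd, hb0, hb1, h⟩ := uH_smul d g
  have hd0 : 0 < d := Nat.pos_of_ne_zero (NeZero.ne d)
  have ha_eq : a = d := by
    rw [hgcd]
    have h1 : ((Int.gcd (d : ℤ) (g 1 0) : ℕ) : ℤ) = (d : ℤ) :=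
      (Int.gcd_eq_left_iff_dvd (by exact_mod_cast hd0.le)).2 hg
    exact_mod_cast h1
  have hδ1 : δ = 1 := by
    rw [ha_eq] at haδ
    exact Nat.eq_of_mul_eq_mul_left hd0 (by rw [haδ, mul_one])
  subst ha_eq
  subst hδ1
  have hb : b = 0 := by
    have : b < 1 := by exact_mod_cast hb1
    omega
  subst hb
  rw [h z, uH_eq]
  have e : affH a 1 0 ha hδ z = nmulH a z := by
    apply UpperHalfPlane.ext
    rw [coe_affH, coe_nmulH]
    simp
  rw [e]
  simp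

/-! ### Holomorphy -/

lemma deltaD_mdiff (d : ℕ) [NeZero d] : MDiff (deltaD d) := by
  have hj : MDiff (discriminant : ℍ → ℂ) := isCF_discriminant.holo
  rw [UpperHalfPlane.mdifferentiable_iff] at hj ⊢
  have hd : (0 : ℝ) < d := Nat.cast_pos.mpr (Nat.pos_of_ne_zero (NeZero.ne d))
  have hmaps : Set.MapsTo (fun w : ℂ => (d : ℂ) * w) {w : ℂ | 0 < w.im} {w : ℂ | 0 < w.im} := by
    intro w hw
    simp only [Set.mem_ofPred_eq] at hw ⊢
    have : ((d : ℂ) * w).im = d * w.im := by simp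
    rw [this]
    exact mul_pos hd hw
  have hcomp : DifferentiableOn ℂ ((discriminant ∘ ofComplex) ∘ fun w : ℂ => (d : ℂ) * w)
      {w : ℂ | 0 < w.im} :=
    hj.comp (by fun_prop) hmaps
  refine hcomp.congr fun w hw => ?_
  simp only [Function.comp_apply, deltaD]
  rw [ofComplex_apply_of_im_pos hw]
  congr 1
  apply UpperHalfPlane.ext
  rw [coe_nmulH]
  have hw' : (0 : ℝ) < ((d : ℂ) * w).im := hmaps hw
  rw [ofComplex_apply_of_im_pos hw']

lemma uH_mdiff (d : ℕ) [NeZero d] : MDiff (uH d) := by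
  have h := (deltaD_mdiff d).div (isCF_discriminant.holo) (fun z => discriminant_ne_zero z)
  have e : uH d = fun z => deltaD d z / discriminant z := by
    funext z
    rw [uH_eq]
    rfl
  rw [e]
  exact h

/-! ### Invariance -/

lemma uw_dvd_of_mem_Gamma0 {N d : ℕ} (hd : d ∣ N) {γ : SL(2, ℤ)} (hγ : γ ∈ Gamma0 N) :
    (d : ℤ) ∣ γ 1 0 := by
  rw [Gamma0_mem] at hγ
  have hN : (N : ℤ) ∣ γ 1 0 := (ZMod.intCast_zmod_eq_zero_iff_dvd _ _).mp hγ
  exact (Int.natCast_dvd_natCast.2 hd).trans hN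

lemma uH_slash_of_mem_Gamma0 {N d : ℕ} [NeZero d] (hd : d ∣ N) {γ : SL(2, ℤ)}
    (hγ : γ ∈ Gamma0 N) : (uH d) ∣[(0 : ℤ)] γ = uH d := by
  funext z
  rw [wh_slash_zero_apply]
  exact uH_smul_of_dvd d γ (uw_dvd_of_mem_Gamma0 hd hγ) z

lemma uw_Gamma_le_Gamma0 (N : ℕ) : Gamma N ≤ Gamma0 N := by
  intro γ hγ
  rw [Gamma_mem] at hγ
  rw [Gamma0_mem]
  exact hγ.2.2.1

/-! ### Boundedness at the cusps -/

lemma uw_discriminant_bdd : IsBoundedAtImInfty (discriminant : ℍ → ℂ) := by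
  have := isCF_discriminant.isMF.bdd 1
  simpa using this

/-- `z ↦ Δ((a z + b)/δ)⁻¹ Δ(z)^k` is bounded at `i∞` as soon as `a ≤ k δ`. -/
theorem uw_isBounded_inv_mul (a δ : ℕ) (b : ℤ) (ha : 0 < a) (hδ : 0 < δ) (k : ℕ)
    (hk : a ≤ k * δ) :
    IsBoundedAtImInfty (fun z : ℍ => (discriminant (affH a δ b ha hδ z))⁻¹ * discriminant z ^ k) := by
  have hw := tendsto_affH a δ b ha hδ
  have h2 : (fun z : ℍ => (discriminant (affH a δ b ha hδ z))⁻¹) =O[atImInfty]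
      (fun z : ℍ => (Real.exp (-2 * Real.pi * (affH a δ b ha hδ z).im))⁻¹) := by
    have h := (exp_isBigO_discriminant.comp_tendsto hw)
    exact h.inv_rev (Eventually.of_forall fun z hz => absurd hz (Real.exp_pos _).ne')
  have h3 : (fun z : ℍ => discriminant z ^ k) =O[atImInfty]
      (fun z : ℍ => Real.exp (-2 * Real.pi * z.im) ^ k) := by
    have h : (discriminant : ℍ → ℂ) =O[atImInfty] fun τ : ℍ => Real.exp (-2 * Real.pi * τ.im / 1) :=
      CuspFormClass.exp_decay_atImInfty (h := 1) CuspForm.discriminant one_pos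
        one_mem_strictPeriods_SL
    have h' : (discriminant : ℍ → ℂ) =O[atImInfty] fun τ : ℍ => Real.exp (-2 * Real.pi * τ.im) := by
      simpa using h
    exact h'.pow k
  have hprod := h2.mul h3
  rw [IsBoundedAtImInfty, BoundedAtFilter]
  refine hprod.trans ?_
  refine IsBigO.of_bound 1 ?_
  unfold atImInfty
  rw [eventually_comap]
  filter_upwards [eventually_ge_atTop (0 : ℝ)] with y hy z hz
  rw [im_affH]
  simp only [Pi.one_apply, norm_one, mul_one]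
  rw [← Real.exp_neg, ← Real.exp_nat_mul, ← Real.exp_add, Real.norm_eq_abs,
    abs_of_pos (Real.exp_pos _)]
  rw [Real.exp_le_one_iff]
  have hδ' : (0 : ℝ) < δ := Nat.cast_pos.mpr hδ
  have hk' : (a : ℝ) ≤ k * δ := by exact_mod_cast hk
  have h5 : (a : ℝ) / δ ≤ k := by rw [div_le_iff₀ hδ']; exact hk'
  have hy' : 0 ≤ z.im := z.im_pos.le
  have hpi : 0 < Real.pi := Real.pi_pos
  have : -(-2 * Real.pi * ((a : ℝ) / δ * z.im)) + (k : ℝ) * (-2 * Real.pi * z.im)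
      = -2 * Real.pi * z.im * ((k : ℝ) - (a : ℝ) / δ) := by ring
  rw [this]
  have h6 : 0 ≤ (k : ℝ) - (a : ℝ) / δ := by linarith
  have h7 : 0 ≤ 2 * Real.pi * z.im * ((k : ℝ) - (a : ℝ) / δ) := by positivity
  linarith

/-- `z ↦ Δ((a z + b)/δ)` is bounded at `i∞`. -/
lemma uw_isBounded_comp (a δ : ℕ) (b : ℤ) (ha : 0 < a) (hδ : 0 < δ) :
    IsBoundedAtImInfty (fun z : ℍ => discriminant (affH a δ b ha hδ z)) :=
  uw_discriminant_bdd.comp_tendsto (tendsto_affH a δ b ha hδ)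

/-! ### `Δ(d z)` is a modular form of weight 12 and level `Γ(N)` -/

lemma uw_slash_zero_mul_discriminant_pow (f : ℍ → ℂ) (k : ℕ) (g : SL(2, ℤ)) :
    (f * discriminant ^ k) ∣[12 * (k : ℤ)] g = f ∣[(0 : ℤ)] g * discriminant ^ k := by
  have := mul_slash_SL2 0 (12 * (k : ℤ)) g f (discriminant ^ k)
  rw [zero_add] at this
  rw [this, wh_discriminant_pow_slash]

/-- `u_d Δ^k` slashed by `g`. -/
lemma uw_uH_slash (d : ℕ) [NeZero d] (g : SL(2, ℤ)) :
    ∃ (a δ : ℕ) (b : ℤ) (ha : 0 < a) (hδ : 0 < δ),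
      a * δ = d ∧ a = Int.gcd (d : ℤ) (g 1 0) ∧ 0 ≤ b ∧ b < δ ∧
      (uH d) ∣[(0 : ℤ)] g =
        fun z => ((δ : ℂ) ^ 12)⁻¹ * discriminant (affH a δ b ha hδ z) / discriminant z := by
  obtain ⟨a, δ, b, ha, hδ, haδ, hgcd, hb0, hb1, h⟩ := uH_smul d g
  refine ⟨a, δ, b, ha, hδ, haδ, hgcd, hb0, hb1, ?_⟩
  funext z
  rw [wh_slash_zero_apply, h z]

theorem isMF_deltaD {N d : ℕ} [NeZero d] (hd : d ∣ N) : IsMF (Gamma N) 12 (deltaD d) where
  holo := deltaD_mdiff d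
  inv := fun γ hγ => by
    have h1 := uw_slash_zero_mul_discriminant_pow (uH d) 1 γ
    rw [pow_one, uH_mul_discriminant, uH_slash_of_mem_Gamma0 hd (uw_Gamma_le_Gamma0 N hγ),
      uH_mul_discriminant] at h1
    simpa using h1
  bdd := fun g => by
    have h1 := uw_slash_zero_mul_discriminant_pow (uH d) 1 g
    rw [pow_one, uH_mul_discriminant] at h1
    have h1' : (deltaD d) ∣[(12 : ℤ)] g = (uH d) ∣[(0 : ℤ)] g * discriminant := by
      simpa using h1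
    obtain ⟨a, δ, b, ha, hδ, -, -, -, -, h2⟩ := uw_uH_slash d g
    rw [h1', h2]
    have e : ((fun z => ((δ : ℂ) ^ 12)⁻¹ * discriminant (affH a δ b ha hδ z) / discriminant z) *
        discriminant : ℍ → ℂ) =
        fun z => ((δ : ℂ) ^ 12)⁻¹ * discriminant (affH a δ b ha hδ z) := by
      funext z
      simp only [Pi.mul_apply]
      rw [div_mul_cancel₀ _ (discriminant_ne_zero z)]
    rw [e]
    exact (uw_isBounded_comp a δ b ha hδ).const_mul_left _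

/-- `u_d` is weakly holomorphic of level `Γ(N)`. -/
theorem isWH_uH {N d : ℕ} [NeZero N] (hd : d ∣ N) : IsWH N (uH d) := by
  have : NeZero d := ⟨fun h => by rw [h, zero_dvd_iff] at hd; exact NeZero.ne N hd⟩
  refine ⟨1, ?_⟩
  rw [pow_one, uH_mul_discriminant]
  simpa using isMF_deltaD (N := N) hd

/-- `u_d⁻¹` is weakly holomorphic of level `Γ(N)`. -/
theorem isWH_uH_inv {N d : ℕ} [NeZero N] (hd : d ∣ N) : IsWH N (fun z => (uH d z)⁻¹) := by
  have : NeZero d := ⟨fun h => by rw [h, zero_dvd_iff] at hd; exact NeZero.ne N hd⟩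
  have hinvfun : ∀ g : SL(2, ℤ), (fun z => (uH d z)⁻¹) ∣[(0 : ℤ)] g =
      fun z => ((uH d ∣[(0 : ℤ)] g) z)⁻¹ := by
    intro g
    funext z
    rw [wh_slash_zero_apply, wh_slash_zero_apply]
  refine ⟨d, ?_, ?_, ?_⟩
  · have h := ((isCF_discriminant.holo).pow d).div (uH_mdiff d) (fun z => uH_ne_zero d z)
    have e : ((fun z => (uH d z)⁻¹) * discriminant ^ d : ℍ → ℂ) =
        fun z => (discriminant ^ d) z / uH d z := by
      funext z
      simp only [Pi.mul_apply, Pi.pow_apply]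
      rw [div_eq_mul_inv, mul_comm]
    rw [e]
    exact h
  · intro γ hγ
    rw [uw_slash_zero_mul_discriminant_pow, hinvfun,
      uH_slash_of_mem_Gamma0 hd (uw_Gamma_le_Gamma0 N hγ)]
  · intro g
    rw [uw_slash_zero_mul_discriminant_pow, hinvfun]
    obtain ⟨a, δ, b, ha, hδ, haδ, -, -, -, h2⟩ := uw_uH_slash d g
    rw [h2]
    have e : ((fun z => (((δ : ℂ) ^ 12)⁻¹ * discriminant (affH a δ b ha hδ z) /
        discriminant z)⁻¹) * discriminant ^ d : ℍ → ℂ) =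
        fun z => ((δ : ℂ) ^ 12) * ((discriminant (affH a δ b ha hδ z))⁻¹ *
          discriminant z ^ (d + 1)) := by
      funext z
      simp only [Pi.mul_apply, Pi.pow_apply]
      have h1 := discriminant_ne_zero z
      have h3 := discriminant_ne_zero (affH a δ b ha hδ z)
      have hδC : (δ : ℂ) ≠ 0 := by exact_mod_cast hδ.ne'
      field_simp
      ring
    rw [e]
    refine (uw_isBounded_inv_mul a δ b ha hδ (d + 1) ?_).const_mul_left _
    have h3 : a ≤ d := by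
      rw [← haδ]
      exact Nat.le_mul_of_pos_right a hδ
    calc a ≤ d := h3
      _ ≤ (d + 1) * 1 := by omega
      _ ≤ (d + 1) * δ := Nat.mul_le_mul_left _ hδ

/-! ### The elements of `WH N` -/

/-- `u_d` as an element of `WH N`. -/
noncomputable def uWH (N d : ℕ) [NeZero N] (hd : d ∣ N) : WH N := ⟨uH d, isWH_uH hd⟩

/-- `u_d⁻¹` as an element of `WH N`. -/
noncomputable def uWHinv (N d : ℕ) [NeZero N] (hd : d ∣ N) : WH N :=
  ⟨fun z => (uH d z)⁻¹, isWH_uH_inv hd⟩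

@[simp] lemma coe_uWH (N d : ℕ) [NeZero N] (hd : d ∣ N) :
    ((uWH N d hd : WH N) : ℍ → ℂ) = uH d := rfl

@[simp] lemma coe_uWHinv (N d : ℕ) [NeZero N] (hd : d ∣ N) :
    ((uWHinv N d hd : WH N) : ℍ → ℂ) = fun z => (uH d z)⁻¹ := rfl

theorem uWH_mul_uWHinv (N d : ℕ) [NeZero N] (hd : d ∣ N) : uWH N d hd * uWHinv N d hd = 1 := by
  ext z
  show uH d z * (uH d z)⁻¹ = 1
  exact mul_inv_cancel₀ (uH_ne_zero d z)

theorem smul_uWH {N d : ℕ} [NeZero N] (hd : d ∣ N) (γ : SL(2, ℤ)) (hγ : γ ∈ Gamma0 N) :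
    γ • uWH N d hd = uWH N d hd := by
  have : NeZero d := ⟨fun h => by rw [h, zero_dvd_iff] at hd; exact NeZero.ne N hd⟩
  ext z
  rw [wh_smul_apply, coe_uWH]
  exact uH_smul_of_dvd d γ⁻¹ (uw_dvd_of_mem_Gamma0 hd (inv_mem hγ)) z

theorem smul_uWHinv {N d : ℕ} [NeZero N] (hd : d ∣ N) (γ : SL(2, ℤ)) (hγ : γ ∈ Gamma0 N) :
    γ • uWHinv N d hd = uWHinv N d hd := by
  have : NeZero d := ⟨fun h => by rw [h, zero_dvd_iff] at hd; exact NeZero.ne N hd⟩
  ext z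
  rw [wh_smul_apply, coe_uWHinv]
  show (uH d (γ⁻¹ • z))⁻¹ = (uH d z)⁻¹
  rw [uH_smul_of_dvd d γ⁻¹ (uw_dvd_of_mem_Gamma0 hd (inv_mem hγ)) z]

theorem smul_uWH_mul_smul_uWHinv (N d : ℕ) [NeZero N] (hd : d ∣ N) (g : SL(2, ℤ)) :
    (g • uWH N d hd) * (g • uWHinv N d hd) = 1 := by
  rw [← smul_mul', uWH_mul_uWHinv, smul_one]

/-- The conjugates of `u_d`, as functions. -/
theorem smul_uWH_apply (N d : ℕ) [NeZero N] [NeZero d] (hd : d ∣ N) (g : SL(2, ℤ)) :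
    ∃ (a δ : ℕ) (b : ℤ) (ha : 0 < a) (hδ : 0 < δ),
      a * δ = d ∧ a = Int.gcd (d : ℤ) ((g⁻¹ : SL(2, ℤ)) 1 0) ∧ 0 ≤ b ∧ b < δ ∧
      ∀ z : ℍ, ((g • uWH N d hd : WH N) : ℍ → ℂ) z =
        ((δ : ℂ) ^ 12)⁻¹ * discriminant (affH a δ b ha hδ z) / discriminant z := by
  obtain ⟨a, δ, b, ha, hδ, haδ, hgcd, hb0, hb1, h⟩ := uH_smul d g⁻¹
  refine ⟨a, δ, b, ha, hδ, haδ, hgcd, hb0, hb1, fun z => ?_⟩
  rw [wh_smul_apply, coe_uWH]
  exact h z

end Fermat.Agent.S28lib
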