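/-
S28 library, piece U4 (helper17): assembly of the modular unit
`u = ∏_{J ⊆ primeFactors N} u_{N/p_J}^{r_J}` from the analytic input (U1), the membership (U3)
and the integrality (U4-int), all taken as hypotheses here.  No sorry.
-/
import Mathlib
import Fermat.Agent.S28lib.UnitAsm
import Fermat.Agent.S28lib.UnitComb
import Fermat.Agent.S28lib.UnitDefs
import Fermat.Agent.S28lib.UnitWH
import Fermat.Agent.S28lib.Sig
import Fermat.Prelude.Def_ModularCurve_IgusaScheme

set_option autoImplicit false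

open scoped MatrixGroups
open ModularCurve ModularCurve.IgusaScheme CongruenceSubgroup

namespace Fermat.Agent.S28lib

open Fermat.Agent.S24lib

noncomputable section

variable (N : ℕ) [NeZero N]

/-- `Δ(q^d)/Δ(q)` without the `NeZero` instance (junk value `1` for `d = 0`). -/
def udq' (d : ℕ) : LaurentSeries ℚ := if h : d = 0 then 1 else @udq d ⟨h⟩

theorem udq'_eq (d : ℕ) [hd : NeZero d] : udq' d = udq d := by
  unfold udq'
  rw [dif_neg (NeZero.ne d)]

open Classical in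
/-- `u_d` as an element of the function field (junk value `1` if it does not lie in it). -/
def udF (d : ℕ) : ↥(modularFunctionFieldFull N) :=
  if h : udq' d ∈ modularFunctionFieldFull N then ⟨udq' d, h⟩ else 1

omit [NeZero N] in
theorem coe_udF {d : ℕ} [NeZero d] (h : udq d ∈ modularFunctionFieldFull N) :
    ((udF N d : ↥(modularFunctionFieldFull N)) : LaurentSeries ℚ) = udq d := by
  unfold udF
  have h' : udq' d ∈ modularFunctionFieldFull N := by rw [udq'_eq]; exact h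
  rw [dif_pos h']
  exact udq'_eq d

omit [NeZero N] in
theorem udF_eq {d : ℕ} [NeZero d] (h : udq d ∈ modularFunctionFieldFull N) :
    udF N d = ⟨udq d, h⟩ := Subtype.ext (coe_udF N h)

omit [NeZero N] in
theorem udF_ne_zero {d : ℕ} [NeZero d] (h : udq d ∈ modularFunctionFieldFull N) :
    udF N d ≠ 0 := by
  rw [udF_eq N h]
  intro h0
  exact udq_ne_zero d (congrArg Subtype.val h0)

/-- the conjugate expansions of `u_d` are the expansions of the conjugates of `uWH`. -/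
theorem sig_udF {d : ℕ} [NeZero d] (hd : d ∣ N) (h : udq d ∈ modularFunctionFieldFull N)
    (hexp : expInf N (uWH N d hd) = qExpand ℂ N (coeffMap (algebraMap ℚ ℂ) (udq d)))
    (q : SL(2, ℤ) ⧸ Gamma0 N) :
    sig N q (udF N d) = expInf N (q.out • uWH N d hd) := by
  rw [sig_apply]
  have h1 : ιF N (toFF N (udF N d)) = algebraMap (WH N) (MF N) (uWH N d hd) := by
    apply ιF_eq_algebraMap
    rw [coe_toFF, coe_udF N h, inclL_coeffEmb, hexp]
  unfold embF
  rw [RingHom.comp_apply, h1, liftMF_algebraMap, twist_apply]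

theorem sig_udF_inv {d : ℕ} [NeZero d] (hd : d ∣ N) (h : udq d ∈ modularFunctionFieldFull N)
    (hexp : expInf N (uWH N d hd) = qExpand ℂ N (coeffMap (algebraMap ℚ ℂ) (udq d)))
    (q : SL(2, ℤ) ⧸ Gamma0 N) :
    sig N q (udF N d)⁻¹ = expInf N (q.out • uWHinv N d hd) := by
  have h1 : sig N q (udF N d) * expInf N (q.out • uWHinv N d hd) = 1 := by
    rw [sig_udF N hd h hexp, ← map_mul, smul_uWH_mul_smul_uWHinv, map_one]
  rw [map_inv₀]
  exact (eq_inv_of_mul_eq_one_right h1).symm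

/-- the divisor `N / p_J`. -/
theorem unit_div_dvd {J : Finset ℕ} (hJ : J ⊆ N.primeFactors) : N / unitP J ∣ N :=
  Nat.div_dvd_of_dvd (unitP_dvd N (NeZero.ne N) hJ)

theorem unit_div_ne_zero {J : Finset ℕ} (hJ : J ⊆ N.primeFactors) : N / unitP J ≠ 0 := by
  have h1 := unitP_dvd N (NeZero.ne N) hJ
  have h2 : 0 < N := Nat.pos_of_ne_zero (NeZero.ne N)
  exact (Nat.div_pos (Nat.le_of_dvd h2 h1) (unitP_pos hJ)).ne'

/-- the modular unit `u_N = ∏_J u_{N/p_J}^{r_J}`. -/
def unitF : ↥(modularFunctionFieldFull N) :=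
  ∏ J ∈ N.primeFactors.powerset, udF N (N / unitP J) ^ unitExp N J

omit [NeZero N] in
/-- a coset different from the identity coset has lower left entry not divisible by `N`. -/
theorem unit_not_dvd_of_ne (q : SL(2, ℤ) ⧸ Gamma0 N)
    (hq : q ≠ ((1 : SL(2, ℤ)) : SL(2, ℤ) ⧸ Gamma0 N)) :
    ¬ (N : ℤ) ∣ ((q.out⁻¹ : SL(2, ℤ)) 1 0) := by
  intro hdvd
  apply hq
  have h1 : (q.out⁻¹ : SL(2, ℤ)) ∈ Gamma0 N := by
    rw [Gamma0_mem]
    exact (ZMod.intCast_zmod_eq_zero_iff_dvd _ _).mpr hdvd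
  have h2 : (q.out : SL(2, ℤ)) ∈ Gamma0 N := by
    have := inv_mem h1
    rwa [inv_inv] at this
  have h3 : ((q.out : SL(2, ℤ)) : SL(2, ℤ) ⧸ Gamma0 N) = ((1 : SL(2, ℤ)) : SL(2, ℤ) ⧸ Gamma0 N) := by
    rw [QuotientGroup.eq]
    simpa using inv_mem h2
  rw [← h3]
  exact (QuotientGroup.out_eq' q).symm

/-- **Assembly of the modular unit** from the analytic input. -/
theorem exists_unit_of (A : Subring ℂ)
    (hmemF : ∀ (d : ℕ) [NeZero d], d ∣ N → udq d ∈ modularFunctionFieldFull N)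
    (hexp : ∀ (d : ℕ) [NeZero d] (hd : d ∣ N),
      expInf N (uWH N d hd) = qExpand ℂ N (coeffMap (algebraMap ℚ ℂ) (udq d)))
    (hcoef : ∀ (d : ℕ) (hd : d ∣ N) (g : SL(2, ℤ)), expInf N (g • uWH N d hd) ∈ coeffRing A)
    (hcoefinv : ∀ (d : ℕ) (hd : d ∣ N) (g : SL(2, ℤ)),
      expInf N (g • uWHinv N d hd) ∈ coeffRing A)
    (hord : ∀ (d : ℕ) (hd : d ∣ N) (g : SL(2, ℤ)),
      (expInf N (g • uWH N d hd)).order = unitOrd N d ((g⁻¹ : SL(2, ℤ)) 1 0))
    (hint : ∀ (d : ℕ) [NeZero d] (_ : d ∣ N) (h : udq d ∈ modularFunctionFieldFull N),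
      IsIntegral ↥(Algebra.adjoin ℚ {jFull N}) (⟨udq d, h⟩ : ↥(modularFunctionFieldFull N)) ∧
      IsIntegral ↥(Algebra.adjoin ℚ {jFull N})
        (⟨udq d, h⟩ : ↥(modularFunctionFieldFull N))⁻¹) :
    ∃ u : ↥(modularFunctionFieldFull N), u ≠ 0 ∧
      IsIntegral ↥(Algebra.adjoin ℚ {jFull N}) u ∧
      IsIntegral ↥(Algebra.adjoin ℚ {jFull N}) u⁻¹ ∧
      (∀ q, sig N q u ∈ coeffRing A) ∧ (∀ q, sig N q u⁻¹ ∈ coeffRing A) ∧
      ∀ q : SL(2, ℤ) ⧸ Gamma0 N, q ≠ ((1 : SL(2, ℤ)) : SL(2, ℤ) ⧸ Gamma0 N) →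
        ∃ n : ℤ, n < 0 ∧ ∃ c ∈ A, (sig N q u).coeff n * c = 1 := by
  classical
  -- data for each `J`
  have hJ : ∀ J ∈ N.primeFactors.powerset, J ⊆ N.primeFactors :=
    fun J hJ => Finset.mem_powerset.mp hJ
  have hne : ∀ J ∈ N.primeFactors.powerset, udF N (N / unitP J) ≠ 0 := by
    intro J hJ'
    have : NeZero (N / unitP J) := ⟨unit_div_ne_zero N (hJ J hJ')⟩
    exact udF_ne_zero N (hmemF _ (unit_div_dvd N (hJ J hJ')))
  have hsig : ∀ (J : Finset ℕ) (hJ' : J ∈ N.primeFactors.powerset) (q : SL(2, ℤ) ⧸ Gamma0 N),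
      sig N q (udF N (N / unitP J)) =
        expInf N (q.out • uWH N (N / unitP J) (unit_div_dvd N (hJ J hJ'))) := by
    intro J hJ' q
    have : NeZero (N / unitP J) := ⟨unit_div_ne_zero N (hJ J hJ')⟩
    exact sig_udF N _ (hmemF _ (unit_div_dvd N (hJ J hJ'))) (hexp _ _) q
  have hsiginv : ∀ (J : Finset ℕ) (hJ' : J ∈ N.primeFactors.powerset)
      (q : SL(2, ℤ) ⧸ Gamma0 N),
      sig N q (udF N (N / unitP J))⁻¹ =
        expInf N (q.out • uWHinv N (N / unitP J) (unit_div_dvd N (hJ J hJ'))) := by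
    intro J hJ' q
    have : NeZero (N / unitP J) := ⟨unit_div_ne_zero N (hJ J hJ')⟩
    exact sig_udF_inv N _ (hmemF _ (unit_div_dvd N (hJ J hJ'))) (hexp _ _) q
  have hsigmap : ∀ q : SL(2, ℤ) ⧸ Gamma0 N, sig N q (unitF N) =
      ∏ J ∈ N.primeFactors.powerset, sig N q (udF N (N / unitP J)) ^ unitExp N J := by
    intro q
    rw [unitF, map_prod]
    exact Finset.prod_congr rfl fun J _ => map_zpow₀ _ _ _
  have hsigne : ∀ q : SL(2, ℤ) ⧸ Gamma0 N, ∀ J ∈ N.primeFactors.powerset,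
      sig N q (udF N (N / unitP J)) ≠ 0 := by
    intro q J hJ'
    rw [Ne, map_eq_zero]
    exact hne J hJ'
  have hmem : ∀ q, sig N q (unitF N) ∈ coeffRing A := by
    intro q
    rw [hsigmap]
    refine ua_prod_zpow_mem A _ _ (fun J => sig N q (udF N (N / unitP J))⁻¹) ?_ ?_ ?_ _
    · intro J hJ'
      rw [hsig J hJ' q]
      exact hcoef _ _ _
    · intro J hJ'
      rw [hsiginv J hJ' q]
      exact hcoefinv _ _ _
    · intro J hJ'
      rw [← map_mul, mul_inv_cancel₀ (hne J hJ'), map_one]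
  have hmeminv : ∀ q, sig N q (unitF N)⁻¹ ∈ coeffRing A := by
    intro q
    have e : sig N q (unitF N)⁻¹ =
        ∏ J ∈ N.primeFactors.powerset, sig N q (udF N (N / unitP J))⁻¹ ^ unitExp N J := by
      rw [map_inv₀, hsigmap, ← Finset.prod_inv_distrib]
      refine Finset.prod_congr rfl fun J _ => ?_
      rw [map_inv₀, inv_zpow]
    rw [e]
    refine ua_prod_zpow_mem A _ _ (fun J => sig N q (udF N (N / unitP J))) ?_ ?_ ?_ _
    · intro J hJ'
      rw [hsiginv J hJ' q]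
      exact hcoefinv _ _ _
    · intro J hJ'
      rw [hsig J hJ' q]
      exact hcoef _ _ _
    · intro J hJ'
      rw [← map_mul, inv_mul_cancel₀ (hne J hJ'), map_one]
  have hu0 : unitF N ≠ 0 := by
    rw [unitF]
    exact Finset.prod_ne_zero_iff.mpr fun J hJ' => zpow_ne_zero _ (hne J hJ')
  refine ⟨unitF N, hu0, ?_, ?_, hmem, hmeminv, ?_⟩
  · rw [unitF]
    refine ua_isIntegral_prod_zpow _ _ ?_ ?_ _
    · intro J hJ'
      have : NeZero (N / unitP J) := ⟨unit_div_ne_zero N (hJ J hJ')⟩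
      have hm := hmemF _ (unit_div_dvd N (hJ J hJ'))
      rw [udF_eq N hm]
      exact (hint _ (unit_div_dvd N (hJ J hJ')) hm).1
    · intro J hJ'
      have : NeZero (N / unitP J) := ⟨unit_div_ne_zero N (hJ J hJ')⟩
      have hm := hmemF _ (unit_div_dvd N (hJ J hJ'))
      rw [udF_eq N hm]
      exact (hint _ (unit_div_dvd N (hJ J hJ')) hm).2
  · rw [unitF]
    refine ua_isIntegral_prod_zpow_inv _ _ ?_ ?_ _
    · intro J hJ'
      have : NeZero (N / unitP J) := ⟨unit_div_ne_zero N (hJ J hJ')⟩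
      have hm := hmemF _ (unit_div_dvd N (hJ J hJ'))
      rw [udF_eq N hm]
      exact (hint _ (unit_div_dvd N (hJ J hJ')) hm).1
    · intro J hJ'
      have : NeZero (N / unitP J) := ⟨unit_div_ne_zero N (hJ J hJ')⟩
      have hm := hmemF _ (unit_div_dvd N (hJ J hJ'))
      rw [udF_eq N hm]
      exact (hint _ (unit_div_dvd N (hJ J hJ')) hm).2
  · intro q hq
    have hordq : (sig N q (unitF N)).order =
        ∑ J ∈ N.primeFactors.powerset,
          unitExp N J * unitOrd N (N / unitP J) ((q.out⁻¹ : SL(2, ℤ)) 1 0) := by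
      rw [hsigmap, ua_order_prod_zpow _ _ (hsigne q)]
      refine Finset.sum_congr rfl fun J hJ' => ?_
      rw [hsig J hJ' q, hord]
    have hneg : (sig N q (unitF N)).order < 0 := by
      rw [hordq]
      exact unitOrd_sum_neg N (NeZero.ne N) _ (unit_not_dvd_of_ne N q hq)
    have hprod : sig N q (unitF N) * sig N q (unitF N)⁻¹ = 1 := by
      rw [← map_mul, mul_inv_cancel₀ hu0, map_one]
    refine ⟨_, hneg, (sig N q (unitF N)⁻¹).coeff (-(sig N q (unitF N)).order), ?_, ?_⟩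
    · exact mem_coeffRing_iff.mp (hmeminv q) _
    · exact ua_coeff_mul_of_mul_eq_one hprod

end

end Fermat.Agent.S28lib
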