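/-
S28 library, piece U1 (helper13), part 2: the `q_N`-expansions of all conjugates of the modular
units `u_d(z) = Δ(dz)/Δ(z)`.

* `qExpansion_discriminant_eq` : `qExpansion 1 Δ = deltaPS` (`= q∏(1-qⁿ)²⁴`, integer coefficients);
* `expInf_smul_uWH_mul` : `expInf (g • u_d) · Δ̃ = δ⁻¹² ∑ τ(n) ζ_δ^{bn} q_N^{n a N/δ}`;
* `uw_unit_series`, `uw_quot_series` : units of `A((X))`;
* `expInf_smul_uWH_main` and its corollaries `expInf_smul_uWH_mem`, `expInf_smul_uWHinv_mem`,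
  `expInf_smul_uWH_order` (`= unitOrd N d ((g⁻¹) 1 0)`), `expInf_smul_uWH_lead`;
* `expInf_uWH` : `expInf N (uWH N d hd) = qExpand ℂ N (coeffMap _ (udq d))`;
* `uWH_mem_KRat`, `uWHinv_mem_KRat`.
No sorry in this file.
-/
import Mathlib
import Fermat.Agent.S24lib.ExpInf
import Fermat.Agent.S24lib.KRat
import Fermat.Agent.S28lib.UnitWH
import Fermat.Agent.S28lib.UnitDefs
import Fermat.Agent.S28lib.UnitComb
import Fermat.Agent.S28lib.CoeffRing
import Fermat.Prelude.Thm_ModularCurve_coeffMap_qExpand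

set_option autoImplicit false

open UpperHalfPlane ModularForm CongruenceSubgroup EisensteinSeries Filter Asymptotics
open scoped MatrixGroups ModularForm Manifold Topology
open ModularCurve

namespace Fermat.Agent.S28lib

open Fermat.Agent.S24lib Fermat.Agent.S20lib

/-! ### The `q`-expansion of `Δ` is the formal `deltaPS` -/

/-- the Ramanujan `τ`-function (integer coefficients of `Δ = q∏(1-qⁿ)²⁴`). -/
noncomputable def tauZ (n : ℕ) : ℤ := PowerSeries.coeff n deltaPS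

lemma tauZ_zero : tauZ 0 = 0 := by
  unfold tauZ deltaPS
  simp

lemma tauZ_one : tauZ 1 = 1 := by
  unfold tauZ deltaPS
  rw [show (1 : ℕ) = 0 + 1 from rfl, PowerSeries.coeff_succ_X_mul,
    PowerSeries.coeff_zero_eq_constantCoeff_apply, constantCoeff_dedekindEtaUnit]

theorem qExpansion_discriminant_eq :
    qExpansion 1 discriminant = deltaPS.map (Int.castRingHom ℂ) := by
  have h0 : (0 : ℂ) ∈ Metric.ball (0 : ℂ) 1 := Metric.mem_ball_self one_pos
  have hnhds : Metric.ball (0 : ℂ) 1 ∈ 𝓝 (0 : ℂ) := Metric.isOpen_ball.mem_nhds h0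
  have hη : AnalyticAt ℂ etaFun 0 := differentiableOn_etaFun.analyticAt hnhds
  have h1 : qExpansion 1 discriminant = taylorPS (cuspFunction 1 discriminant) := rfl
  have h2 : taylorPS (cuspFunction 1 discriminant) =
      taylorPS ((fun q : ℂ => q ^ 1) * etaFun ^ 24) := by
    apply taylorPS_congr
    filter_upwards [hnhds] with q hq
    rw [discriminant_cuspFunction_eqOn hq]
    have hq' : ‖q‖ < 1 := by simpa using hq
    simp only [Pi.mul_apply, Pi.pow_apply, pow_one, etaFun]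
    rw [← (ModularForm.multipliable_one_sub_pow hq').tprod_pow 24]
  rw [h1, h2, taylorPS_mul (by fun_prop) (hη.pow 24), taylorPS_pow_id, taylorPS_pow hη,
    taylorPS_etaFun, deltaPS, dedekindEtaUnit, map_mul, map_pow, PowerSeries.map_X, pow_one]

lemma qExpansion_discriminant_coeff (n : ℕ) :
    (qExpansion 1 discriminant).coeff n = ((tauZ n : ℤ) : ℂ) := by
  rw [qExpansion_discriminant_eq, PowerSeries.coeff_map]
  rfl

/-- `Δ(w) = ∑ τ(n) e^{2πi n w}`. -/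
theorem hasSum_discriminant (w : ℍ) :
    HasSum (fun n : ℕ => ((tauZ n : ℤ) : ℂ) * Function.Periodic.qParam 1 (w : ℂ) ^ n)
      (discriminant w) := by
  have hper : Function.Periodic ((discriminant : ℍ → ℂ) ∘ ofComplex) (1 : ℝ) := by
    have := ei_periodic (N := 1) (isCF_discriminant.isMF.of_top (Γ := Gamma 1))
    simpa using this
  have h := UpperHalfPlane.hasSum_qExpansion (h := 1) (f := (discriminant : ℍ → ℂ)) one_pos hper
    isCF_discriminant.holo uw_discriminant_bdd w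
  convert h using 2 with n
  rw [qExpansion_discriminant_coeff, smul_eq_mul]

/-! ### Convergent expansions of the conjugates -/

/-- the coefficients of `δ⁻¹² Δ((a z + b)/δ)` in `q_N`. -/
noncomputable def conjCoeff (N a δ : ℕ) (b : ℤ) : ℕ → ℂ := fun k =>
  ((δ : ℂ) ^ 12)⁻¹ * (if a * (N / δ) ∣ k then
    ((tauZ (k / (a * (N / δ))) : ℤ) : ℂ) * (zetaC δ ^ b) ^ (k / (a * (N / δ))) else 0)

theorem hasSum_conj (N a δ : ℕ) (b : ℤ) (ha : 0 < a) (hδ : 0 < δ) (hN : 0 < N) (hδN : δ ∣ N)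
    (z : ℍ) :
    HasSum (fun k : ℕ => conjCoeff N a δ b k * Function.Periodic.qParam N (z : ℂ) ^ k)
      (((δ : ℂ) ^ 12)⁻¹ * discriminant (affH a δ b ha hδ z)) := by
  have he : 0 < a * (N / δ) := Nat.mul_pos ha (Nat.div_pos (Nat.le_of_dvd hN hδN) hδ)
  have h := hasSum_discriminant (affH a δ b ha hδ z)
  rw [qParam_affH N a δ b ha hδ hN hδN z] at h
  have h' : HasSum (fun n : ℕ => (((tauZ n : ℤ) : ℂ) * (zetaC δ ^ b) ^ n) *
      (Function.Periodic.qParam N (z : ℂ) ^ (a * (N / δ))) ^ n)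
      (discriminant (affH a δ b ha hδ z)) := by
    convert h using 2 with n
    rw [mul_pow]
    ring
  have h2 := hasSum_pow_reindex (a * (N / δ)) he
    (fun n : ℕ => ((tauZ n : ℤ) : ℂ) * (zetaC δ ^ b) ^ n) _ _ h'
  have h3 := h2.mul_left (((δ : ℂ) ^ 12)⁻¹)
  have e : (fun k : ℕ => conjCoeff N a δ b k * Function.Periodic.qParam N (z : ℂ) ^ k) =
      fun k : ℕ => ((δ : ℂ) ^ 12)⁻¹ * ((if a * (N / δ) ∣ k then
        (fun n : ℕ => ((tauZ n : ℤ) : ℂ) * (zetaC δ ^ b) ^ n) (k / (a * (N / δ))) else 0) *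
        Function.Periodic.qParam N (z : ℂ) ^ k) := by
    funext k
    unfold conjCoeff
    ring
  rw [e]
  exact h3

variable {N d : ℕ} [NeZero N]

lemma isMF_smul_uWH (hd : d ∣ N) (g : SL(2, ℤ)) :
    IsMF (Gamma N) (12 * ((1 : ℕ) : ℤ))
      (((g • uWH N d hd : WH N) : ℍ → ℂ) * discriminant ^ 1) := by
  have : NeZero d := ⟨fun h => by rw [h, zero_dvd_iff] at hd; exact NeZero.ne N hd⟩
  have := Gamma_normal N
  rw [wh_smul_coe, coe_uWH, ← uw_slash_zero_mul_discriminant_pow, pow_one, uH_mul_discriminant]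
  have h := wh_isMF_slash (isMF_deltaD (N := N) hd) g⁻¹
  simpa using h

/-- **Expansion of the conjugates of `u_d`**: `expInf (g • u_d) · Δ̃ = ` the explicit series. -/
theorem expInf_smul_uWH_mul (hd : d ∣ N) (g : SL(2, ℤ)) :
    ∃ (a δ : ℕ) (b : ℤ), 0 < a ∧ 0 < δ ∧
      a * δ = d ∧ a = Int.gcd (d : ℤ) ((g⁻¹ : SL(2, ℤ)) 1 0) ∧
      expInf N (g • uWH N d hd) * deltaL N =
        HahnSeries.ofPowerSeries ℤ ℂ (PowerSeries.mk (conjCoeff N a δ b)) := by
  have hdne : NeZero d := ⟨fun h => by rw [h, zero_dvd_iff] at hd; exact NeZero.ne N hd⟩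
  have hN : 0 < N := Nat.pos_of_ne_zero (NeZero.ne N)
  obtain ⟨a, δ, b, ha, hδ, haδ, hgcd, -, -, h⟩ := smul_uWH_apply N d hd g
  have hδN : δ ∣ N := (Dvd.intro_left a haδ).trans hd
  refine ⟨a, δ, b, ha, hδ, haδ, hgcd, ?_⟩
  have hk := isMF_smul_uWH hd g
  have h1 := expInf_mul_pow (g • uWH N d hd) 1 hk
  rw [pow_one] at h1
  rw [h1]
  congr 1
  ext k
  rw [PowerSeries.coeff_mk]
  symm
  refine qExpansion_coeff_unique_fun (h := (N : ℝ)) _ ei_N_pos (ei_analyticAt hk) (fun τ => ?_) k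
  have h2 := hasSum_conj N a δ b ha hδ hN hδN τ
  convert h2 using 1
  simp only [Pi.mul_apply, pow_one]
  rw [h τ, div_mul_cancel₀ _ (discriminant_ne_zero τ)]

section UnitSeries

variable (A : Subring ℂ)

lemma uw_ofPowerSeries_coeff_neg (P : PowerSeries ℂ) {n : ℤ} (hn : n < 0) :
    (HahnSeries.ofPowerSeries ℤ ℂ P).coeff n = 0 := by
  rw [HahnSeries.ofPowerSeries_apply]
  refine HahnSeries.embDomain_of_notMem_range ?_
  rintro ⟨m, rfl⟩
  exact absurd hn (not_lt.mpr (Int.natCast_nonneg m))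

lemma uw_ofPowerSeries_mem (P : PowerSeries ℂ) (hP : ∀ k, P.coeff k ∈ A) :
    HahnSeries.ofPowerSeries ℤ ℂ P ∈ coeffRing A := by
  rw [mem_coeffRing_iff]
  intro n
  by_cases hn : 0 ≤ n
  · obtain ⟨m, rfl⟩ := Int.eq_ofNat_of_zero_le hn
    rw [HahnSeries.ofPowerSeries_apply_coeff]
    exact hP m
  · rw [uw_ofPowerSeries_coeff_neg _ (not_le.1 hn)]
    exact A.zero_mem

lemma uw_single_mem (e : ℤ) {c : ℂ} (hc : c ∈ A) :
    (HahnSeries.single e c : LaurentSeries ℂ) ∈ coeffRing A := by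
  rw [mem_coeffRing_iff]
  intro n
  by_cases hn : n = e
  · subst hn
    rw [HahnSeries.coeff_single_same]
    exact hc
  · rw [HahnSeries.coeff_single_of_ne hn]
    exact A.zero_mem

/-- A power series with coefficients in `A`, lowest term `c X^e` with `c` a unit of `A`:
the associated Laurent series is a unit of `A((X))`, of order `e` and leading coefficient `c`. -/
theorem uw_unit_series (P : ℕ → ℂ) (e : ℕ) (c : ℂ) (hc' : c⁻¹ ∈ A) (hc0 : c ≠ 0)
    (hP : ∀ k, P k ∈ A) (hlow : ∀ k < e, P k = 0) (he : P e = c) :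
    HahnSeries.ofPowerSeries ℤ ℂ (PowerSeries.mk P) ∈ coeffRing A ∧
    (HahnSeries.ofPowerSeries ℤ ℂ (PowerSeries.mk P))⁻¹ ∈ coeffRing A ∧
    (HahnSeries.ofPowerSeries ℤ ℂ (PowerSeries.mk P)).order = (e : ℤ) ∧
    (HahnSeries.ofPowerSeries ℤ ℂ (PowerSeries.mk P)).coeff (e : ℤ) = c := by
  set x := HahnSeries.ofPowerSeries ℤ ℂ (PowerSeries.mk P) with hx
  have hmem : x ∈ coeffRing A := uw_ofPowerSeries_mem A _ (fun k => by
    rw [PowerSeries.coeff_mk]; exact hP k)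
  have hcoeff : x.coeff (e : ℤ) = c := by
    rw [hx, HahnSeries.ofPowerSeries_apply_coeff, PowerSeries.coeff_mk, he]
  have hx0 : x ≠ 0 := by
    intro h0
    rw [h0, HahnSeries.coeff_zero] at hcoeff
    exact hc0 hcoeff.symm
  have horder : x.order = (e : ℤ) := by
    apply le_antisymm
    · exact HahnSeries.order_le_of_coeff_ne_zero (by rw [hcoeff]; exact hc0)
    · by_contra hlt
      rw [not_le] at hlt
      have h1 : x.coeff x.order ≠ 0 := fun h => hx0 (HahnSeries.coeff_order_eq_zero.1 h)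
      apply h1
      by_cases hn : 0 ≤ x.order
      · obtain ⟨m, hm⟩ := Int.eq_ofNat_of_zero_le hn
        rw [hm] at hlt ⊢
        rw [hx, HahnSeries.ofPowerSeries_apply_coeff, PowerSeries.coeff_mk]
        exact hlow m (by exact_mod_cast hlt)
      · exact uw_ofPowerSeries_coeff_neg _ (not_le.1 hn)
  refine ⟨hmem, ?_, horder, hcoeff⟩
  -- the inverse
  let W : PowerSeries ↥A := PowerSeries.mk fun k => ⟨c⁻¹ * P (k + e), A.mul_mem hc' (hP _)⟩
  have hW0 : PowerSeries.constantCoeff W = ((1 : (↥A)ˣ) : ↥A) := by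
    rw [← PowerSeries.coeff_zero_eq_constantCoeff_apply, PowerSeries.coeff_mk]
    apply Subtype.ext
    simp only [zero_add, he, Units.val_one, Subring.coe_one]
    exact inv_mul_cancel₀ hc0
  have h1 := PowerSeries.mul_invOfUnit W 1 hW0
  set V : PowerSeries ↥A := PowerSeries.invOfUnit W 1 with hV
  have hxW : x = HahnSeries.single (e : ℤ) c *
      HahnSeries.ofPowerSeries ℤ ℂ (W.map A.subtype) := by
    ext n
    rw [HahnSeries.coeff_single_mul]
    by_cases hn : 0 ≤ n - e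
    · obtain ⟨m, hm⟩ := Int.eq_ofNat_of_zero_le hn
      have hn' : n = ((m + e : ℕ) : ℤ) := by push_cast; omega
      rw [hm, HahnSeries.ofPowerSeries_apply_coeff, PowerSeries.coeff_map, PowerSeries.coeff_mk,
        hn', hx, HahnSeries.ofPowerSeries_apply_coeff, PowerSeries.coeff_mk]
      simp only [Subring.subtype_apply]
      rw [← mul_assoc, mul_inv_cancel₀ hc0, one_mul]
    · rw [uw_ofPowerSeries_coeff_neg _ (not_le.1 hn), mul_zero]
      by_cases hn0 : 0 ≤ n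
      · obtain ⟨m, rfl⟩ := Int.eq_ofNat_of_zero_le hn0
        rw [hx, HahnSeries.ofPowerSeries_apply_coeff, PowerSeries.coeff_mk]
        exact hlow m (by omega)
      · exact uw_ofPowerSeries_coeff_neg _ (not_le.1 hn0)
  have hy : x * (HahnSeries.single (-(e : ℤ)) c⁻¹ *
      HahnSeries.ofPowerSeries ℤ ℂ (V.map A.subtype)) = 1 := by
    have h2 : HahnSeries.ofPowerSeries ℤ ℂ (W.map A.subtype) *
        HahnSeries.ofPowerSeries ℤ ℂ (V.map A.subtype) = 1 := by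
      rw [← map_mul, ← map_mul, h1, map_one, map_one]
    have h3 : (HahnSeries.single (e : ℤ) c : LaurentSeries ℂ) *
        HahnSeries.single (-(e : ℤ)) c⁻¹ = 1 := by
      rw [HahnSeries.single_mul_single, add_neg_cancel, mul_inv_cancel₀ hc0]
      rfl
    calc x * (HahnSeries.single (-(e : ℤ)) c⁻¹ *
          HahnSeries.ofPowerSeries ℤ ℂ (V.map A.subtype))
        = (HahnSeries.single (e : ℤ) c * HahnSeries.single (-(e : ℤ)) c⁻¹) *
          (HahnSeries.ofPowerSeries ℤ ℂ (W.map A.subtype) *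
            HahnSeries.ofPowerSeries ℤ ℂ (V.map A.subtype)) := by rw [hxW]; ring
      _ = 1 := by rw [h2, h3, one_mul]
  rw [inv_eq_of_mul_eq_one_right hy]
  refine (coeffRing A).mul_mem (uw_single_mem A _ hc') (uw_ofPowerSeries_mem A _ (fun k => ?_))
  rw [PowerSeries.coeff_map]
  exact (PowerSeries.coeff k V).2

/-- quotient of two such series -/
theorem uw_quot_series (x p q : LaurentSeries ℂ) (hxq : x * q = p) (e e' : ℕ) (c c' : ℂ)
    (hp : p ∈ coeffRing A) (hp' : p⁻¹ ∈ coeffRing A) (hpo : p.order = (e : ℤ))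
    (hpc : p.coeff (e : ℤ) = c) (hc0 : c ≠ 0)
    (hq : q ∈ coeffRing A) (hq' : q⁻¹ ∈ coeffRing A) (hqo : q.order = (e' : ℤ))
    (hqc : q.coeff (e' : ℤ) = c') (hc0' : c' ≠ 0) :
    x ∈ coeffRing A ∧ x⁻¹ ∈ coeffRing A ∧ x.order = (e : ℤ) - (e' : ℤ) ∧
      x.coeff ((e : ℤ) - (e' : ℤ)) = c / c' := by
  have hq0 : q ≠ 0 := by
    intro h0
    rw [h0, HahnSeries.coeff_zero] at hqc
    exact hc0' hqc.symm
  have hp0 : p ≠ 0 := by
    intro h0
    rw [h0, HahnSeries.coeff_zero] at hpc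
    exact hc0 hpc.symm
  have hx : x = p * q⁻¹ := by
    rw [← hxq, mul_assoc, mul_inv_cancel₀ hq0, mul_one]
  have hx0 : x ≠ 0 := by
    rw [hx]
    exact mul_ne_zero hp0 (inv_ne_zero hq0)
  have hxinv : x⁻¹ = q * p⁻¹ := by
    rw [hx, mul_inv, inv_inv, mul_comm]
  have hord : x.order = (e : ℤ) - (e' : ℤ) := by
    have h1 := HahnSeries.order_mul hx0 hq0
    rw [hxq, hpo, hqo] at h1
    omega
  refine ⟨?_, ?_, hord, ?_⟩
  · rw [hx]
    exact (coeffRing A).mul_mem hp hq'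
  · rw [hxinv]
    exact (coeffRing A).mul_mem hq hp'
  · have h1 := HahnSeries.coeff_mul_order_add_order x q
    rw [hxq, hord, hqo] at h1
    rw [show (e : ℤ) - (e' : ℤ) + (e' : ℤ) = (e : ℤ) by ring, hpc] at h1
    have h2 : q.leadingCoeff = c' := by
      rw [HahnSeries.leadingCoeff_eq, hqo, hqc]
    have h3 : x.leadingCoeff = x.coeff ((e : ℤ) - (e' : ℤ)) := by
      rw [HahnSeries.leadingCoeff_eq, hord]
    rw [h2, h3] at h1
    rw [h1, mul_div_assoc, div_self hc0', mul_one]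

end UnitSeries


/-! ### The expansion of `Δ` in `q_N` -/

section Main

variable {N d : ℕ} [NeZero N]

lemma qExpansion_N_discriminant_coeff (N : ℕ) [NeZero N] (k : ℕ) :
    (qExpansion (N : ℝ) discriminant).coeff k =
      if N ∣ k then ((tauZ (k / N) : ℤ) : ℂ) else 0 := by
  have hper : Function.Periodic ((discriminant : ℍ → ℂ) ∘ ofComplex) (1 : ℝ) := by
    have := ei_periodic (N := 1) (isCF_discriminant.isMF.of_top (Γ := Gamma 1))
    simpa using this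
  have h := UpperHalfPlane.qExpansion_coeff_nat_mul (h := 1) one_pos (F := discriminant) hper
    isCF_discriminant.holo uw_discriminant_bdd (M := N) (Nat.pos_of_ne_zero (NeZero.ne N)) k
  rw [mul_one] at h
  rw [h]
  split_ifs
  · exact qExpansion_discriminant_coeff _
  · rfl

/-- the coefficients of `Δ` in `q_N` -/
noncomputable def deltaCoeff (N : ℕ) : ℕ → ℂ := fun k => if N ∣ k then ((tauZ (k / N) : ℤ) : ℂ) else 0

lemma deltaL_eq (N : ℕ) [NeZero N] :
    deltaL N = HahnSeries.ofPowerSeries ℤ ℂ (PowerSeries.mk (deltaCoeff N)) := by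
  unfold deltaL
  congr 1
  ext k
  rw [PowerSeries.coeff_mk, qExpansion_N_discriminant_coeff]
  rfl

lemma deltaCoeff_mem (A : Subring ℂ) (N k : ℕ) : deltaCoeff N k ∈ A := by
  unfold deltaCoeff
  split_ifs
  · exact intCast_mem A _
  · exact A.zero_mem

lemma deltaCoeff_low (N : ℕ) (k : ℕ) (hk : k < N) : deltaCoeff N k = 0 := by
  unfold deltaCoeff
  split_ifs with h
  · have hk0 : k = 0 := Nat.eq_zero_of_dvd_of_lt h hk
    subst hk0
    rw [Nat.zero_div, tauZ_zero, Int.cast_zero]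
  · rfl

lemma deltaCoeff_self (N : ℕ) [NeZero N] : deltaCoeff N N = 1 := by
  unfold deltaCoeff
  rw [if_pos dvd_rfl, Nat.div_self (Nat.pos_of_ne_zero (NeZero.ne N)), tauZ_one, Int.cast_one]

/-- `Δ̃ = q_N^N(1 + ⋯)` is a unit of `A((q_N))` for every subring `A`. -/
theorem deltaL_unit (A : Subring ℂ) (N : ℕ) [NeZero N] :
    deltaL N ∈ coeffRing A ∧ (deltaL N)⁻¹ ∈ coeffRing A ∧ (deltaL N).order = (N : ℤ) ∧
      (deltaL N).coeff (N : ℤ) = 1 := by
  rw [deltaL_eq]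
  exact uw_unit_series A (deltaCoeff N) N 1 (by rw [inv_one]; exact A.one_mem) one_ne_zero
    (deltaCoeff_mem A N) (deltaCoeff_low N) (deltaCoeff_self N)

/-! ### The conjugate series -/

lemma uw_zetaC_zpow_pow (N δ : ℕ) (hδ : 0 < δ) (hδN : δ ∣ N) (k : ℤ) :
    (zetaC δ ^ k) ^ N = 1 := by
  obtain ⟨m, rfl⟩ := hδN
  rw [← zpow_natCast (zetaC δ ^ k), ← zpow_mul, Nat.cast_mul, mul_comm k, mul_assoc, zpow_mul,
    zpow_natCast, zetaC_pow δ hδ, one_zpow]

lemma uw_inv_natCast_mem (A : Subring ℂ) {N δ : ℕ} [NeZero N] (hNinv : ((N : ℂ))⁻¹ ∈ A)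
    (hδN : δ ∣ N) : ((δ : ℂ))⁻¹ ∈ A := by
  obtain ⟨m, rfl⟩ := hδN
  have hN : δ * m ≠ 0 := NeZero.ne _
  have hδ0 : (δ : ℂ) ≠ 0 := by
    exact_mod_cast (Nat.pos_of_ne_zero (fun h => hN (by rw [h, zero_mul]))).ne'
  have hm0 : (m : ℂ) ≠ 0 := by
    exact_mod_cast (Nat.pos_of_ne_zero (fun h => hN (by rw [h, mul_zero]))).ne'
  have e : ((δ : ℂ))⁻¹ = (m : ℂ) * (((δ * m : ℕ) : ℂ))⁻¹ := by
    push_cast
    field_simp
  rw [e]
  exact A.mul_mem (natCast_mem A m) hNinv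

lemma conjCoeff_mem (A : Subring ℂ) {N : ℕ} [NeZero N] (hA : ∀ ζ : ℂ, ζ ^ N = 1 → ζ ∈ A)
    (hNinv : ((N : ℂ))⁻¹ ∈ A) (a δ : ℕ) (b : ℤ) (hδ : 0 < δ) (hδN : δ ∣ N) (k : ℕ) :
    conjCoeff N a δ b k ∈ A := by
  unfold conjCoeff
  refine A.mul_mem ?_ ?_
  · rw [← inv_pow]
    exact A.pow_mem (uw_inv_natCast_mem A hNinv hδN) 12
  · split_ifs
    · exact A.mul_mem (intCast_mem A _) (A.pow_mem (hA _ (uw_zetaC_zpow_pow N δ hδ hδN b)) _)
    · exact A.zero_mem

lemma conjCoeff_low (N a δ : ℕ) (b : ℤ) (k : ℕ) (hk : k < a * (N / δ)) :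
    conjCoeff N a δ b k = 0 := by
  unfold conjCoeff
  split_ifs with h
  · have hk0 : k = 0 := Nat.eq_zero_of_dvd_of_lt h hk
    subst hk0
    rw [Nat.zero_div, tauZ_zero, Int.cast_zero, zero_mul, mul_zero]
  · rw [mul_zero]

lemma conjCoeff_self (N a δ : ℕ) (b : ℤ) (he : 0 < a * (N / δ)) :
    conjCoeff N a δ b (a * (N / δ)) = ((δ : ℂ) ^ 12)⁻¹ * zetaC δ ^ b := by
  unfold conjCoeff
  rw [if_pos dvd_rfl, Nat.div_self he, tauZ_one, Int.cast_one, one_mul, pow_one]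

end Main

/-! ### Main results on the conjugates of `u_d` -/

section Results

variable {N d : ℕ} [NeZero N]

lemma uw_exp_eq {N d a δ : ℕ} (hδ : 0 < δ) (haδ : a * δ = d) (hd : d ∣ N) :
    a * (N / δ) = a ^ 2 * (N / d) := by
  obtain ⟨m, rfl⟩ := hd
  subst haδ
  by_cases ha : a = 0
  · subst ha; simp
  have ha' : 0 < a := Nat.pos_of_ne_zero ha
  have h1 : a * δ * m / δ = a * m := by
    rw [show a * δ * m = δ * (a * m) by ring, Nat.mul_div_cancel_left _ hδ]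
  have h2 : a * δ * m / (a * δ) = m := Nat.mul_div_cancel_left _ (Nat.mul_pos ha' hδ)
  rw [h1, h2]
  ring

theorem expInf_smul_uWH_main (A : Subring ℂ) (hA : ∀ ζ : ℂ, ζ ^ N = 1 → ζ ∈ A)
    (hNinv : ((N : ℂ))⁻¹ ∈ A) (hd : d ∣ N) (g : SL(2, ℤ)) :
    expInf N (g • uWH N d hd) ∈ coeffRing A ∧ (expInf N (g • uWH N d hd))⁻¹ ∈ coeffRing A ∧
      (expInf N (g • uWH N d hd)).order = unitOrd N d ((g⁻¹ : SL(2, ℤ)) 1 0) ∧
      ∃ c : ℂ, c ∈ A ∧ c⁻¹ ∈ A ∧
        (expInf N (g • uWH N d hd)).coeff (unitOrd N d ((g⁻¹ : SL(2, ℤ)) 1 0)) = c := by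
  have hN : 0 < N := Nat.pos_of_ne_zero (NeZero.ne N)
  obtain ⟨a, δ, b, ha, hδ, haδ, hgcd, hmul⟩ := expInf_smul_uWH_mul hd g
  have hδN : δ ∣ N := (Dvd.intro_left a haδ).trans hd
  have he : 0 < a * (N / δ) := Nat.mul_pos ha (Nat.div_pos (Nat.le_of_dvd hN hδN) hδ)
  have hδC : (δ : ℂ) ≠ 0 := by exact_mod_cast hδ.ne'
  have hζ0 : zetaC δ ≠ 0 := Complex.exp_ne_zero _
  set c : ℂ := ((δ : ℂ) ^ 12)⁻¹ * zetaC δ ^ b with hc
  have hc0 : c ≠ 0 := mul_ne_zero (inv_ne_zero (pow_ne_zero _ hδC)) (zpow_ne_zero _ hζ0)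
  have hcA : c ∈ A := by
    refine A.mul_mem ?_ (hA _ (uw_zetaC_zpow_pow N δ hδ hδN b))
    rw [← inv_pow]
    exact A.pow_mem (uw_inv_natCast_mem A hNinv hδN) 12
  have hcA' : c⁻¹ ∈ A := by
    have e : c⁻¹ = (δ : ℂ) ^ 12 * zetaC δ ^ (-b) := by
      rw [hc, mul_inv, inv_inv, zpow_neg]
    rw [e]
    exact A.mul_mem (A.pow_mem (natCast_mem A δ) 12) (hA _ (uw_zetaC_zpow_pow N δ hδ hδN (-b)))
  obtain ⟨hp, hp', hpo, hpc⟩ := uw_unit_series A (conjCoeff N a δ b) (a * (N / δ)) c hcA' hc0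
    (conjCoeff_mem A hA hNinv a δ b hδ hδN) (conjCoeff_low N a δ b) (conjCoeff_self N a δ b he)
  obtain ⟨hq, hq', hqo, hqc⟩ := deltaL_unit A N
  obtain ⟨h1, h2, h3, h4⟩ := uw_quot_series A _ _ _ hmul (a * (N / δ)) N c 1 hp hp' hpo hpc hc0
    hq hq' hqo hqc one_ne_zero
  have hord : ((a * (N / δ) : ℕ) : ℤ) - (N : ℤ) = unitOrd N d ((g⁻¹ : SL(2, ℤ)) 1 0) := by
    unfold unitOrd
    rw [← hgcd, uw_exp_eq hδ haδ hd]
    push_cast
    ring
  rw [hord] at h3 h4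
  refine ⟨h1, h2, h3, c, hcA, hcA', ?_⟩
  rw [h4, div_one]

variable (A : Subring ℂ) (hA : ∀ ζ : ℂ, ζ ^ N = 1 → ζ ∈ A) (hNinv : ((N : ℂ))⁻¹ ∈ A)

include hA hNinv in
theorem expInf_smul_uWH_mem (hd : d ∣ N) (g : SL(2, ℤ)) :
    expInf N (g • uWH N d hd) ∈ coeffRing A :=
  (expInf_smul_uWH_main A hA hNinv hd g).1

lemma expInf_smul_uWHinv_eq (hd : d ∣ N) (g : SL(2, ℤ)) :
    expInf N (g • uWHinv N d hd) = (expInf N (g • uWH N d hd))⁻¹ := by
  have h := congrArg (expInf N) (smul_uWH_mul_smul_uWHinv N d hd g)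
  rw [map_mul, map_one] at h
  exact eq_inv_of_mul_eq_one_right h

include hA hNinv in
theorem expInf_smul_uWHinv_mem (hd : d ∣ N) (g : SL(2, ℤ)) :
    expInf N (g • uWHinv N d hd) ∈ coeffRing A := by
  rw [expInf_smul_uWHinv_eq]
  exact (expInf_smul_uWH_main A hA hNinv hd g).2.1

theorem expInf_smul_uWH_order (hd : d ∣ N) (g : SL(2, ℤ)) :
    (expInf N (g • uWH N d hd)).order = unitOrd N d ((g⁻¹ : SL(2, ℤ)) 1 0) :=
  (expInf_smul_uWH_main (⊤ : Subring ℂ) (fun _ _ => Subring.mem_top _) (Subring.mem_top _)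
    hd g).2.2.1

include hA hNinv in
theorem expInf_smul_uWH_lead (hd : d ∣ N) (g : SL(2, ℤ)) :
    ∃ c : ℂ, c ∈ A ∧ c⁻¹ ∈ A ∧
      (expInf N (g • uWH N d hd)).coeff (unitOrd N d ((g⁻¹ : SL(2, ℤ)) 1 0)) = c :=
  (expInf_smul_uWH_main A hA hNinv hd g).2.2.2

end Results

/-! ### The link with the formal unit `udq d = Δ(q^d)/Δ(q)` -/

section Bridge

lemma deltaQ_coeff_natCast (t : ℕ) : deltaQ.coeff (t : ℤ) = ((tauZ t : ℤ) : ℚ) := by
  unfold deltaQ
  rw [HahnSeries.ofPowerSeries_apply_coeff, PowerSeries.coeff_map]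
  rfl

lemma deltaQ_coeff_neg {t : ℤ} (ht : t < 0) : deltaQ.coeff t = 0 := by
  unfold deltaQ
  exact ModularCurve.ofPowerSeries_coeff_of_neg _ ht

/-- `Δ(q^M)` over `ℂ`, coefficientwise. -/
theorem qExpand_coeffMap_deltaQ (M : ℕ) [NeZero M] :
    qExpand ℂ M (coeffMap (algebraMap ℚ ℂ) deltaQ) =
      HahnSeries.ofPowerSeries ℤ ℂ (PowerSeries.mk (deltaCoeff M)) := by
  have hM : (0 : ℤ) < (M : ℤ) := by exact_mod_cast Nat.pos_of_ne_zero (NeZero.ne M)
  ext n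
  by_cases hdvd : (M : ℤ) ∣ n
  · obtain ⟨t, rfl⟩ := hdvd
    rw [qExpand_coeff_mul, coeffMap_coeff]
    by_cases ht : 0 ≤ t
    · obtain ⟨t', rfl⟩ := Int.eq_ofNat_of_zero_le ht
      rw [deltaQ_coeff_natCast, show ((M : ℤ) * (t' : ℤ)) = ((M * t' : ℕ) : ℤ) by push_cast; rfl,
        HahnSeries.ofPowerSeries_apply_coeff, PowerSeries.coeff_mk]
      unfold deltaCoeff
      rw [if_pos (Dvd.intro _ rfl), Nat.mul_div_cancel_left _ (Nat.pos_of_ne_zero (NeZero.ne M))]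
      simp
    · rw [not_le] at ht
      rw [deltaQ_coeff_neg ht, map_zero, uw_ofPowerSeries_coeff_neg _ (mul_neg_of_pos_of_neg hM ht)]
  · rw [qExpand_coeff_of_not_dvd _ _ hdvd]
    by_cases hn : 0 ≤ n
    · obtain ⟨n', rfl⟩ := Int.eq_ofNat_of_zero_le hn
      rw [HahnSeries.ofPowerSeries_apply_coeff, PowerSeries.coeff_mk]
      unfold deltaCoeff
      rw [if_neg (fun h => hdvd (Int.natCast_dvd_natCast.2 h))]
    · rw [uw_ofPowerSeries_coeff_neg _ (not_le.1 hn)]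

variable (N d : ℕ) [NeZero N] [NeZero d]

lemma hasSum_deltaD (z : ℍ) :
    HasSum (fun k : ℕ => deltaCoeff (N * d) k * Function.Periodic.qParam (N : ℝ) (z : ℂ) ^ k)
      (deltaD d z) := by
  have hd0 : 0 < d := Nat.pos_of_ne_zero (NeZero.ne d)
  have hN0 : 0 < N := Nat.pos_of_ne_zero (NeZero.ne N)
  have h := hasSum_discriminant (nmulH d z)
  rw [coe_nmulH, ei_qParam_one_nmul N d] at h
  exact hasSum_pow_reindex (N * d) (Nat.mul_pos hN0 hd0) (fun n : ℕ => ((tauZ n : ℤ) : ℂ)) _ _ h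

/-- **Bridge**: the `q_N`-expansion of `u_d` is the formal unit `Δ(q^d)/Δ(q)`. -/
theorem expInf_uWH (hd : d ∣ N) :
    expInf N (uWH N d hd) = qExpand ℂ N (coeffMap (algebraMap ℚ ℂ) (udq d)) := by
  have hk : IsMF (Gamma N) (12 * ((1 : ℕ) : ℤ))
      (((uWH N d hd : WH N) : ℍ → ℂ) * discriminant ^ 1) := by
    have h := isMF_smul_uWH hd (1 : SL(2, ℤ))
    rwa [one_smul] at h
  have h1 := expInf_mul_pow (uWH N d hd) 1 hk
  rw [pow_one] at h1
  have h2 : qExpansion (N : ℝ) (((uWH N d hd : WH N) : ℍ → ℂ) * discriminant ^ 1) =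
      PowerSeries.mk (deltaCoeff (N * d)) := by
    ext k
    rw [PowerSeries.coeff_mk]
    symm
    refine qExpansion_coeff_unique_fun (h := (N : ℝ)) _ ei_N_pos (ei_analyticAt hk)
      (fun τ => ?_) k
    have h3 := hasSum_deltaD N d τ
    convert h3 using 1
    rw [pow_one, coe_uWH, uH_mul_discriminant]
  have h4 : qExpand ℂ N (coeffMap (algebraMap ℚ ℂ) (udq d)) * deltaL N =
      HahnSeries.ofPowerSeries ℤ ℂ (PowerSeries.mk (deltaCoeff (N * d))) := by
    rw [deltaL_eq, ← qExpand_coeffMap_deltaQ N, ← map_mul, ← map_mul, udq_mul_deltaQ,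
      ModularCurve.coeffMap_qExpand, qExpand_qExpand, qExpand_coeffMap_deltaQ (N * d)]
  have h5 : expInf N (uWH N d hd) * deltaL N =
      qExpand ℂ N (coeffMap (algebraMap ℚ ℂ) (udq d)) * deltaL N := by
    rw [h1, h2, h4]
  exact mul_right_cancel₀ (deltaL_ne_zero N) h5

end Bridge

/-! ### `ℚ̄`-rationality -/

section KRational

variable (N d : ℕ) [NeZero N]

lemma uw_root_of_unity_mem_range (ζ : ℂ) (hζ : ζ ^ N = 1) : ζ ∈ ιC.range := by
  have hN : 0 < N := Nat.pos_of_ne_zero (NeZero.ne N)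
  have hsplit : ((Polynomial.X : Polynomial (AlgebraicClosure ℚ)) ^ N - Polynomial.C 1).Splits :=
    IsAlgClosed.splits _
  have hne : ((Polynomial.X : Polynomial (AlgebraicClosure ℚ)) ^ N - Polynomial.C 1) ≠ 0 :=
    Polynomial.X_pow_sub_C_ne_zero hN 1
  have hroot : (((Polynomial.X : Polynomial (AlgebraicClosure ℚ)) ^ N - Polynomial.C 1).map
      ιC).IsRoot ζ := by
    simp [Polynomial.IsRoot, hζ]
  obtain ⟨x, hx⟩ := hsplit.mem_range_of_isRoot hne hroot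
  exact ⟨x, hx⟩

omit [NeZero N] in
lemma uw_inv_natCast_mem_range : ((N : ℂ))⁻¹ ∈ ιC.range :=
  ⟨((N : Kbar))⁻¹, by rw [map_inv₀, map_natCast]⟩

theorem uWH_mem_KRat (hd : d ∣ N) : uWH N d hd ∈ KRat N := by
  intro g n
  have h := expInf_smul_uWH_mem ιC.range (uw_root_of_unity_mem_range N)
    (uw_inv_natCast_mem_range N) hd g
  rw [mem_coeffRing_iff] at h
  exact h n

theorem uWHinv_mem_KRat (hd : d ∣ N) : uWHinv N d hd ∈ KRat N := by
  intro g n
  have h := expInf_smul_uWHinv_mem ιC.range (uw_root_of_unity_mem_range N)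
    (uw_inv_natCast_mem_range N) hd g
  rw [mem_coeffRing_iff] at h
  exact h n

end KRational

end Fermat.Agent.S28lib
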