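/-
S28 library (item 66), piece U3 (helper11): MEMBERSHIP in the function field over `ℚ`.

A `Γ₀(N)`-invariant weakly holomorphic function `a ∈ WH N` whose expansion at `∞` is (the image of)
a Laurent series `x ∈ ℚ((q))` with RATIONAL coefficients comes from the function field
`modularFunctionFieldFull N ⊂ ℚ((q))`:   `x ∈ modularFunctionFieldFull N`.

Proof: `AJlib.k2_mem_range` (helper4: `a` lies in the function field over `ℂ`) +
`AJlib.mem_laurentBaseChange_of_coeffMap` (helper27: descent of the constant field).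
No sorry.
-/
import Mathlib
import Fermat.Agent.AJlib.CK2
import Fermat.Agent.AJlib.Rational
import Fermat.Agent.S28lib.UnitDefs

set_option autoImplicit false

open scoped MatrixGroups
open ModularCurve CongruenceSubgroup IntermediateField

namespace Fermat.Agent.S28lib

open Fermat.Agent.S24lib Fermat.Agent.AJlib

/-- `coeffEmb ℚ` is the identity. -/
theorem um_coeffEmb_rat (x : LaurentSeries ℚ) : coeffEmb ℚ x = x := by
  ext k
  rw [coeffEmb_coeff]
  rfl

/-- Base change of the constant field to `ℚ` does nothing. -/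
theorem um_laurentBaseChange_rat (F₀ : IntermediateField ℚ (LaurentSeries ℚ)) :
    laurentBaseChange ℚ F₀ = F₀ := by
  unfold laurentBaseChange
  have h : (⇑(coeffEmb ℚ) '' (F₀ : Set (LaurentSeries ℚ))) = (F₀ : Set (LaurentSeries ℚ)) := by
    ext x
    constructor
    · rintro ⟨y, hy, rfl⟩
      rw [um_coeffEmb_rat]
      exact hy
    · intro hx
      exact ⟨x, hx, um_coeffEmb_rat x⟩
  rw [h]
  exact IntermediateField.adjoin_self ℚ F₀

/-- **U3 (membership).** A `Γ₀(N)`-invariant element of `WH N` whose expansion at `∞` is the image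
of `x ∈ ℚ((q))` comes from the function field over `ℚ`. -/
theorem mem_full_of_expInf (N : ℕ) [NeZero N] (x : LaurentSeries ℚ) (a : WH N)
    (hinv : ∀ γ ∈ Gamma0 N, γ • a = a)
    (hexp : expInf N a = qExpand ℂ N (coeffMap (algebraMap ℚ ℂ) x)) :
    x ∈ modularFunctionFieldFull N := by
  obtain ⟨f, hf⟩ := k2_mem_range N a hinv
  have h1 : inclLC N (f : LaurentSeries ℂ) = expInf N a := by
    rw [← liftMF_ιFC, hf, liftMF_algebraMap]
  rw [hexp] at h1
  have h2 : (f : LaurentSeries ℂ) = coeffMap (algebraMap ℚ ℂ) x :=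
    qExpand_injective (R := ℂ) N h1
  have h3 : coeffMap (algebraMap ℚ ℂ) x ∈ laurentBaseChange ℂ (modularFunctionFieldFull N) := by
    rw [← h2]
    exact f.2
  have h4 := mem_laurentBaseChange_of_coeffMap (modularFunctionFieldFull N) ℚ ℂ
    (algebraMap ℚ ℂ) x h3
  rwa [um_laurentBaseChange_rat] at h4

/-- the special case of the formal modular unit `Δ(q^d)/Δ(q)` -/
theorem udq_mem_of (N d : ℕ) [NeZero N] [NeZero d] (a : WH N)
    (hinv : ∀ γ ∈ Gamma0 N, γ • a = a)
    (hexp : expInf N a = qExpand ℂ N (coeffMap (algebraMap ℚ ℂ) (udq d))) :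
    udq d ∈ modularFunctionFieldFull N :=
  mem_full_of_expInf N (udq d) a hinv hexp

end Fermat.Agent.S28lib
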