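/-
S28 library, piece U (helper17): the modular unit.

`exists_unit`: for `ℓ ∤ N` and a coefficient ring `A ⊂ ℂ` containing the `N`-th roots of unity and
the inverses of the integers prime to `ℓ`, there is `u ∈ F = ℚ(j_d : d ∣ N)` such that `u` and
`u⁻¹` are integral over `ℚ[j]`, all conjugate expansions of `u` and `u⁻¹` have coefficients in `A`,
and every conjugate expansion of `u` other than the one at `i∞` has a pole whose leading
coefficient is a unit of `A`.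

`u = ∏_{J ⊆ primeFactors N} (Δ(q^{N/p_J})/Δ(q))^{r_J}`, `r_J = (-1)^{|J|} ∏_{p ∉ J} p`.
Pieces: U1 analysis (helper13: UnitWH, UnitExp), U2 combinatorics (UnitComb), U3 membership
(helper11: UnitMem, via helper4's CK2 and helper27's descent), U4 integrality (helper11: UnitInt),
assembly (UnitAsm, UnitAsm2).
-/
import Mathlib
import Fermat.Agent.S28lib.UnitAsm2
import Fermat.Agent.S28lib.UnitExp
import Fermat.Agent.S28lib.UnitMem
import Fermat.Agent.S28lib.UnitInt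

set_option autoImplicit false

open scoped MatrixGroups
open ModularCurve ModularCurve.IgusaScheme CongruenceSubgroup

namespace Fermat.Agent.S28lib

open Fermat.Agent.S24lib

/-- the expansion at `i∞` of `u_d⁻¹`. -/
theorem expInf_uWHinv (N d : ℕ) [NeZero N] [NeZero d] (hd : d ∣ N) :
    expInf N (uWHinv N d hd) = qExpand ℂ N (coeffMap (algebraMap ℚ ℂ) (udq d)⁻¹) := by
  have h := expInf_smul_uWHinv_eq hd (1 : SL(2, ℤ))
  rw [one_smul, one_smul] at h
  rw [h, expInf_uWH N d hd, map_inv₀, map_inv₀]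

/-- **The modular unit** (piece U of the S28 blueprint). -/
theorem exists_unit (N ℓ : ℕ) [NeZero N] [Fact ℓ.Prime] (hℓN : ¬ ℓ ∣ N) (A : Subring ℂ)
    (hζ : ∀ ζ : ℂ, ζ ^ N = 1 → ζ ∈ A) (hinv : ∀ m : ℕ, ¬ ℓ ∣ m → ((m : ℂ))⁻¹ ∈ A) :
    ∃ u : ↥(modularFunctionFieldFull N), u ≠ 0 ∧
      IsIntegral ↥(Algebra.adjoin ℚ {jFull N}) u ∧
      IsIntegral ↥(Algebra.adjoin ℚ {jFull N}) u⁻¹ ∧
      (∀ q, sig N q u ∈ coeffRing A) ∧ (∀ q, sig N q u⁻¹ ∈ coeffRing A) ∧
      ∀ q : SL(2, ℤ) ⧸ Gamma0 N, q ≠ ((1 : SL(2, ℤ)) : SL(2, ℤ) ⧸ Gamma0 N) →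
        ∃ n : ℤ, n < 0 ∧ ∃ c ∈ A, (sig N q u).coeff n * c = 1 := by
  have hNinv : ((N : ℂ))⁻¹ ∈ A := hinv N hℓN
  have hmemF : ∀ (d : ℕ) [NeZero d], d ∣ N → udq d ∈ modularFunctionFieldFull N :=
    fun d _ hd => udq_mem_of N d (uWH N d hd) (fun γ hγ => smul_uWH hd γ hγ) (expInf_uWH N d hd)
  refine exists_unit_of N A hmemF (fun d _ hd => expInf_uWH N d hd)
    (fun d hd g => expInf_smul_uWH_mem A hζ hNinv hd g)
    (fun d hd g => expInf_smul_uWHinv_mem A hζ hNinv hd g)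
    (fun d hd g => expInf_smul_uWH_order hd g) ?_
  intro d _ hd h
  constructor
  · exact isIntegral_of_WH N ⟨udq d, h⟩ (uWH N d hd) (uWH_mem_KRat N d hd)
      (fun γ hγ => smul_uWH hd γ hγ) (expInf_uWH N d hd)
  · exact isIntegral_of_WH N (⟨udq d, h⟩)⁻¹ (uWHinv N d hd) (uWHinv_mem_KRat N d hd)
      (fun γ hγ => smul_uWHinv hd γ hγ) (expInf_uWHinv N d hd)

end Fermat.Agent.S28lib
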