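/-
S28 library (item 66, helper24) — the KEY lemma, UNCONDITIONAL, as an interface for items 67/68/75
(`KeyFin M ℓ` of NOTES/GM_signatures.lean.txt is exactly `keyFin`).

* `nonempty_expData_of_not_dvd` : expansion data (`ExpData N ℓ`) exist for every `ℓ ∤ N`;
* `keyFin`  : `b ∈ chartAlgFin`, `redMid b = 0`  ⇒  `b ∈ ℓ · chartAlgFin`;
* `keyInf`  : the same for the chart at infinity;
* `rho_eq_zero_of_rho_i₀` : ALL reduced conjugate expansions vanish as soon as the one at `∞` does
  (the reduced conjugate expansions factor through `chartAlgFin / ℓ`).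
This file is NOT in the import closure of `S28.lean`.  No sorry.
-/
import Mathlib
import Fermat.Agent.S28lib.FinalCore
import Fermat.Agent.S28lib.Unit

set_option autoImplicit false

open scoped MatrixGroups
open ModularCurve ModularCurve.IgusaScheme CongruenceSubgroup IntermediateField

namespace Fermat.Agent.S28lib

noncomputable section

/-- Expansion data exist for every level prime to `ℓ`. -/
theorem nonempty_expData_of_not_dvd (N ℓ : ℕ) [NeZero N] [Fact ℓ.Prime] (hℓN : ¬ ℓ ∣ N) :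
    Nonempty (ExpData N ℓ) :=
  nonempty_expData hℓN (fun A hζ hinv => exists_unit N ℓ hℓN A hζ hinv)

/-- **KEY (finite chart).** An element of the finite chart algebra whose `q`-expansion vanishes
mod `ℓ` is divisible by `ℓ` in the chart algebra. -/
theorem keyFin (N ℓ : ℕ) [NeZero N] [Fact ℓ.Prime] (hℓN : ¬ ℓ ∣ N)
    (b : ↥(chartAlgFin N ℓ)) (hb : redMid ℓ N (inclFin N ℓ b) = 0) :
    ∃ c : ↥(chartAlgFin N ℓ), b = (ℓ : ↥(chartAlgFin N ℓ)) * c := by
  obtain ⟨E⟩ := nonempty_expData_of_not_dvd N ℓ hℓN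
  exact ker_fin_of_expData E b hb

/-- **KEY (chart at infinity).** -/
theorem keyInf (N ℓ : ℕ) [NeZero N] [Fact ℓ.Prime] (hℓN : ¬ ℓ ∣ N)
    (b : ↥(chartAlgInf N ℓ)) (hb : redMid ℓ N (inclInf N ℓ b) = 0) :
    ∃ c : ↥(chartAlgInf N ℓ), b = (ℓ : ↥(chartAlgInf N ℓ)) * c :=
  ker_inf_of_ker_fin N ℓ (keyFin N ℓ hℓN) b hb

variable {N : ℕ} [NeZero N] {ℓ : ℕ} [Fact ℓ.Prime]

/-- The reduced conjugate expansions kill `ℓ`. -/
theorem rho_natCast_mul (E : ExpData N ℓ) (i : E.I) (c : ↥(chartAlgFin N ℓ)) :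
    rho E i ((ℓ : ↥(chartAlgFin N ℓ)) * c) = 0 := by
  rw [map_mul, map_natCast, natCast_laurent_eq_zero, zero_mul]

/-- If the reduced expansion at `∞` of `x ∈ chartAlgFin` vanishes then ALL reduced conjugate
expansions of `x` vanish. -/
theorem rho_eq_zero_of_rho_i₀ (E : ExpData N ℓ) (x : ↥(chartAlgFin N ℓ))
    (hx : rho E E.i₀ x = 0) (i : E.I) : rho E i x = 0 := by
  obtain ⟨c, rfl⟩ := RedData.ker_eq (E.toRedData) x hx
  exact rho_natCast_mul E i c

end

end Fermat.Agent.S28lib
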