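/-
S28 library (item 66, helper24) — the KEY lemma FOR ALL CONJUGATE EXPANSIONS and ANY coefficient
ring; interface for item 75a (GM-R, step R3).  Not in the import closure of `S28.lean`.

* `exists_charpoly_sig` : for `c ∈ chartAlgFin N ℓ` (`ℓ ∤ N`) the polynomial `∏_q (X - sig N q c)`
  is the image of a monic polynomial with coefficients in `ℤ_(ℓ)[j]`;
* `coeffRed_sig_eq_zero_of_redMid` : if `y ∈ chartAlgFin N ℓ` has `q`-expansion `≡ 0 mod ℓ`, then for
  EVERY subring `A' ⊂ ℂ` containing `ℤ_(ℓ)`, every ring hom `r' : A' → k'` (`k'` a field) killing `ℓ`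
  and every coset `q`: if all conjugate expansions `sig N q' y` have coefficients in `A'`, then the
  coefficientwise reduction of `sig N q y` is `0`.
No sorry.
-/
import Mathlib
import Fermat.Agent.S28lib.Key

set_option autoImplicit false

open scoped MatrixGroups
open ModularCurve ModularCurve.IgusaScheme CongruenceSubgroup IntermediateField

namespace Fermat.Agent.S28lib

open Fermat.Agent.S24lib

noncomputable section

variable {N : ℕ} [NeZero N] {ℓ : ℕ} [Fact ℓ.Prime]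

/-- the expansion data built from explicit cyclotomic data and the modular unit, with
`σ = sig N` definitionally -/
def mkExpData (A : Subring ℂ) (𝔽 : Type) [Field 𝔽] [CharP 𝔽 ℓ] (r : ↥A →+* 𝔽)
    (hPID : IsPrincipalIdealRing ↥A)
    (hζ : ∀ ζ : ℂ, ζ ^ N = 1 → ζ ∈ A) (hinv : ∀ m : ℕ, ¬ ℓ ∣ m → ((m : ℂ))⁻¹ ∈ A)
    (hker : ∀ x : ↥A, r x = 0 → ∃ y : ↥A, x = (ℓ : ↥A) * y)
    (hrat : ∀ x : ℚ, ((x : ℂ)) ∈ A → x ∈ GaloisRep.ratLocalizedAt ℓ)
    (u : ↥(modularFunctionFieldFull N)) (hu0 : u ≠ 0)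
    (hui : IsIntegral ↥(Algebra.adjoin ℚ {jFull N}) u)
    (huinv : IsIntegral ↥(Algebra.adjoin ℚ {jFull N}) u⁻¹)
    (huc : ∀ q, sig N q u ∈ coeffRing A) (huic : ∀ q, sig N q u⁻¹ ∈ coeffRing A)
    (huo : ∀ q : SL(2, ℤ) ⧸ Gamma0 N, q ≠ ((1 : SL(2, ℤ)) : SL(2, ℤ) ⧸ Gamma0 N) →
      ∃ n : ℤ, n < 0 ∧ ∃ hn : (sig N q u).coeff n ∈ A, r ⟨(sig N q u).coeff n, hn⟩ ≠ 0) :
    ExpData N ℓ :=
  letI : DecidableEq (SL(2, ℤ) ⧸ Gamma0 N) := Classical.decEq _
  { A := A
    𝔽 := 𝔽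
    r := r
    ker_r := hker
    A_rat := hrat
    Zl_mem := ratCast_mem_of_inv_mem A hinv
    normal := fun x b hb hb0 hxb hint => coeffRing_normal A x b hb hb0 hxb hint
    I := SL(2, ℤ) ⧸ Gamma0 N
    i₀ := ((1 : SL(2, ℤ)) : SL(2, ℤ) ⧸ Gamma0 N)
    σ := sig N
    σ_i₀ := sig_one N
    σ_j := fun i => by rw [sig_jFull, sig_jFull]
    σ_frac := fun i f => sig_frac N A hζ i f
    sym := sym_rat N
    u := u
    u_ne := hu0
    u_int := hui
    u_inv_int := huinv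
    u_coeff := huc
    u_inv_coeff := huic
    u_order := huo }

/-- the unit statement gives the `u_order` field for any residue map -/
theorem unit_order_of {A : Subring ℂ} {𝔽 : Type} [Field 𝔽] (r : ↥A →+* 𝔽)
    {u : ↥(modularFunctionFieldFull N)} (huc : ∀ q, sig N q u ∈ coeffRing A)
    (huo : ∀ q : SL(2, ℤ) ⧸ Gamma0 N, q ≠ ((1 : SL(2, ℤ)) : SL(2, ℤ) ⧸ Gamma0 N) →
      ∃ n : ℤ, n < 0 ∧ ∃ c ∈ A, (sig N q u).coeff n * c = 1)
    (q : SL(2, ℤ) ⧸ Gamma0 N) (hq : q ≠ ((1 : SL(2, ℤ)) : SL(2, ℤ) ⧸ Gamma0 N)) :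
    ∃ n : ℤ, n < 0 ∧ ∃ hn : (sig N q u).coeff n ∈ A, r ⟨(sig N q u).coeff n, hn⟩ ≠ 0 := by
  obtain ⟨n, hn, c, hc, h1⟩ := huo q hq
  have hmem : (sig N q u).coeff n ∈ A := mem_coeffRing_iff.mp (huc q) n
  refine ⟨n, hn, hmem, fun h0 => ?_⟩
  have h2 : (⟨(sig N q u).coeff n, hmem⟩ : ↥A) * ⟨c, hc⟩ = 1 := Subtype.ext h1
  have h3 := congrArg r h2
  rw [map_mul, h0, zero_mul, map_one] at h3
  exact zero_ne_one h3

/-- **Characteristic polynomial over `ℤ_(ℓ)[j]`, unconditional.** -/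
theorem exists_charpoly_sig (hℓN : ¬ ℓ ∣ N) (c : ↥(chartAlgFin N ℓ)) :
    ∃ P : Polynomial (Polynomial ↥(GaloisRep.ratLocalizedAt ℓ)), P.Monic ∧
      ∀ q' : SL(2, ℤ) ⧸ Gamma0 N, (P.map (phiZ N ℓ)).map (sig N q') =
        ∏ q : SL(2, ℤ) ⧸ Gamma0 N,
          (Polynomial.X - Polynomial.C (sig N q (c : ↥(modularFunctionFieldFull N)))) := by
  classical
  obtain ⟨A, 𝔽, i𝔽, iC, r, hPID, hζ, hinv, hker, hrat⟩ := exists_cycRed N ℓ hℓN
  obtain ⟨u, hu0, hui, huinv, huc, huic, huo⟩ := exists_unit N ℓ hℓN A hζ hinv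
  set E : ExpData N ℓ := mkExpData A 𝔽 r hPID hζ hinv hker hrat u hu0 hui huinv huc huic
    (unit_order_of r huc huo) with hE
  have hy : (phiZ N ℓ).IsIntegralElem (c : ↥(modularFunctionFieldFull N)) :=
    (mem_chartAlgFin_iff_phiZ _).mp c.2
  obtain ⟨P, hPm, hP⟩ := exists_charpoly E (c : ↥(modularFunctionFieldFull N))
    (phiZ_isIntegralElem_imp_phiQ hy) (fun i => sig_mem_chart E i c)
  exact ⟨P, hPm, fun q' => hP q'⟩

/-! ### A nilpotence lemma -/

/-- Let `T ⊆ S` be a subring, `φ : T → D` a ring hom to a reduced ring in which `ℓ = 0`.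
If `s ∈ S` is a root of a monic polynomial with coefficients in `T` and `ℓ · s ∈ T`, then
`φ (ℓ · s) = 0`. -/
theorem map_natCast_mul_eq_zero_of_monic {S D : Type*} [CommRing S] [CommRing D] [IsReduced D]
    (T : Subring S) (φ : ↥T →+* D) (n : ℕ) (hn : (n : D) = 0)
    (R : Polynomial ↥T) (hR : R.Monic) (s : S) (hs : Polynomial.eval₂ T.subtype s R = 0)
    (hmem : (n : S) * s ∈ T) : φ ⟨(n : S) * s, hmem⟩ = 0 := by
  set Q : Polynomial ↥T := Polynomial.scaleRoots R (n : ↥T) with hQ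
  have h1 : Polynomial.eval₂ T.subtype ((n : S) * s) Q = 0 := by
    have := Polynomial.scaleRoots_eval₂_mul (p := R) T.subtype s (n : ↥T)
    rw [hs, mul_zero] at this
    simpa using this
  have h2 : Polynomial.eval (⟨(n : S) * s, hmem⟩ : ↥T) Q = 0 := by
    apply Subtype.val_injective
    have := Polynomial.hom_eval₂ Q (RingHom.id ↥T) T.subtype (⟨(n : S) * s, hmem⟩ : ↥T)
    rw [RingHom.comp_id] at this
    have h3 : T.subtype (Polynomial.eval₂ (RingHom.id ↥T) (⟨(n : S) * s, hmem⟩ : ↥T) Q) = 0 := by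
      rw [this]; exact h1
    rw [Polynomial.eval₂_id] at h3
    simpa using h3
  have h4 : Q.map φ = Polynomial.X ^ R.natDegree := by
    ext i
    rw [Polynomial.coeff_map, hQ, Polynomial.coeff_scaleRoots, Polynomial.coeff_X_pow, map_mul,
      map_pow, map_natCast, hn]
    rcases lt_trichotomy i R.natDegree with h | h | h
    · rw [if_neg h.ne, zero_pow (by omega), mul_zero]
    · rw [if_pos h, h, Nat.sub_self, pow_zero, mul_one, Polynomial.Monic.coeff_natDegree hR,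
        map_one]
    · rw [if_neg h.ne', Polynomial.coeff_eq_zero_of_natDegree_lt h, map_zero, zero_mul]
  have h5 : Polynomial.eval (φ ⟨(n : S) * s, hmem⟩) (Q.map φ) = 0 := by
    rw [Polynomial.eval_map, Polynomial.eval₂_at_apply, h2, map_zero]
  rw [h4, Polynomial.eval_pow, Polynomial.eval_X] at h5
  exact IsReduced.eq_zero _ ⟨_, h5⟩

/-! ### Conjugate expansions of `ℤ_(ℓ)[j]` -/

/-- the conjugate expansions of an element of `ℤ_(ℓ)[j]` have coefficients in every subring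
containing `ℤ_(ℓ)` -/
theorem sig_phiZ_mem_of (A' : Subring ℂ)
    (hZ : ∀ x : ℚ, x ∈ GaloisRep.ratLocalizedAt ℓ → ((x : ℂ)) ∈ A')
    (q : SL(2, ℤ) ⧸ Gamma0 N) (g : Polynomial ↥(GaloisRep.ratLocalizedAt ℓ)) :
    sig N q (phiZ N ℓ g) ∈ coeffRing A' := by
  induction g using Polynomial.induction_on with
  | C a =>
    have h1 : phiZ N ℓ (Polynomial.C a) = ((a : ℚ) : ↥(modularFunctionFieldFull N)) := by
      unfold phiZ
      simp only [AlgHom.toRingHom_eq_coe, RingHom.coe_coe, Polynomial.aeval_C]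
      rfl
    rw [h1, map_ratCast_eq_C]
    exact C_mem_coeffRing A' (hZ _ a.2)
  | add f g hf hg => rw [map_add, map_add]; exact Subring.add_mem _ hf hg
  | monomial n a h =>
    rw [pow_succ, ← mul_assoc, map_mul, map_mul]
    refine Subring.mul_mem _ h ?_
    have h1 : phiZ N ℓ Polynomial.X = jFull N := by
      unfold phiZ
      simp
    rw [h1, sig_jFull]
    exact Jser_mem_coeffRing A'

/-- **KEY for all conjugates.**  If `y ∈ chartAlgFin N ℓ` has `q`-expansion `≡ 0 mod ℓ`, then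
for every subring `A' ⊂ ℂ` containing `ℤ_(ℓ)`, every ring hom `r'` from `A'` to a field of
characteristic `ℓ` and every coset `q` such that `sig N q y` has coefficients in `A'`, the
coefficientwise reduction of `sig N q y` vanishes. -/
theorem coeffRed_sig_eq_zero_of_redMid (hℓN : ¬ ℓ ∣ N) (A' : Subring ℂ)
    (hZ : ∀ x : ℚ, x ∈ GaloisRep.ratLocalizedAt ℓ → ((x : ℂ)) ∈ A')
    {k' : Type*} [Field k'] [CharP k' ℓ] (r' : ↥A' →+* k')
    (y : ↥(chartAlgFin N ℓ)) (hy : redMid ℓ N (inclFin N ℓ y) = 0)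
    (q : SL(2, ℤ) ⧸ Gamma0 N)
    (hmem : sig N q (y : ↥(modularFunctionFieldFull N)) ∈ coeffRing A') :
    coeffRed r' ⟨sig N q (y : ↥(modularFunctionFieldFull N)), hmem⟩ = 0 := by
  classical
  obtain ⟨c, rfl⟩ := keyFin N ℓ hℓN y hy
  obtain ⟨P, hPm, hP⟩ := exists_charpoly_sig hℓN c
  -- the monic polynomial over `coeffRing A'`
  let τ : Polynomial ↥(GaloisRep.ratLocalizedAt ℓ) →+* ↥(coeffRing A') :=
    ((sig N q).comp (phiZ N ℓ)).codRestrict (coeffRing A') (sig_phiZ_mem_of A' hZ q)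
  have hτ : (coeffRing A').subtype.comp τ = (sig N q).comp (phiZ N ℓ) := RingHom.ext fun _ => rfl
  have hroot : Polynomial.eval₂ (coeffRing A').subtype
      (sig N q (c : ↥(modularFunctionFieldFull N))) (P.map τ) = 0 := by
    rw [Polynomial.eval₂_map, hτ, ← Polynomial.eval_map, ← Polynomial.map_map, hP q,
      Polynomial.eval_prod]
    exact Finset.prod_eq_zero (Finset.mem_univ q) (by simp)
  have hval : sig N q (((ℓ : ↥(chartAlgFin N ℓ)) * c : ↥(chartAlgFin N ℓ)) :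
      ↥(modularFunctionFieldFull N)) =
      ((ℓ : ℕ) : LaurentSeries ℂ) * sig N q (c : ↥(modularFunctionFieldFull N)) := by
    rw [Subalgebra.coe_mul, map_mul]
    congr 1
    have : (((ℓ : ℕ) : ↥(chartAlgFin N ℓ)) : ↥(modularFunctionFieldFull N)) =
        ((ℓ : ℕ) : ↥(modularFunctionFieldFull N)) := by norm_cast
    rw [this, map_natCast]
  have hmem' : ((ℓ : ℕ) : LaurentSeries ℂ) * sig N q (c : ↥(modularFunctionFieldFull N)) ∈
      coeffRing A' := hval ▸ hmem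
  have hℓ0 : ((ℓ : ℕ) : LaurentSeries k') = 0 := by
    rw [← map_natCast (HahnSeries.C : k' →+* LaurentSeries k'), CharP.cast_eq_zero, map_zero]
  have key := map_natCast_mul_eq_zero_of_monic (coeffRing A') (coeffRed r') ℓ hℓ0 (P.map τ)
    (hPm.map τ) (sig N q (c : ↥(modularFunctionFieldFull N))) hroot hmem'
  have e : (⟨sig N q (((ℓ : ↥(chartAlgFin N ℓ)) * c : ↥(chartAlgFin N ℓ)) :
      ↥(modularFunctionFieldFull N)), hmem⟩ : ↥(coeffRing A')) =
      ⟨((ℓ : ℕ) : LaurentSeries ℂ) * sig N q (c : ↥(modularFunctionFieldFull N)), hmem'⟩ :=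
    Subtype.ext hval
  rw [e]
  exact key

end

end Fermat.Agent.S28lib
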