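/-
S28 library (item 66), piece U4-integrality (helper11).

`isIntegral_of_WH`: an element `f` of the function field `modularFunctionFieldFull N ⊂ ℚ((q))` whose
expansion is the expansion at `∞` of a `Γ₀(N)`-invariant, `ℚ̄`-rational, weakly HOLOMORPHIC function
`a ∈ WH N` is integral over `ℚ[j]`.

Proof: `a` is a root of the monic polynomial `symPoly N a = ∏_q (X - q.out • a)`, whose coefficients
are polynomials in `j` over `ℚ̄` (`exists_jpoly_eq`); `ℚ̄[X]` is integral over `ℚ[X]`; transfer along
the injective ring homomorphism `F → ℂ((t))`.   No sorry.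
-/
import Mathlib
import Fermat.Prelude.Def_ModularCurve_IgusaScheme
import Fermat.Agent.S24lib.Sym
import Fermat.Agent.S28lib.IntAlg

set_option autoImplicit false

open scoped MatrixGroups
open ModularCurve ModularCurve.IgusaScheme CongruenceSubgroup IntermediateField Polynomial

namespace Fermat.Agent.S28lib

open Fermat.Agent.S24lib

noncomputable section

/-- transitivity of integrality for ring homomorphisms, elementwise -/
theorem ui_isIntegralElem_comp {R S T : Type*} [CommRing R] [CommRing S] [CommRing T]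
    (f : R →+* S) (g : S →+* T) (hf : f.IsIntegral) {x : T} (hx : g.IsIntegralElem x) :
    (g.comp f).IsIntegralElem x := by
  let _ := f.toAlgebra
  let _ := g.toAlgebra
  let _ := (g.comp f).toAlgebra
  have : IsScalarTower R S T := IsScalarTower.of_algebraMap_eq fun _ ↦ rfl
  have : Algebra.IsIntegral R S := ⟨hf⟩
  exact isIntegral_trans (R := R) (A := S) x hx

/-- every element of `ℚ̄` is integral over `ℚ` (for any ring homomorphism `ℚ → ℚ̄`) -/
theorem ui_isIntegralElem_kbar (φ : ℚ →+* Kbar) (x : Kbar) : φ.IsIntegralElem x := by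
  let inst : Algebra ℚ (AlgebraicClosure ℚ) := AlgebraicClosure.instAlgebra ℚ
  have h : IsIntegral ℚ x := (Algebra.IsAlgebraic.isAlgebraic (R := ℚ) x).isIntegral
  have e : φ = algebraMap ℚ (AlgebraicClosure ℚ) := Subsingleton.elim _ _
  rw [e]
  exact h

/-- `ℚ[X] → ℚ̄[X]` is integral -/
theorem ui_map_isIntegral : (Polynomial.mapRingHom (algebraMap ℚ Kbar)).IsIntegral := by
  intro f
  exact (Polynomial.isIntegral_iff_isIntegral_coeff (R := ℚ) (S := Kbar) (f := f)).mpr
    (fun n => ui_isIntegralElem_kbar _ _)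

variable (N : ℕ) [NeZero N]

/-- the expansion `J = j(t^N)` over `ℂ` -/
def uiJ : LaurentSeries ℂ := qExpand ℂ N (coeffMap (algebraMap ℚ ℂ) jq)

/-- the expansion map on the function field over `ℚ` -/
def uiTheta : ↥(modularFunctionFieldFull N) →+* LaurentSeries ℂ :=
  ((qExpand ℂ N).comp (coeffMap (algebraMap ℚ ℂ))).comp
    (modularFunctionFieldFull N).toSubfield.subtype

theorem uiTheta_apply (f : ↥(modularFunctionFieldFull N)) :
    uiTheta N f = qExpand ℂ N (coeffMap (algebraMap ℚ ℂ) (f : LaurentSeries ℚ)) := rfl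

/-- `ℚ̄[X] → ℂ((t))`, `X ↦ J` -/
def uiPsi : Polynomial Kbar →+* LaurentSeries ℂ :=
  Polynomial.eval₂RingHom ((HahnSeries.C : ℂ →+* LaurentSeries ℂ).comp ιC) (uiJ N)

theorem expInf_jpoly (r : Polynomial Kbar) : expInf N (jpoly N r) = uiPsi N r := by
  unfold jpoly uiPsi
  rw [Polynomial.hom_eval₂, expInf_jWH, Polynomial.coe_eval₂RingHom]
  congr 1
  ext c : 1
  simp only [RingHom.comp_apply, expInf_whC]

theorem uiTheta_comp_aeval :
    (uiTheta N).comp (Polynomial.aeval (R := ℚ) (jFull N)).toRingHom =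
      (uiPsi N).comp (Polynomial.mapRingHom (algebraMap ℚ Kbar)) := by
  apply Polynomial.ringHom_ext
  · intro c
    have h : ((uiTheta N).comp (Polynomial.aeval (R := ℚ) (jFull N)).toRingHom).comp
        (Polynomial.C : ℚ →+* Polynomial ℚ) =
        ((uiPsi N).comp (Polynomial.mapRingHom (algebraMap ℚ Kbar))).comp
        (Polynomial.C : ℚ →+* Polynomial ℚ) := RingHom.ext_rat _ _
    exact congrArg (fun g => g c) h
  · simp only [RingHom.comp_apply, AlgHom.toRingHom_eq_coe, RingHom.coe_coe, Polynomial.aeval_X,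
      Polynomial.coe_mapRingHom, Polynomial.map_X]
    rw [uiTheta_apply, coe_jFull]
    unfold uiPsi
    rw [Polynomial.coe_eval₂RingHom, Polynomial.eval₂_X]
    rfl

/-- **U4 (integrality).** -/
theorem isIntegral_of_WH (f : ↥(modularFunctionFieldFull N)) (a : WH N)
    (ha : a ∈ KRat N) (hinv : ∀ γ ∈ Gamma0 N, γ • a = a)
    (h : expInf N a = qExpand ℂ N (coeffMap (algebraMap ℚ ℂ) (f : LaurentSeries ℚ))) :
    IsIntegral ↥(Algebra.adjoin ℚ {jFull N}) f := by
  classical
  rw [isIntegral_adjoin_singleton_iff (R := ℚ) (jFull N) f]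
  apply isIntegralElem_of_map (uiTheta N) (uiTheta N).injective
  rw [uiTheta_comp_aeval]
  apply ui_isIntegralElem_comp _ _ ui_map_isIntegral
  have hθ : uiTheta N f = expInf N a := h.symm
  rw [hθ]
  -- the coefficients of `symPoly`
  choose Pk hPk using fun k => exists_jpoly_eq N (symPoly_coeff_mem N ha k)
    (symPoly_coeff_smul N hinv k)
  set n := Fintype.card (SL(2, ℤ) ⧸ Gamma0 N) with hn
  -- `a` is a root of `symPoly`
  have hroot : (symPoly N a).eval a = 0 := by
    unfold symPoly
    rw [Polynomial.eval_prod]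
    refine Finset.prod_eq_zero (Finset.mem_univ (QuotientGroup.mk 1 : SL(2, ℤ) ⧸ Gamma0 N)) ?_
    rw [Polynomial.eval_sub, Polynomial.eval_X, Polynomial.eval_C, sym_smul_out N hinv, one_smul,
      sub_self]
  have hmonic : (symPoly N a).Monic := by
    unfold symPoly
    exact Polynomial.monic_prod_of_monic _ _ fun q _ => Polynomial.monic_X_sub_C _
  set M : Polynomial (LaurentSeries ℂ) := (symPoly N a).map (expInf N) with hM
  have hMmonic : M.Monic := hmonic.map _
  have hMdeg : M.natDegree = n := by
    rw [hM, hmonic.natDegree_map, symPoly_natDegree]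
  have hMroot : M.eval (expInf N a) = 0 := by
    rw [hM, Polynomial.eval_map, Polynomial.eval₂_hom, hroot, map_zero]
  have hMcoeff : ∀ k, M.coeff k = uiPsi N (Pk k) := by
    intro k
    rw [hM, Polynomial.coeff_map, hPk k, expInf_jpoly]
  -- the monic polynomial over `ℚ̄[X]`
  refine ⟨X ^ n + ∑ k ∈ Finset.range n, C (Pk k) * X ^ k, ?_, ?_⟩
  · apply Polynomial.monic_X_pow_add
    rw [← Fin.sum_univ_eq_sum_range (fun k => C (Pk k) * X ^ k) n]
    exact Polynomial.degree_sum_fin_lt (fun i : Fin n => Pk i)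
  · rw [Polynomial.eval₂_add, Polynomial.eval₂_pow, Polynomial.eval₂_X, Polynomial.eval₂_finsetSum]
    simp only [Polynomial.eval₂_mul, Polynomial.eval₂_C, Polynomial.eval₂_pow, Polynomial.eval₂_X]
    have hsum := hMmonic.as_sum
    rw [hMdeg] at hsum
    have := hMroot
    rw [hsum, Polynomial.eval_add, Polynomial.eval_pow, Polynomial.eval_X,
      Polynomial.eval_finsetSum] at this
    simp only [Polynomial.eval_mul, Polynomial.eval_C, Polynomial.eval_pow, Polynomial.eval_X,
      hMcoeff] at this
    exact this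

end

end Fermat.Agent.S28lib
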